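/-
Programme JAC (S25), Abel chapter (input (iv) of B6), brick (Ab2) "PointDiag" (helper56).

The line diagram `O(-Γ_φ)` of the graph of a `B`-point `φ` of one of the two charts of the curve,
over the constant family `(B ⊗[k] A0 → B ⊗[k] A01 ← B ⊗[k] A1; 1 ⊗ t, 1 ⊗ s)`, for ANY `k`-algebra
`B`, in helper46's `SectionDiv46.idealDiag` form, with its compatibilities.

ABSTRACT FAMILY block:
* `closure1 I0`, `closure0 J1`: closure of a divisor of one chart in the other chart; they are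
  invertible (`invertible_closure1/0`), comaximal with `s` resp. `t`, and have the expected
  extension to `R01` (`map_closure1/0`);
* `divDiag0 t s I0 hts`, `divDiag1 t s J1 hts : LineDiag t s R01` (`= O(-D)`);
* `nonempty_iso_divDiag0_divDiag1`: the two agree for a divisor contained in the overlap.
CONSTANT FAMILY (`open scoped ConstFamily36`), `ChartHyp k A` (finite type, geometrically Dedekind,
not finite-dimensional):
* `invertible_graphIdeal` (P1), `pointDiag0`, `pointDiag1` (P2), `nonempty_iso_pointDiag` /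
  `cls_pointDiag0_eq_cls_pointDiag1` (P3, overlap);
* `map_closure1_const`, `map_closure0_const`, `bc_cls_divDiag0`, `bc_cls_divDiag1`: base change
  along `ψ : B →ₐ[k] B'` in the class form of `AlgAtlas36.bc`;
* `bc_cls_pointDiag0`, `bc_cls_pointDiag1` (P4): `bc ψ [O(-Γ_φ)] = [O(-Γ_{ψ ∘ φ})]`;
* `bc_cls_pointDiag_universal`: the two universal classes agree over `A01`.
-/
import Fermat.Agent.JAC.Core.ConstFamily36
import Fermat.Agent.JAC.Cover.GraphIdeal98
import Fermat.Agent.JAC.Hilb.SectionDiv46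
import Fermat.Agent.JAC.Hilb.IdealDiagBC46
import Fermat.Agent.JAC.Hilb.DivBaseChange46
import Fermat.Agent.JAC.Div.BasedInvertible56
import Fermat.Agent.JAC.Div.DivisorFlat56

set_option autoImplicit false

open TensorProduct

namespace Fermat.Agent.JAC.Abel.PointDiag56

open Fermat.Agent.JAC.Core.Defs36 Fermat.Agent.JAC.Div.DivisorDiagram56
  Fermat.Agent.JAC.Div.BasedInvertible56 Fermat.Agent.JAC.Hilb.SectionDiv46
  Fermat.Agent.JAC.Hilb.IdealDiagBC46

section Abstract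

universe u

variable {B : Type*} [CommRing B]
variable {R0 R1 R01 : Type u} [CommRing R0] [CommRing R1] [CommRing R01]
variable [Algebra B R0] [Algebra B R1] [Algebra B R01] [Algebra R0 R01] [Algebra R1 R01]
variable [IsScalarTower B R0 R01] [IsScalarTower B R1 R01]
variable (t : R0) (s : R1) [IsLocalization.Away t R01] [IsLocalization.Away s R01]

/-- The closure in the chart `1` of a divisor `V(I0)` of the chart `0`. -/
def closure1 (I0 : Ideal R0) : Ideal R1 :=
  (I0.map (algebraMap R0 R01)).comap (algebraMap R1 R01)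

/-- The closure in the chart `0` of a divisor `V(J1)` of the chart `1`. -/
def closure0 (J1 : Ideal R1) : Ideal R0 :=
  (J1.map (algebraMap R1 R01)).comap (algebraMap R0 R01)

omit [IsLocalization.Away t R01] in
include s in
theorem map_closure1 (I0 : Ideal R0) :
    (closure1 (R1 := R1) (R01 := R01) I0).map (algebraMap R1 R01) = I0.map (algebraMap R0 R01) :=
  IsLocalization.map_under (Submonoid.powers s) R01 _

omit [IsLocalization.Away s R01] in
include t in
theorem map_closure0 (J1 : Ideal R1) :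
    (closure0 (R0 := R0) (R01 := R01) J1).map (algebraMap R0 R01) = J1.map (algebraMap R1 R01) :=
  IsLocalization.map_under (Submonoid.powers t) R01 _

theorem invertible_closure1 (I0 : Ideal R0) [Module.Finite B (R0 ⧸ I0)] [Module.Invertible R0 I0]
    (hts : algebraMap R0 R01 t * algebraMap R1 R01 s = 1) :
    Module.Invertible R1 (closure1 (R1 := R1) (R01 := R01) I0) :=
  invertible_I1 (B := B) t s I0 hts

theorem invertible_closure0 (J1 : Ideal R1) [Module.Finite B (R1 ⧸ J1)] [Module.Invertible R1 J1]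
    (hts : algebraMap R0 R01 t * algebraMap R1 R01 s = 1) :
    Module.Invertible R0 (closure0 (R0 := R0) (R01 := R01) J1) :=
  invertible_I1 (B := B) (R0 := R1) (R1 := R0) s t J1 (by rw [mul_comm]; exact hts)

omit [IsLocalization.Away t R01] [IsLocalization.Away s R01] in
theorem closure1_sup_span_eq_top (I0 : Ideal R0) [Module.Finite B (R0 ⧸ I0)]
    (hts : algebraMap R0 R01 t * algebraMap R1 R01 s = 1) :
    closure1 (R1 := R1) (R01 := R01) I0 ⊔ Ideal.span {s} = ⊤ :=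
  I1_sup_span_eq_top (B := B) t s I0 hts

omit [IsLocalization.Away t R01] [IsLocalization.Away s R01] in
theorem closure0_sup_span_eq_top (J1 : Ideal R1) [Module.Finite B (R1 ⧸ J1)]
    (hts : algebraMap R0 R01 t * algebraMap R1 R01 s = 1) :
    closure0 (R0 := R0) (R01 := R01) J1 ⊔ Ideal.span {t} = ⊤ :=
  I1_sup_span_eq_top (B := B) (R0 := R1) (R1 := R0) s t J1 (by rw [mul_comm]; exact hts)

/-- `O(-D)` for a relative effective divisor `D = V(I0)` of the chart `0`, finite over `B`, in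
helper46's `idealDiag` form. -/
noncomputable def divDiag0 (I0 : Ideal R0) [Module.Finite B (R0 ⧸ I0)] [Module.Invertible R0 I0]
    (hts : algebraMap R0 R01 t * algebraMap R1 R01 s = 1) : LineDiag t s R01 :=
  haveI := invertible_closure1 (B := B) t s I0 hts
  idealDiag t s I0 (closure1 (R1 := R1) (R01 := R01) I0) (map_closure1 s I0).symm

/-- `O(-D)` for a relative effective divisor `D = V(J1)` of the chart `1`, finite over `B`. -/
noncomputable def divDiag1 (J1 : Ideal R1) [Module.Finite B (R1 ⧸ J1)] [Module.Invertible R1 J1]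
    (hts : algebraMap R0 R01 t * algebraMap R1 R01 s = 1) : LineDiag t s R01 :=
  haveI := invertible_closure0 (B := B) t s J1 hts
  idealDiag t s (closure0 (R0 := R0) (R01 := R01) J1) J1 (map_closure0 t J1)

/-- **Overlap.**  If `I0` and `J1` are both the contractions of one ideal `G01` of `R01` (a divisor
contained in `U01`), the two constructions give isomorphic diagrams. -/
theorem nonempty_iso_divDiag0_divDiag1 (G01 : Ideal R01) (I0 : Ideal R0) (J1 : Ideal R1)
    [Module.Finite B (R0 ⧸ I0)] [Module.Invertible R0 I0]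
    [Module.Finite B (R1 ⧸ J1)] [Module.Invertible R1 J1]
    (h0 : I0 = G01.comap (algebraMap R0 R01)) (h1 : J1 = G01.comap (algebraMap R1 R01))
    (hts : algebraMap R0 R01 t * algebraMap R1 R01 s = 1) :
    Nonempty (LineDiag.Iso (divDiag0 (B := B) t s I0 hts) (divDiag1 (B := B) t s J1 hts)) := by
  have e0 : I0.map (algebraMap R0 R01) = G01 := by
    rw [h0]; exact IsLocalization.map_under (Submonoid.powers t) R01 _
  have e1 : J1.map (algebraMap R1 R01) = G01 := by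
    rw [h1]; exact IsLocalization.map_under (Submonoid.powers s) R01 _
  have hc1 : closure1 (R1 := R1) (R01 := R01) I0 = J1 := by
    unfold closure1; rw [e0, ← h1]
  have hc0 : I0 = closure0 (R0 := R0) (R01 := R01) J1 := by
    unfold closure0; rw [e1, ← h0]
  have := invertible_closure1 (B := B) t s I0 hts
  have := invertible_closure0 (B := B) t s J1 hts
  exact ⟨idealDiagCongr hc0 hc1 _ _⟩

end Abstract

section Const

universe u

open scoped Fermat.Agent.JAC.Core.ConstFamily36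
open Fermat.Agent.JAC.Core.ConstFamily36 Fermat.Agent.JAC.Cover.GraphIdeal98
  Fermat.Agent.JAC.Div.CartierFinal56

/-- The hypotheses on one chart ring of the CURVE block used for relative divisors: finite type,
geometrically Dedekind, not finite-dimensional. -/
structure ChartHyp (k A : Type u) [Field k] [CommRing A] [Algebra k A] : Prop where
  finiteType : Algebra.FiniteType k A
  dedekind : ∀ (K : Type u) [Field K] [Algebra k K], IsDedekindDomain (K ⊗[k] A)
  not_finite : ¬ Module.Finite k A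

variable {k : Type u} [Field k] {A0 A1 A01 : Type u} [CommRing A0] [CommRing A1] [CommRing A01]
  [Algebra k A0] [Algebra k A1] [Algebra k A01] [Algebra A0 A01] [Algebra A1 A01]
  [IsScalarTower k A0 A01] [IsScalarTower k A1 A01] (t : A0) (s : A1)
  [IsLocalization.Away t A01] [IsLocalization.Away s A01]
  {B : Type u} [CommRing B] [Algebra k B]

omit [IsLocalization.Away t A01] [IsLocalization.Away s A01] in
theorem hts_const (hts : algebraMap A0 A01 t * algebraMap A1 A01 s = 1) :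
    algebraMap (B ⊗[k] A0) (B ⊗[k] A01) ((1 : B) ⊗ₜ[k] t) *
      algebraMap (B ⊗[k] A1) (B ⊗[k] A01) ((1 : B) ⊗ₜ[k] s) = 1 := by
  rw [algebraMap_tensor_tmul, algebraMap_tensor_tmul, Algebra.TensorProduct.tmul_mul_tmul, hts,
    mul_one, Algebra.TensorProduct.one_def]

/-- **(P1)** The graph ideal of a `B`-point of a chart is an invertible module. -/
theorem invertible_graphIdeal {A : Type u} [CommRing A] [Algebra k A] (h : ChartHyp k A)
    (φ : A →ₐ[k] B) : Module.Invertible (B ⊗[k] A) (graphIdeal φ) := by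
  have := h.finiteType
  exact invertible_of_dedekind_fibres_const
    (fun K _ _ => ⟨h.dedekind K, not_isField_baseChange_of_not_finite h.not_finite K⟩) (graphIdeal φ)

/-- **(P2)** `O(-Γ_φ)` for a `B`-point `φ` of the chart `0`. -/
noncomputable def pointDiag0 (h0 : ChartHyp k A0)
    (hts : algebraMap A0 A01 t * algebraMap A1 A01 s = 1) (φ : A0 →ₐ[k] B) :
    LineDiag ((1 : B) ⊗ₜ[k] t) ((1 : B) ⊗ₜ[k] s) (B ⊗[k] A01) :=
  haveI := invertible_graphIdeal h0 φ
  divDiag0 (B := B) ((1 : B) ⊗ₜ[k] t) ((1 : B) ⊗ₜ[k] s) (graphIdeal φ) (hts_const t s hts)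

/-- **(P2)** `O(-Γ_φ)` for a `B`-point `φ` of the chart `1`. -/
noncomputable def pointDiag1 (h1 : ChartHyp k A1)
    (hts : algebraMap A0 A01 t * algebraMap A1 A01 s = 1) (φ : A1 →ₐ[k] B) :
    LineDiag ((1 : B) ⊗ₜ[k] t) ((1 : B) ⊗ₜ[k] s) (B ⊗[k] A01) :=
  haveI := invertible_graphIdeal h1 φ
  divDiag1 (B := B) ((1 : B) ⊗ₜ[k] t) ((1 : B) ⊗ₜ[k] s) (graphIdeal φ) (hts_const t s hts)

omit [IsLocalization.Away t A01] [IsLocalization.Away s A01] in
theorem comap_graphIdeal_const {A A' : Type u} [CommRing A] [CommRing A'] [Algebra k A]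
    [Algebra k A'] [Algebra A A'] [IsScalarTower k A A'] (χ : A' →ₐ[k] B) :
    graphIdeal (χ.comp (IsScalarTower.toAlgHom k A A')) =
      (graphIdeal χ).comap (algebraMap (B ⊗[k] A) (B ⊗[k] A')) := by
  rw [← comap_graphIdeal]
  ext x
  rw [Ideal.mem_comap, Ideal.mem_comap]
  have : (Algebra.TensorProduct.map (AlgHom.id k B) (IsScalarTower.toAlgHom k A A')) x =
      algebraMap (B ⊗[k] A) (B ⊗[k] A') x := by
    induction x using TensorProduct.induction_on with
    | zero => simp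
    | tmul b a => rfl
    | add x y hx hy => simp only [map_add, hx, hy]
  rw [this]

/-- **(P3)** Overlap: for a `B`-point of `U0 ∩ U1` the two constructions agree. -/
theorem nonempty_iso_pointDiag (h0 : ChartHyp k A0) (h1 : ChartHyp k A1)
    (hts : algebraMap A0 A01 t * algebraMap A1 A01 s = 1) (φ01 : A01 →ₐ[k] B) :
    Nonempty (LineDiag.Iso
      (pointDiag0 t s h0 hts (φ01.comp (IsScalarTower.toAlgHom k A0 A01)))
      (pointDiag1 t s h1 hts (φ01.comp (IsScalarTower.toAlgHom k A1 A01)))) := by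
  have := invertible_graphIdeal h0 (φ01.comp (IsScalarTower.toAlgHom k A0 A01))
  have := invertible_graphIdeal h1 (φ01.comp (IsScalarTower.toAlgHom k A1 A01))
  exact nonempty_iso_divDiag0_divDiag1 (B := B) ((1 : B) ⊗ₜ[k] t) ((1 : B) ⊗ₜ[k] s)
    (graphIdeal φ01) _ _ (comap_graphIdeal_const φ01) (comap_graphIdeal_const φ01)
    (hts_const t s hts)

/-! ### Base change -/

section BaseChange

open Fermat.Agent.JAC.Core.AlgAtlas36 Fermat.Agent.JAC.Hilb.DivBaseChange46
  Fermat.Agent.JAC.Grp.Diag33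

variable {B' : Type u} [CommRing B'] [Algebra k B'] (ψ : B →ₐ[k] B')

omit [IsLocalization.Away t A01] in
/-- The closure at infinity commutes with base change. -/
theorem map_closure1_const (Z0 : Ideal (B ⊗[k] A0)) (Z0' : Ideal (B' ⊗[k] A0))
    (hZ : Z0.map (bcMap ψ A0 A0) = Z0')
    [Module.Finite B ((B ⊗[k] A0) ⧸ Z0)] [Module.Finite B' ((B' ⊗[k] A0) ⧸ Z0')]
    (hts : algebraMap A0 A01 t * algebraMap A1 A01 s = 1) :
    (closure1 (R1 := B ⊗[k] A1) (R01 := B ⊗[k] A01) Z0).map (bcMap ψ A1 A1) =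
      closure1 (R1 := B' ⊗[k] A1) (R01 := B' ⊗[k] A01) Z0' := by
  have hinf := closure1_sup_span_eq_top (B := B) (R1 := B ⊗[k] A1) (R01 := B ⊗[k] A01)
    ((1 : B) ⊗ₜ[k] t) ((1 : B) ⊗ₜ[k] s) Z0 (hts_const t s hts)
  have hinf' := closure1_sup_span_eq_top (B := B') (R1 := B' ⊗[k] A1) (R01 := B' ⊗[k] A01)
    ((1 : B') ⊗ₜ[k] t) ((1 : B') ⊗ₜ[k] s) Z0' (hts_const t s hts)
  refine eq_of_map_eq_of_sup_span_eq_top ((1 : B') ⊗ₜ[k] s) (B' ⊗[k] A01)
    (map_bcMap_sup_span_eq_top ψ hinf) hinf' ?_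
  rw [← map_bcMap_eq ψ (map_closure1 (R1 := B ⊗[k] A1) (R01 := B ⊗[k] A01)
    ((1 : B) ⊗ₜ[k] s) Z0).symm, hZ, map_closure1 (R1 := B' ⊗[k] A1) (R01 := B' ⊗[k] A01)
    ((1 : B') ⊗ₜ[k] s) Z0']

omit [IsLocalization.Away s A01] in
/-- The closure in the chart `0` commutes with base change. -/
theorem map_closure0_const (J1 : Ideal (B ⊗[k] A1)) (J1' : Ideal (B' ⊗[k] A1))
    (hJ : J1.map (bcMap ψ A1 A1) = J1')
    [Module.Finite B ((B ⊗[k] A1) ⧸ J1)] [Module.Finite B' ((B' ⊗[k] A1) ⧸ J1')]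
    (hts : algebraMap A0 A01 t * algebraMap A1 A01 s = 1) :
    (closure0 (R0 := B ⊗[k] A0) (R01 := B ⊗[k] A01) J1).map (bcMap ψ A0 A0) =
      closure0 (R0 := B' ⊗[k] A0) (R01 := B' ⊗[k] A01) J1' := by
  have hinf := closure0_sup_span_eq_top (B := B) (R0 := B ⊗[k] A0) (R01 := B ⊗[k] A01)
    ((1 : B) ⊗ₜ[k] t) ((1 : B) ⊗ₜ[k] s) J1 (hts_const t s hts)
  have hinf' := closure0_sup_span_eq_top (B := B') (R0 := B' ⊗[k] A0) (R01 := B' ⊗[k] A01)
    ((1 : B') ⊗ₜ[k] t) ((1 : B') ⊗ₜ[k] s) J1' (hts_const t s hts)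
  refine eq_of_map_eq_of_sup_span_eq_top ((1 : B') ⊗ₜ[k] t) (B' ⊗[k] A01)
    (map_bcMap_sup_span_eq_top (A1 := A0) (s := t) ψ hinf) hinf' ?_
  rw [map_bcMap_eq ψ (map_closure0 (R0 := B ⊗[k] A0) (R01 := B ⊗[k] A01)
    ((1 : B) ⊗ₜ[k] t) J1), hJ, map_closure0 (R0 := B' ⊗[k] A0) (R01 := B' ⊗[k] A01)
    ((1 : B') ⊗ₜ[k] t) J1']

/-- **Base change of `O(-D)`, `D` in the chart `0`** (class form, `AlgAtlas36.bc`). -/
theorem bc_cls_divDiag0 (Z0 : Ideal (B ⊗[k] A0)) (Z0' : Ideal (B' ⊗[k] A0))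
    (hZ : Z0.map (bcMap ψ A0 A0) = Z0')
    [Module.Finite B ((B ⊗[k] A0) ⧸ Z0)] [Module.Flat B ((B ⊗[k] A0) ⧸ Z0)]
    [Module.Invertible (B ⊗[k] A0) Z0]
    [Module.Finite B' ((B' ⊗[k] A0) ⧸ Z0')] [Module.Invertible (B' ⊗[k] A0) Z0']
    (hts : algebraMap A0 A01 t * algebraMap A1 A01 s = 1) :
    bc ψ (cls (divDiag0 (B := B) ((1 : B) ⊗ₜ[k] t) ((1 : B) ⊗ₜ[k] s) Z0 (hts_const t s hts))) =
      cls (divDiag0 (B := B') ((1 : B') ⊗ₜ[k] t) ((1 : B') ⊗ₜ[k] s) Z0' (hts_const t s hts)) := by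
  have i1 := invertible_closure1 (B := B) (R1 := B ⊗[k] A1) (R01 := B ⊗[k] A01)
    ((1 : B) ⊗ₜ[k] t) ((1 : B) ⊗ₜ[k] s) Z0 (hts_const t s hts)
  have i1' := invertible_closure1 (B := B') (R1 := B' ⊗[k] A1) (R01 := B' ⊗[k] A01)
    ((1 : B') ⊗ₜ[k] t) ((1 : B') ⊗ₜ[k] s) Z0' (hts_const t s hts)
  have hinf := closure1_sup_span_eq_top (B := B) (R1 := B ⊗[k] A1) (R01 := B ⊗[k] A01)
    ((1 : B) ⊗ₜ[k] t) ((1 : B) ⊗ₜ[k] s) Z0 (hts_const t s hts)
  have h := (map_closure1 (R1 := B ⊗[k] A1) (R01 := B ⊗[k] A01) ((1 : B) ⊗ₜ[k] s) Z0).symm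
  have hflat1 := flat_quotient_infty (t := t) (s := s) Z0 _ h hinf
  obtain ⟨j0, j1, e⟩ := bc_cls_idealDiag (t := t) (s := s) ψ Z0 _ h
  unfold divDiag0
  rw [e]
  exact cls_eq_iff.mpr ⟨idealDiagCongr hZ (map_closure1_const t s ψ Z0 Z0' hZ hts) _ _⟩

/-- **Base change of `O(-D)`, `D` in the chart `1`** (class form, `AlgAtlas36.bc`). -/
theorem bc_cls_divDiag1 (J1 : Ideal (B ⊗[k] A1)) (J1' : Ideal (B' ⊗[k] A1))
    (hJ : J1.map (bcMap ψ A1 A1) = J1')
    [Module.Finite B ((B ⊗[k] A1) ⧸ J1)] [Module.Flat B ((B ⊗[k] A1) ⧸ J1)]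
    [Module.Invertible (B ⊗[k] A1) J1]
    [Module.Finite B' ((B' ⊗[k] A1) ⧸ J1')] [Module.Invertible (B' ⊗[k] A1) J1']
    (hts : algebraMap A0 A01 t * algebraMap A1 A01 s = 1) :
    bc ψ (cls (divDiag1 (B := B) ((1 : B) ⊗ₜ[k] t) ((1 : B) ⊗ₜ[k] s) J1 (hts_const t s hts))) =
      cls (divDiag1 (B := B') ((1 : B') ⊗ₜ[k] t) ((1 : B') ⊗ₜ[k] s) J1' (hts_const t s hts)) := by
  have i0 := invertible_closure0 (B := B) (R0 := B ⊗[k] A0) (R01 := B ⊗[k] A01)
    ((1 : B) ⊗ₜ[k] t) ((1 : B) ⊗ₜ[k] s) J1 (hts_const t s hts)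
  have i0' := invertible_closure0 (B := B') (R0 := B' ⊗[k] A0) (R01 := B' ⊗[k] A01)
    ((1 : B') ⊗ₜ[k] t) ((1 : B') ⊗ₜ[k] s) J1' (hts_const t s hts)
  have hinf := closure0_sup_span_eq_top (B := B) (R0 := B ⊗[k] A0) (R01 := B ⊗[k] A01)
    ((1 : B) ⊗ₜ[k] t) ((1 : B) ⊗ₜ[k] s) J1 (hts_const t s hts)
  have h := map_closure0 (R0 := B ⊗[k] A0) (R01 := B ⊗[k] A01) ((1 : B) ⊗ₜ[k] t) J1
  have hflat0 : Module.Flat B ((B ⊗[k] A0) ⧸ closure0 (R0 := B ⊗[k] A0) (R01 := B ⊗[k] A01) J1) :=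
    Fermat.Agent.JAC.Hilb.FlatPure46.flat_quotient_of_sup_span_eq_top (B := B)
      (R0 := B ⊗[k] A1) (R1 := B ⊗[k] A0) (R01 := B ⊗[k] A01)
      ((1 : B) ⊗ₜ[k] s) ((1 : B) ⊗ₜ[k] t) J1 _ h.symm hinf
  obtain ⟨j0, j1, e⟩ := bc_cls_idealDiag (t := t) (s := s) ψ _ J1 h
  unfold divDiag1
  rw [e]
  exact cls_eq_iff.mpr ⟨idealDiagCongr (map_closure0_const t s ψ J1 J1' hJ hts) hJ _ _⟩

/-- **(P4)** Base change of `O(-Γ_φ)`, chart `0`. -/
theorem bc_cls_pointDiag0 (h0 : ChartHyp k A0)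
    (hts : algebraMap A0 A01 t * algebraMap A1 A01 s = 1) (φ : A0 →ₐ[k] B) :
    bc ψ (cls (pointDiag0 t s h0 hts φ)) = cls (pointDiag0 t s h0 hts (ψ.comp φ)) := by
  have := invertible_graphIdeal h0 φ
  have := invertible_graphIdeal h0 (ψ.comp φ)
  exact bc_cls_divDiag0 t s ψ (graphIdeal φ) (graphIdeal (ψ.comp φ)) (map_graphIdeal φ ψ) hts

/-- **(P4)** Base change of `O(-Γ_φ)`, chart `1`. -/
theorem bc_cls_pointDiag1 (h1 : ChartHyp k A1)
    (hts : algebraMap A0 A01 t * algebraMap A1 A01 s = 1) (φ : A1 →ₐ[k] B) :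
    bc ψ (cls (pointDiag1 t s h1 hts φ)) = cls (pointDiag1 t s h1 hts (ψ.comp φ)) := by
  have := invertible_graphIdeal h1 φ
  have := invertible_graphIdeal h1 (ψ.comp φ)
  exact bc_cls_divDiag1 t s ψ (graphIdeal φ) (graphIdeal (ψ.comp φ)) (map_graphIdeal φ ψ) hts

/-- **(P3)**, class form. -/
theorem cls_pointDiag0_eq_cls_pointDiag1 (h0 : ChartHyp k A0) (h1 : ChartHyp k A1)
    (hts : algebraMap A0 A01 t * algebraMap A1 A01 s = 1) (φ01 : A01 →ₐ[k] B) :
    cls (pointDiag0 t s h0 hts (φ01.comp (IsScalarTower.toAlgHom k A0 A01))) =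
      cls (pointDiag1 t s h1 hts (φ01.comp (IsScalarTower.toAlgHom k A1 A01))) :=
  cls_eq_iff.mpr (nonempty_iso_pointDiag t s h0 h1 hts φ01)

/-- **The two universal point classes agree on the overlap**: the classes of `O(-Δ)` over `A0`
(universal point of the chart `0`) and over `A1` (universal point of the chart `1`) have the same
base change to `A01`. -/
theorem bc_cls_pointDiag_universal (h0 : ChartHyp k A0) (h1 : ChartHyp k A1)
    (hts : algebraMap A0 A01 t * algebraMap A1 A01 s = 1) :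
    bc (IsScalarTower.toAlgHom k A0 A01) (cls (pointDiag0 t s h0 hts (AlgHom.id k A0))) =
      bc (IsScalarTower.toAlgHom k A1 A01) (cls (pointDiag1 t s h1 hts (AlgHom.id k A1))) := by
  rw [bc_cls_pointDiag0, bc_cls_pointDiag1]
  exact cls_pointDiag0_eq_cls_pointDiag1 t s h0 h1 hts (AlgHom.id k A01)

end BaseChange

end Const

end Fermat.Agent.JAC.Abel.PointDiag56
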