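/-
Programme JAC (S25), Abel chapter (input (iv) of B6), brick "AbelClass" (helper56).

The ABEL CLASSES of the points of the curve, on top of `Abel/PointDiag56` and helper33's
rigidification (`Grp/RigidifyBc33`).  CURVE block, base point `e : A01 →ₐ[k] k`, `B` any
`k`-algebra:
* `constPt0 e B`, `constPt1 e B`: the constant point `P0` as a `B`-point of either chart;
* `abelPre0 φ = [O(Γ_φ - P0 × B)]`, `abelCl0 φ = rigidifyCl (abelPre0 φ)` for `φ : A0 →ₐ[k] B`
  (same with `1`);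
* `isRigidCl_abelCl0/1`, `bc_abelCl0/1` (naturality in `B`), `abelCl0_eq_abelCl1` (overlap);
* the universal classes `xi0 : Cl A0`, `xi1 : Cl A1`, with `bc_xi0 φ : bc φ xi0 = abelCl0 φ`,
  `bc_xi0_eq_bc_xi1` (they agree over `A01`), `isRigidCl_xi0/1`;
* `isDegZero_abelCl0/1` from additivity of the degree and `deg O(-x) = -1` (hypotheses);
* `abelCl0_eq_abelPre0`: no rigidification needed when `Pic B` is trivial (fields).
-/
import Fermat.Agent.JAC.Abel.PointDiag56
import Fermat.Agent.JAC.Grp.RigidifyBc33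

set_option autoImplicit false
set_option linter.unusedSectionVars false

open TensorProduct

namespace Fermat.Agent.JAC.Abel.AbelClass56

open scoped Fermat.Agent.JAC.Core.ConstFamily36
open Fermat.Agent.JAC.Core.Defs36 Fermat.Agent.JAC.Core.ConstFamily36
  Fermat.Agent.JAC.Core.Degree36 Fermat.Agent.JAC.Core.AlgAtlas36
  Fermat.Agent.JAC.Grp.Diag33 Fermat.Agent.JAC.Grp.ConstBc33 Fermat.Agent.JAC.Grp.RigidifyBc33
  Fermat.Agent.JAC.Abel.PointDiag56

universe u

variable {k : Type u} [Field k] {A0 A1 A01 : Type u} [CommRing A0] [CommRing A1] [CommRing A01]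
  [Algebra k A0] [Algebra k A1] [Algebra k A01] [Algebra A0 A01] [Algebra A1 A01]
  [IsScalarTower k A0 A01] [IsScalarTower k A1 A01] (t : A0) (s : A1)
  [IsLocalization.Away t A01] [IsLocalization.Away s A01]
  (h0 : ChartHyp k A0) (h1 : ChartHyp k A1)
  (hts : algebraMap A0 A01 t * algebraMap A1 A01 s = 1) (e : A01 →ₐ[k] k)
  {B B' : Type u} [CommRing B] [CommRing B'] [Algebra k B] [Algebra k B']

/-- The constant `B`-point `P0` of `U0 ∩ U1`. -/
noncomputable def constPt01 (B : Type u) [CommRing B] [Algebra k B] : A01 →ₐ[k] B :=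
  (Algebra.ofId k B).comp e

/-- The constant `B`-point `P0`, in the chart `0`. -/
noncomputable def constPt0 (B : Type u) [CommRing B] [Algebra k B] : A0 →ₐ[k] B :=
  (constPt01 e B).comp (IsScalarTower.toAlgHom k A0 A01)

/-- The constant `B`-point `P0`, in the chart `1`. -/
noncomputable def constPt1 (B : Type u) [CommRing B] [Algebra k B] : A1 →ₐ[k] B :=
  (constPt01 e B).comp (IsScalarTower.toAlgHom k A1 A01)

theorem comp_constPt01 (ψ : B →ₐ[k] B') : ψ.comp (constPt01 e B) = constPt01 e B' := by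
  ext a
  simp [constPt01, Algebra.ofId_apply]

theorem comp_constPt0 (ψ : B →ₐ[k] B') :
    ψ.comp (constPt0 (A0 := A0) e B) = constPt0 e B' := by
  unfold constPt0
  rw [← AlgHom.comp_assoc, comp_constPt01]

theorem comp_constPt1 (ψ : B →ₐ[k] B') :
    ψ.comp (constPt1 (A1 := A1) e B) = constPt1 e B' := by
  unfold constPt1
  rw [← AlgHom.comp_assoc, comp_constPt01]

/-- `[O(Γ_φ - P0 × B)]` for a `B`-point `φ` of the chart `0` (not yet rigidified). -/
noncomputable def abelPre0 (φ : A0 →ₐ[k] B) : Cl k A0 A1 A01 t s B :=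
  (cls (pointDiag0 t s h0 hts φ))⁻¹ * cls (pointDiag0 t s h0 hts (constPt0 e B))

/-- `[O(Γ_φ - P0 × B)]` for a `B`-point `φ` of the chart `1` (not yet rigidified). -/
noncomputable def abelPre1 (φ : A1 →ₐ[k] B) : Cl k A0 A1 A01 t s B :=
  (cls (pointDiag1 t s h1 hts φ))⁻¹ * cls (pointDiag1 t s h1 hts (constPt1 e B))

/-- **The Abel class** of a `B`-point `φ` of the chart `0`: the rigidification of
`[O(Γ_φ - P0 × B)]`. -/
noncomputable def abelCl0 (φ : A0 →ₐ[k] B) : Cl k A0 A1 A01 t s B :=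
  rigidifyCl A0 A1 t s e B (abelPre0 t s h0 hts e φ)

/-- **The Abel class** of a `B`-point `φ` of the chart `1`. -/
noncomputable def abelCl1 (φ : A1 →ₐ[k] B) : Cl k A0 A1 A01 t s B :=
  rigidifyCl A0 A1 t s e B (abelPre1 t s h1 hts e φ)

theorem isRigidCl_abelCl0 (φ : A0 →ₐ[k] B) : IsRigidCl e B (abelCl0 t s h0 hts e φ) :=
  isRigidCl_rigidifyCl e _

theorem isRigidCl_abelCl1 (φ : A1 →ₐ[k] B) : IsRigidCl e B (abelCl1 t s h1 hts e φ) :=
  isRigidCl_rigidifyCl e _

theorem bc_abelPre0 (ψ : B →ₐ[k] B') (φ : A0 →ₐ[k] B) :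
    bc ψ (abelPre0 t s h0 hts e φ) = abelPre0 t s h0 hts e (ψ.comp φ) := by
  unfold abelPre0
  rw [map_mul, map_inv, bc_cls_pointDiag0, bc_cls_pointDiag0, comp_constPt0]

theorem bc_abelPre1 (ψ : B →ₐ[k] B') (φ : A1 →ₐ[k] B) :
    bc ψ (abelPre1 t s h1 hts e φ) = abelPre1 t s h1 hts e (ψ.comp φ) := by
  unfold abelPre1
  rw [map_mul, map_inv, bc_cls_pointDiag1, bc_cls_pointDiag1, comp_constPt1]

/-- Naturality of the Abel class in `B`. -/
theorem bc_abelCl0 (ψ : B →ₐ[k] B') (φ : A0 →ₐ[k] B) :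
    bc ψ (abelCl0 t s h0 hts e φ) = abelCl0 t s h0 hts e (ψ.comp φ) := by
  unfold abelCl0
  rw [bc_rigidifyCl, bc_abelPre0]

theorem bc_abelCl1 (ψ : B →ₐ[k] B') (φ : A1 →ₐ[k] B) :
    bc ψ (abelCl1 t s h1 hts e φ) = abelCl1 t s h1 hts e (ψ.comp φ) := by
  unfold abelCl1
  rw [bc_rigidifyCl, bc_abelPre1]

/-- On the overlap the two chart descriptions agree. -/
theorem abelPre0_eq_abelPre1 (φ01 : A01 →ₐ[k] B) :
    abelPre0 t s h0 hts e (φ01.comp (IsScalarTower.toAlgHom k A0 A01)) =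
      abelPre1 t s h1 hts e (φ01.comp (IsScalarTower.toAlgHom k A1 A01)) := by
  unfold abelPre0 abelPre1 constPt0 constPt1
  rw [cls_pointDiag0_eq_cls_pointDiag1 t s h0 h1 hts φ01,
    cls_pointDiag0_eq_cls_pointDiag1 t s h0 h1 hts (constPt01 e B)]

theorem abelCl0_eq_abelCl1 (φ01 : A01 →ₐ[k] B) :
    abelCl0 t s h0 hts e (φ01.comp (IsScalarTower.toAlgHom k A0 A01)) =
      abelCl1 t s h1 hts e (φ01.comp (IsScalarTower.toAlgHom k A1 A01)) := by
  unfold abelCl0 abelCl1
  rw [abelPre0_eq_abelPre1 t s h0 h1 hts e φ01]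

/-- The universal Abel class over the chart `0`. -/
noncomputable def xi0 : Cl k A0 A1 A01 t s A0 := abelCl0 t s h0 hts e (AlgHom.id k A0)

/-- The universal Abel class over the chart `1`. -/
noncomputable def xi1 : Cl k A0 A1 A01 t s A1 := abelCl1 t s h1 hts e (AlgHom.id k A1)

theorem bc_xi0 (φ : A0 →ₐ[k] B) : bc φ (xi0 t s h0 hts e) = abelCl0 t s h0 hts e φ := by
  unfold xi0
  rw [bc_abelCl0, AlgHom.comp_id]

theorem bc_xi1 (φ : A1 →ₐ[k] B) : bc φ (xi1 t s h1 hts e) = abelCl1 t s h1 hts e φ := by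
  unfold xi1
  rw [bc_abelCl1, AlgHom.comp_id]

/-- **The two universal Abel classes agree over the overlap** (`agree` of the Abel data). -/
theorem bc_xi0_eq_bc_xi1 :
    bc (IsScalarTower.toAlgHom k A0 A01) (xi0 t s h0 hts e) =
      bc (IsScalarTower.toAlgHom k A1 A01) (xi1 t s h1 hts e) := by
  rw [bc_xi0, bc_xi1]
  have := abelCl0_eq_abelCl1 t s h0 h1 hts e (AlgHom.id k A01)
  rwa [AlgHom.id_comp, AlgHom.id_comp] at this

theorem isRigidCl_xi0 : IsRigidCl e A0 (xi0 t s h0 hts e) := isRigidCl_abelCl0 t s h0 hts e _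

theorem isRigidCl_xi1 : IsRigidCl e A1 (xi1 t s h1 hts e) := isRigidCl_abelCl1 t s h1 hts e _

/-! ### Degree zero -/

section Degree

variable (hadd : ∀ (K : Type u) [Field K] [IsAlgClosed K] [Algebra k K]
    (x y : Cl k A0 A1 A01 t s K), degClass K (x * y) = degClass K x + degClass K y)

include hadd in
theorem degClass_inv_of_additive (K : Type u) [Field K] [IsAlgClosed K] [Algebra k K]
    (x : Cl k A0 A1 A01 t s K) : degClass K x⁻¹ = - degClass K x := by
  have h := hadd K x x⁻¹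
  have h1 : degClass K (1 : Cl k A0 A1 A01 t s K) = 0 := deg_unit K
  rw [mul_inv_cancel, h1] at h
  linarith

include hadd in
/-- The Abel classes have degree zero, given additivity of the degree and `deg O(-x) = -1`. -/
theorem isDegZero_abelCl0
    (hpt : ∀ (K : Type u) [Field K] [IsAlgClosed K] [Algebra k K] (φ : A0 →ₐ[k] K),
      degClass K (cls (pointDiag0 t s h0 hts φ)) = -1)
    (φ : A0 →ₐ[k] B) : IsDegZero B (abelCl0 t s h0 hts e φ) := by
  unfold abelCl0
  rw [isDegZero_rigidifyCl_iff]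
  intro K _ _ _ ψ
  rw [bc_abelPre0]
  unfold abelPre0
  rw [hadd K, degClass_inv_of_additive t s hadd K, hpt K, hpt K]
  norm_num

include hadd in
theorem isDegZero_abelCl1
    (hpt : ∀ (K : Type u) [Field K] [IsAlgClosed K] [Algebra k K] (φ : A1 →ₐ[k] K),
      degClass K (cls (pointDiag1 t s h1 hts φ)) = -1)
    (φ : A1 →ₐ[k] B) : IsDegZero B (abelCl1 t s h1 hts e φ) := by
  unfold abelCl1
  rw [isDegZero_rigidifyCl_iff]
  intro K _ _ _ ψ
  rw [bc_abelPre1]
  unfold abelPre1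
  rw [hadd K, degClass_inv_of_additive t s hadd K, hpt K, hpt K]
  norm_num

end Degree

/-- Over a ring with trivial Picard group (a field), no rigidification is needed. -/
theorem abelCl0_eq_abelPre0 [Subsingleton (CommRing.Pic B)] (φ : A0 →ₐ[k] B) :
    abelCl0 t s h0 hts e φ = abelPre0 t s h0 hts e φ :=
  rigidifyCl_eq_self e _

theorem abelCl1_eq_abelPre1 [Subsingleton (CommRing.Pic B)] (φ : A1 →ₐ[k] B) :
    abelCl1 t s h1 hts e φ = abelPre1 t s h1 hts e φ :=
  rigidifyCl_eq_self e _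

end Fermat.Agent.JAC.Abel.AbelClass56
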