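/-
Programme JAC (S25), Abel chapter, brick "PointDict" (helper56): the dictionary between the point
diagrams `O(-Γ_φ)` of `Abel/PointDiag56` over a FIELD `K` and helper38's divisor language, for
ARBITRARY `K`-points of either chart (helper67's `PointDiag67.pointIso` treats points of the
overlap only; Jacobi inversion needs all places).

Setting38 block (`S : IsSetting K F t s B₀₁`):
* `isLatOf_comap1/0`: contraction to a chart of the lattice of an anti-effective divisor supported in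
  the other chart; `isLatOf_closure1_ker`, `isLatOf_closure0_ker`;
* `chartPointIso0 S hB0 Φ`, `chartPointIso1 S hB1 Φ`: `idealDiag (ker Φ) (closure (ker Φ)) ≅ O(-[Φ])`
  for any `K`-point `Φ` of the chart `0` (resp. `1`).
Constant extension (ConstExt37 block, `K` any field over `k`):
* `cls_pointDiag0_eq`, `cls_pointDiag1_eq`: `[O(-Γ_φ)] = [O(-[v_φ])]`;
* `degClass_pointDiag0`, `degClass_pointDiag1`: `deg O(-Γ_φ) = -1` (input `hpt` of `AbelClass56`);
* `exists_graphMap_eq`: `K`-points of `K ⊗[k] A` are graph maps; `basePlace`, `basePlace_eq0/1`;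
* `abelPre0_eq`, `abelPre1_eq`: `abelPre_j φ = [O([v_φ] - [P0])]`.
-/
import Mathlib
import Fermat.Agent.JAC.Fibre.PointDiag67
import Fermat.Agent.JAC.Fibre.DegAdd38
import Fermat.Agent.JAC.Abel.AbelClass56

set_option autoImplicit false
set_option linter.unusedSectionVars false

open AlgebraicCurve IsDedekindDomain Polynomial

namespace Fermat.Agent.JAC.Abel.PointDict56

open Fermat.Agent.JAC.Fibre.Lat38 Fermat.Agent.JAC.Fibre.Chart38 Fermat.Agent.JAC.Fibre.Setting38
  Fermat.Agent.JAC.Fibre.DiagOfDiv38 Fermat.Agent.JAC.Fibre.DiagExists38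
  Fermat.Agent.JAC.Fibre.DiagChi38
  Fermat.Agent.JAC.Fibre.RatPlaces67 Fermat.Agent.JAC.Fibre.PointDiag67
  Fermat.Agent.JAC.Core.Defs36
  Fermat.Agent.JAC.Hilb.SectionDiv46 Fermat.Agent.X0.FFDedekind
  Fermat.Agent.JAC.Abel.PointDiag56

universe u

variable {K F : Type u} [Field K] [Field F] [Algebra K F]

section TwoCharts

variable {B₀ : Type u} [CommRing B₀] [IsDedekindDomain B₀] [Algebra B₀ F] [IsFractionRing B₀ F]
  [Algebra K B₀] [IsScalarTower K B₀ F]
  {B₁ : Type u} [CommRing B₁] [IsDedekindDomain B₁] [Algebra B₁ F] [IsFractionRing B₁ F]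
  [Algebra K B₁] [IsScalarTower K B₁ F]
  {B₀₁ : Type u} [CommRing B₀₁] [IsDedekindDomain B₀₁] [Algebra B₀₁ F] [IsFractionRing B₀₁ F]
  [Algebra K B₀₁] [IsScalarTower K B₀₁ F]
  [Algebra B₀ B₀₁] [Algebra B₁ B₀₁] [IsScalarTower B₀ B₀₁ F] [IsScalarTower B₁ B₀₁ F]
  [IsScalarTower K B₀ B₀₁] [IsScalarTower K B₁ B₀₁]
  {t : B₀} {s : B₁}

/-- Contraction to the chart `1` of the lattice of an anti-effective divisor supported in `U₀`. -/
theorem isLatOf_comap1 {Z01 : Ideal B₀₁} {D : Divisor K F}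
    (h : IsLatOf Z01 D) (hneg : ∀ w ∈ chartSet (K := K) (F := F) B₁, D w ≤ 0)
    (hzero : ∀ w ∈ chartSet (K := K) (F := F) B₁, w ∉ chartSet (K := K) (F := F) B₀₁ → D w = 0) :
    IsLatOf (Z01.comap (algebraMap B₁ B₀₁)) D := by
  intro f
  rw [mem_latMod_iff, mem_lat_iff_ord]
  constructor
  · intro hf
    have h0 : f ∈ lat (chartSet (K := K) (F := F) B₁) 0 := by
      rw [mem_lat_iff_ord]
      intro w hw
      rcases hf w hw with h | h
      · exact Or.inl h
      · right
        rw [Finsupp.zero_apply, neg_zero]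
        have := hneg w hw
        omega
    obtain ⟨b, rfl⟩ := mem_lat_chartSet_zero_iff.mp h0
    have h1 : algebraMap B₁ F b ∈ latMod B₀₁ D := by
      rw [mem_latMod_iff, mem_lat_iff_ord]
      intro w hw
      exact hf w (chartSet_subset_right hw)
    obtain ⟨z, hz, hzf⟩ := (h _).mp h1
    refine ⟨b, ?_, rfl⟩
    rw [Ideal.mem_comap]
    have : algebraMap B₁ B₀₁ b = z :=
      IsFractionRing.injective B₀₁ F (by rw [hzf, ← IsScalarTower.algebraMap_apply])
    rw [this]
    exact hz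
  · rintro ⟨b, hb, rfl⟩ w hw
    by_cases hw01 : w ∈ chartSet (K := K) (F := F) B₀₁
    · have h2 : algebraMap B₁ F b ∈ latMod B₀₁ D :=
        (h _).mpr ⟨algebraMap B₁ B₀₁ b, hb, (IsScalarTower.algebraMap_apply B₁ B₀₁ F b).symm⟩
      rw [mem_latMod_iff, mem_lat_iff_ord] at h2
      exact h2 w hw01
    · right
      rw [hzero w hw hw01, neg_zero]
      exact Fermat.Agent.X0.FF.ffp_ord_nonneg_of_mem w (hw b)

/-- Contraction to the chart `0` of the lattice of an anti-effective divisor supported in `U₁`. -/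
theorem isLatOf_comap0 {Z01 : Ideal B₀₁} {D : Divisor K F}
    (h : IsLatOf Z01 D) (hneg : ∀ w ∈ chartSet (K := K) (F := F) B₀, D w ≤ 0)
    (hzero : ∀ w ∈ chartSet (K := K) (F := F) B₀, w ∉ chartSet (K := K) (F := F) B₀₁ → D w = 0) :
    IsLatOf (Z01.comap (algebraMap B₀ B₀₁)) D :=
  isLatOf_comap1 (B₁ := B₀) (B₀₁ := B₀₁) h hneg hzero

/-- The closure in the chart `1` of the kernel of a `K`-point `Φ` of the chart `0` is the lattice of
`-[Φ]` (also when the point does not lie in the overlap: then both are trivial on `U₁`). -/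
theorem isLatOf_closure1_ker (S : IsSetting K F t s B₀₁) (hB0 : ¬ IsField B₀) (Φ : B₀ →ₐ[K] K) :
    IsLatOf (closure1 (R1 := B₁) (R01 := B₀₁) (RingHom.ker (Φ : B₀ →+* K)))
      (-Finsupp.single (placeOfAlgHom F hB0 Φ) (1 : ℤ) : Divisor K F) := by
  classical
  refine isLatOf_comap1 ((isLatOf_ker hB0 Φ).map S) (fun w _ => ?_) (fun w hw hw01 => ?_)
  · rw [Finsupp.neg_apply, Finsupp.single_apply]
    split_ifs <;> omega
  · have hne : placeOfAlgHom F hB0 Φ ≠ w := by
      rintro rfl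
      apply hw01
      rw [← S.inter_eq]
      exact ⟨placeOfAlgHom_mem_chartSet hB0 Φ, hw⟩
    rw [Finsupp.neg_apply, Finsupp.single_apply, if_neg hne, neg_zero]

/-- The closure in the chart `0` of the kernel of a `K`-point `Φ` of the chart `1` is the lattice of
`-[Φ]`. -/
theorem isLatOf_closure0_ker (S : IsSetting K F t s B₀₁) (hB1 : ¬ IsField B₁) (Φ : B₁ →ₐ[K] K) :
    IsLatOf (closure0 (R0 := B₀) (R01 := B₀₁) (RingHom.ker (Φ : B₁ →+* K)))
      (-Finsupp.single (placeOfAlgHom F hB1 Φ) (1 : ℤ) : Divisor K F) := by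
  classical
  refine isLatOf_comap0 ((isLatOf_ker hB1 Φ).map S.symm) (fun w _ => ?_) (fun w hw hw01 => ?_)
  · rw [Finsupp.neg_apply, Finsupp.single_apply]
    split_ifs <;> omega
  · have hne : placeOfAlgHom F hB1 Φ ≠ w := by
      rintro rfl
      apply hw01
      rw [← S.inter_eq]
      exact ⟨hw, placeOfAlgHom_mem_chartSet hB1 Φ⟩
    rw [Finsupp.neg_apply, Finsupp.single_apply, if_neg hne, neg_zero]

variable [IsLocalization.Away t B₀₁] [IsLocalization.Away s B₀₁]

/-- **The ideal diagram of an arbitrary `K`-point `Φ` of the chart `0` is `O(-[Φ])`.** -/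
noncomputable def chartPointIso0 (S : IsSetting K F t s B₀₁) (hB0 : ¬ IsField B₀) (Φ : B₀ →ₐ[K] K)
    [Module.Invertible B₀ ↥(RingHom.ker (Φ : B₀ →+* K))]
    [Module.Invertible B₁ ↥(closure1 (R1 := B₁) (R01 := B₀₁) (RingHom.ker (Φ : B₀ →+* K)))]
    (h : Ideal.map (algebraMap B₀ B₀₁) (RingHom.ker (Φ : B₀ →+* K)) =
      Ideal.map (algebraMap B₁ B₀₁)
        (closure1 (R1 := B₁) (R01 := B₀₁) (RingHom.ker (Φ : B₀ →+* K)))) :
    LineDiag.Iso (idealDiag t s _ _ h)
      (lineDiagOfDiv S (-Finsupp.single (placeOfAlgHom F hB0 Φ) (1 : ℤ))) :=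
  idealDiagIso S _ _ h _ (isLatOf_ker hB0 Φ) (isLatOf_closure1_ker S hB0 Φ)

/-- **The ideal diagram of an arbitrary `K`-point `Φ` of the chart `1` is `O(-[Φ])`.** -/
noncomputable def chartPointIso1 (S : IsSetting K F t s B₀₁) (hB1 : ¬ IsField B₁) (Φ : B₁ →ₐ[K] K)
    [Module.Invertible B₁ ↥(RingHom.ker (Φ : B₁ →+* K))]
    [Module.Invertible B₀ ↥(closure0 (R0 := B₀) (R01 := B₀₁) (RingHom.ker (Φ : B₁ →+* K)))]
    (h : Ideal.map (algebraMap B₀ B₀₁)
        (closure0 (R0 := B₀) (R01 := B₀₁) (RingHom.ker (Φ : B₁ →+* K))) =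
      Ideal.map (algebraMap B₁ B₀₁) (RingHom.ker (Φ : B₁ →+* K))) :
    LineDiag.Iso (idealDiag t s _ _ h)
      (lineDiagOfDiv S (-Finsupp.single (placeOfAlgHom F hB1 Φ) (1 : ℤ))) :=
  idealDiagIso S _ _ h _ (isLatOf_closure0_ker S hB1 Φ) (isLatOf_ker hB1 Φ)

end TwoCharts

/-! ### The constant extension of CURVE data -/

section ConstExt

open TensorProduct
open scoped Fermat.Agent.JAC.Core.ConstFamily36
open Fermat.Agent.JAC.Fibre.ConstExt37 Fermat.Agent.JAC.Core.AlgAtlas36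
  Fermat.Agent.JAC.Core.Degree36 Fermat.Agent.JAC.Fibre.DegAdd38
  Fermat.Agent.JAC.Fibre.DiagPrin38 Fermat.Agent.JAC.Fibre.DiagOps38 Fermat.Agent.JAC.Grp.Diag33
  Fermat.Agent.JAC.Cover.GraphIdeal98 Fermat.Agent.JAC.Abel.AbelClass56

variable {k : Type u} [Field k] {A0 A1 A01 : Type u} [CommRing A0] [CommRing A1] [CommRing A01]
  [Algebra k A0] [Algebra k A1] [Algebra k A01] [Algebra A0 A01] [Algebra A1 A01]
  [IsScalarTower k A0 A01] [IsScalarTower k A1 A01] (t : A0) (s : A1)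
  [IsLocalization.Away t A01] [IsLocalization.Away s A01]
  (K : Type u) [Field K] [Algebra k K]
  [IsDedekindDomain (K ⊗[k] A0)] [IsDedekindDomain (K ⊗[k] A1)] [IsDedekindDomain (K ⊗[k] A01)]
  (h0 : ChartHyp k A0) (h1 : ChartHyp k A1) (h01 : ChartHyp k A01)
  (hts : algebraMap A0 A01 t * algebraMap A1 A01 s = 1)
  {n0 n1 : ℕ} {a0 : Fin n0 → A0} {a1 : Fin n1 → A1}
  (ha0 : Function.Bijective (fun p : Fin n0 → k[X] => ∑ j, aeval t (p j) * a0 j))
  (ha1 : Function.Bijective (fun p : Fin n1 → k[X] => ∑ j, aeval s (p j) * a1 j))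

omit [IsDedekindDomain (K ⊗[k] A0)] in
theorem not_isField_tensor {A : Type u} [CommRing A] [Algebra k A] (h : ChartHyp k A) :
    ¬ IsField (K ⊗[k] A) :=
  haveI := h.finiteType
  Fermat.Agent.JAC.Div.BasedInvertible56.not_isField_baseChange_of_not_finite h.not_finite K

include ha0 ha1 in
/-- **Dictionary for a `K`-point of the chart `0`**: `[O(-Γ_φ)] = [O(-[v_φ])]`. -/
theorem cls_pointDiag0_eq (φ : A0 →ₐ[k] K) :
    haveI := isFractionRing₀ (k := k) (A01 := A01) t K
    haveI := isFractionRing₁ (k := k) (A01 := A01) s K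
    cls (pointDiag0 t s h0 hts φ) =
      cls (lineDiagOfDiv (isSetting_constExt t s K hts ha0 ha1)
        (-Finsupp.single (placeOfAlgHom (FF k A01 K) (not_isField_tensor K h0) (graphMap φ))
          (1 : ℤ))) := by
  have := isFractionRing₀ (k := k) (A01 := A01) t K
  have := isFractionRing₁ (k := k) (A01 := A01) s K
  have i0' := invertible_graphIdeal h0 φ
  have i0 : Module.Invertible (K ⊗[k] A0)
      ↥(RingHom.ker ((graphMap φ : K ⊗[k] A0 →ₐ[K] K) : K ⊗[k] A0 →+* K)) := i0'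
  have i1 : Module.Invertible (K ⊗[k] A1)
      ↥(closure1 (R1 := K ⊗[k] A1) (R01 := K ⊗[k] A01)
        (RingHom.ker ((graphMap φ : K ⊗[k] A0 →ₐ[K] K) : K ⊗[k] A0 →+* K))) :=
    invertible_closure1 (B := K) (R1 := K ⊗[k] A1) (R01 := K ⊗[k] A01)
      ((1 : K) ⊗ₜ[k] t) ((1 : K) ⊗ₜ[k] s) (graphIdeal φ) (hts_const t s hts)
  have h := (map_closure1 (R1 := K ⊗[k] A1) (R01 := K ⊗[k] A01) ((1 : K) ⊗ₜ[k] s)
    (RingHom.ker ((graphMap φ : K ⊗[k] A0 →ₐ[K] K) : K ⊗[k] A0 →+* K))).symm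
  have e := chartPointIso0 (isSetting_constExt t s K hts ha0 ha1)
    (not_isField_tensor K h0) (graphMap φ) h
  exact cls_eq_iff.mpr ⟨e⟩

include ha0 ha1 in
/-- **Dictionary for a `K`-point of the chart `1`**: `[O(-Γ_φ)] = [O(-[v_φ])]`. -/
theorem cls_pointDiag1_eq (φ : A1 →ₐ[k] K) :
    haveI := isFractionRing₀ (k := k) (A01 := A01) t K
    haveI := isFractionRing₁ (k := k) (A01 := A01) s K
    cls (pointDiag1 t s h1 hts φ) =
      cls (lineDiagOfDiv (isSetting_constExt t s K hts ha0 ha1)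
        (-Finsupp.single (placeOfAlgHom (FF k A01 K) (not_isField_tensor K h1) (graphMap φ))
          (1 : ℤ))) := by
  have := isFractionRing₀ (k := k) (A01 := A01) t K
  have := isFractionRing₁ (k := k) (A01 := A01) s K
  have i1' := invertible_graphIdeal h1 φ
  have i1 : Module.Invertible (K ⊗[k] A1)
      ↥(RingHom.ker ((graphMap φ : K ⊗[k] A1 →ₐ[K] K) : K ⊗[k] A1 →+* K)) := i1'
  have i0 : Module.Invertible (K ⊗[k] A0)
      ↥(closure0 (R0 := K ⊗[k] A0) (R01 := K ⊗[k] A01)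
        (RingHom.ker ((graphMap φ : K ⊗[k] A1 →ₐ[K] K) : K ⊗[k] A1 →+* K))) :=
    invertible_closure0 (B := K) (R0 := K ⊗[k] A0) (R01 := K ⊗[k] A01)
      ((1 : K) ⊗ₜ[k] t) ((1 : K) ⊗ₜ[k] s) (graphIdeal φ) (hts_const t s hts)
  have h := map_closure0 (R0 := K ⊗[k] A0) (R01 := K ⊗[k] A01) ((1 : K) ⊗ₜ[k] t)
    (RingHom.ker ((graphMap φ : K ⊗[k] A1 →ₐ[K] K) : K ⊗[k] A1 →+* K))
  have e := chartPointIso1 (isSetting_constExt t s K hts ha0 ha1)
    (not_isField_tensor K h1) (graphMap φ) h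
  exact cls_eq_iff.mpr ⟨e⟩

include ha0 ha1 in
/-- **`deg O(-Γ_φ) = -1`**, chart `0` (the input `hpt` of `AbelClass56.isDegZero_abelCl0`). -/
theorem degClass_pointDiag0 (φ : A0 →ₐ[k] K) :
    degClass K (cls (pointDiag0 t s h0 hts φ)) = -1 := by
  have := isFractionRing₀ (k := k) (A01 := A01) t K
  have := isFractionRing₁ (k := k) (A01 := A01) s K
  obtain ⟨T, -⟩ := exists_twoChart t s K hts ha0 ha1
  rw [cls_pointDiag0_eq t s K h0 hts ha0 ha1 φ,
    degClass_cls_lineDiagOfDiv (isSetting_constExt t s K hts ha0 ha1) T, map_neg,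
    Divisor.degree_single, deg_placeOfAlgHom]
  norm_num

include ha0 ha1 in
/-- **`deg O(-Γ_φ) = -1`**, chart `1`. -/
theorem degClass_pointDiag1 (φ : A1 →ₐ[k] K) :
    degClass K (cls (pointDiag1 t s h1 hts φ)) = -1 := by
  have := isFractionRing₀ (k := k) (A01 := A01) t K
  have := isFractionRing₁ (k := k) (A01 := A01) s K
  obtain ⟨T, -⟩ := exists_twoChart t s K hts ha0 ha1
  rw [cls_pointDiag1_eq t s K h1 hts ha0 ha1 φ,
    degClass_cls_lineDiagOfDiv (isSetting_constExt t s K hts ha0 ha1) T, map_neg,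
    Divisor.degree_single, deg_placeOfAlgHom]
  norm_num

/-! #### `K`-points of `K ⊗[k] A` and `k`-algebra maps `A → K` -/

omit [IsDedekindDomain (K ⊗[k] A0)] [IsDedekindDomain (K ⊗[k] A1)]
  [IsDedekindDomain (K ⊗[k] A01)] in
/-- Every `K`-point of `K ⊗[k] A` is the graph map of a unique `k`-algebra map `A → K`. -/
theorem exists_graphMap_eq {A : Type u} [CommRing A] [Algebra k A] (Φ : K ⊗[k] A →ₐ[K] K) :
    ∃ φ : A →ₐ[k] K, graphMap φ = Φ := by
  refine ⟨(Φ.restrictScalars k).comp Algebra.TensorProduct.includeRight, ?_⟩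
  apply Algebra.TensorProduct.ext'
  intro c a
  rw [graphMap_tmul]
  have : c ⊗ₜ[k] a = c • ((1 : K) ⊗ₜ[k] a) := by
    rw [TensorProduct.smul_tmul', smul_eq_mul, mul_one]
  rw [this, map_smul, smul_eq_mul]
  rfl

omit [IsDedekindDomain (K ⊗[k] A0)] [IsDedekindDomain (K ⊗[k] A1)]
  [IsDedekindDomain (K ⊗[k] A01)] in
/-- Restriction of a graph map along a morphism of charts. -/
theorem graphMap_comp_toAlgHom {A A' : Type u} [CommRing A] [CommRing A'] [Algebra k A]
    [Algebra k A'] [Algebra A A'] [IsScalarTower k A A'] (χ : A' →ₐ[k] K) :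
    (graphMap χ).comp (IsScalarTower.toAlgHom K (K ⊗[k] A) (K ⊗[k] A')) =
      graphMap (χ.comp (IsScalarTower.toAlgHom k A A')) := by
  apply Algebra.TensorProduct.ext'
  intro c a
  simp [graphMap_tmul]

/-! #### The base place and the Abel classes in divisor language -/

/-- The place of the base point `P0` (a point of the overlap). -/
noncomputable def basePlace (e : A01 →ₐ[k] k) : Place K (FF k A01 K) :=
  placeOfAlgHom (FF k A01 K) (not_isField_tensor K h01) (graphMap (constPt01 e K))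

theorem basePlace_eq0 (e : A01 →ₐ[k] k) :
    haveI := isFractionRing₀ (k := k) (A01 := A01) t K
    basePlace K h01 e =
      placeOfAlgHom (FF k A01 K) (not_isField_tensor K h0) (graphMap (constPt0 (A0 := A0) e K)) := by
  have := isFractionRing₀ (k := k) (A01 := A01) t K
  unfold basePlace
  rw [placeOfAlgHom_comp (not_isField_tensor K h0) (not_isField_tensor K h01),
    graphMap_comp_toAlgHom]
  rfl

theorem basePlace_eq1 (e : A01 →ₐ[k] k) :
    haveI := isFractionRing₁ (k := k) (A01 := A01) s K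
    basePlace K h01 e =
      placeOfAlgHom (FF k A01 K) (not_isField_tensor K h1) (graphMap (constPt1 (A1 := A1) e K)) := by
  have := isFractionRing₁ (k := k) (A01 := A01) s K
  unfold basePlace
  rw [placeOfAlgHom_comp (not_isField_tensor K h1) (not_isField_tensor K h01),
    graphMap_comp_toAlgHom]
  rfl

include ha0 ha1 in
/-- **The Abel class of a `K`-point of the chart `0` in divisor language**:
`abelPre0 φ = [O([v_φ] - [P0])]`. -/
theorem abelPre0_eq (e : A01 →ₐ[k] k) (φ : A0 →ₐ[k] K) :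
    haveI := isFractionRing₀ (k := k) (A01 := A01) t K
    haveI := isFractionRing₁ (k := k) (A01 := A01) s K
    abelPre0 t s h0 hts e φ =
      cls (lineDiagOfDiv (isSetting_constExt t s K hts ha0 ha1)
        (Finsupp.single (placeOfAlgHom (FF k A01 K) (not_isField_tensor K h0) (graphMap φ))
          (1 : ℤ) - Finsupp.single (basePlace K h01 e) (1 : ℤ))) := by
  have := isFractionRing₀ (k := k) (A01 := A01) t K
  have := isFractionRing₁ (k := k) (A01 := A01) s K
  unfold abelPre0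
  rw [cls_pointDiag0_eq t s K h0 hts ha0 ha1 φ, cls_pointDiag0_eq t s K h0 hts ha0 ha1,
    cls_lineDiagOfDiv_neg, inv_inv, cls_mul_lineDiagOfDiv, ← sub_eq_add_neg,
    ← basePlace_eq0 t K h0 h01 e]

include ha0 ha1 in
/-- **The Abel class of a `K`-point of the chart `1` in divisor language**. -/
theorem abelPre1_eq (e : A01 →ₐ[k] k) (φ : A1 →ₐ[k] K) :
    haveI := isFractionRing₀ (k := k) (A01 := A01) t K
    haveI := isFractionRing₁ (k := k) (A01 := A01) s K
    abelPre1 t s h1 hts e φ =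
      cls (lineDiagOfDiv (isSetting_constExt t s K hts ha0 ha1)
        (Finsupp.single (placeOfAlgHom (FF k A01 K) (not_isField_tensor K h1) (graphMap φ))
          (1 : ℤ) - Finsupp.single (basePlace K h01 e) (1 : ℤ))) := by
  have := isFractionRing₀ (k := k) (A01 := A01) t K
  have := isFractionRing₁ (k := k) (A01 := A01) s K
  unfold abelPre1
  rw [cls_pointDiag1_eq t s K h1 hts ha0 ha1 φ, cls_pointDiag1_eq t s K h1 hts ha0 ha1,
    cls_lineDiagOfDiv_neg, inv_inv, cls_mul_lineDiagOfDiv, ← sub_eq_add_neg,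
    ← basePlace_eq1 s K h1 h01 e]

end ConstExt

end Fermat.Agent.JAC.Abel.PointDict56
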