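/-
Programme JAC (S25), Abel chapter / chart team (helper56): the hypothesis package `ChartHyp` of
`Abel/PointDiag56` (finite type, geometrically Dedekind, not finite-dimensional) holds for the two
chart rings `A₀ D`, `A₁ D` of helper37's two-chart data of a smooth curve over an algebraically
closed field (CURVE block instances `algK₀ …` as local instances).
-/
import Fermat.Agent.JAC.B2.HGeom37
import Fermat.Agent.JAC.Abel.PointDiag56

set_option autoImplicit false
set_option linter.unusedSectionVars false

open AlgebraicGeometry CategoryTheory TopologicalSpace Opposite Polynomial TensorProduct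

namespace Fermat.Agent.JAC.Abel.ChartHypBlock56

open Fermat.Agent.JAC.B2.TwoChart37 Fermat.Agent.JAC.B2.CurveBlock37 Fermat.Agent.JAC.B2.HGeom37
  Fermat.Agent.JAC.Abel.PointDiag56 Fermat.Agent.JAC.Div.BasedInvertible56

universe u

variable {k : Type u} [Field k] {C : Scheme.{u}} {c : C ⟶ Spec (.of k)}
variable [IsAlgClosed k] [SmoothOfRelativeDimension 1 c] (D : TwoChartData c)

attribute [local instance] algK₀ algK₁ algK₀₁ alg₀ alg₁ algX₀ algX₁

/-- The first chart ring of two-chart data of a smooth curve satisfies `ChartHyp`. -/
theorem chartHyp₀ : ChartHyp k (A₀ D) where
  finiteType := by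
    have : LocallyOfFiniteType c := by
      have := SmoothOfRelativeDimension.smooth 1 c
      infer_instance
    infer_instance
  dedekind K _ _ := isDedekindDomain_baseChange₀ D K
  not_finite := not_finite_of_free_polynomial

/-- The second chart ring of two-chart data of a smooth curve satisfies `ChartHyp`. -/
theorem chartHyp₁ : ChartHyp k (A₁ D) where
  finiteType := by
    have : LocallyOfFiniteType c := by
      have := SmoothOfRelativeDimension.smooth 1 c
      infer_instance
    infer_instance
  dedekind K _ _ := isDedekindDomain_baseChange₁ D K
  not_finite := not_finite_of_free_polynomial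

end Fermat.Agent.JAC.Abel.ChartHypBlock56
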