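/-
Programme JAC (S25), Abel chapter (helper56): the Abel classes INSTANTIATED for helper37's two-chart
data `D : TwoChartData c` of a smooth curve over an algebraically closed field (CURVE block local
instances `algK₀ algK₁ algK₀₁ alg₀ alg₁`).  These are the literal Abel inputs
`ξ0 ξ1 hr0 hd0 hr1 hd1 hagree` of `Final/AbelSchemeDict27.s25_of_schemeDict_twoCharts`:
* `chartHyp₀₁ D : ChartHyp k (A₀₁ D)`;
* `degClass_pointDiag₀/₁ D K φ : degClass K (cls (pointDiag_j ..)) = -1` for every field `K/k`;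
* `xi₀ D e`, `xi₁ D e`, `isRigidCl_xi₀/₁`, `isDegZero_xi₀/₁`, `bc_xi₀_eq_bc_xi₁`.
-/
import Fermat.Agent.JAC.Abel.ChartHypBlock56
import Fermat.Agent.JAC.Abel.PointDict56
import Fermat.Agent.JAC.Fibre.DegAddFibre38

set_option autoImplicit false
set_option linter.unusedSectionVars false
set_option linter.style.haveILetI false

open AlgebraicGeometry CategoryTheory TopologicalSpace Opposite Polynomial TensorProduct
open scoped Fermat.Agent.JAC.Core.ConstFamily36

namespace Fermat.Agent.JAC.Abel.AbelBlock56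

open Fermat.Agent.JAC.B2 Charts37 Domain37 Valuative37 TwoChart37 Export37 CurveBlock37 HGeom37
  FibreSetting37
open Fermat.Agent.JAC.Core.AlgAtlas36 Fermat.Agent.JAC.Core.Degree36
  Fermat.Agent.JAC.Grp.Diag33 Fermat.Agent.JAC.Fibre.DegAddFibre38
  Fermat.Agent.JAC.Abel.PointDiag56 Fermat.Agent.JAC.Abel.AbelClass56
  Fermat.Agent.JAC.Abel.PointDict56 Fermat.Agent.JAC.Abel.ChartHypBlock56

universe u

variable {k : Type u} [Field k] {C : Scheme.{u}} {c : C ⟶ Spec (.of k)} (D : TwoChartData c)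

attribute [local instance] algK₀ algK₁ algK₀₁ alg₀ alg₁

variable [IsAlgClosed k] [SmoothOfRelativeDimension 1 c]

/-- The overlap ring of two-chart data of a smooth curve satisfies `ChartHyp`. -/
theorem chartHyp₀₁ : ChartHyp k (A₀₁ D) where
  finiteType := by
    have : LocallyOfFiniteType c := by
      have := SmoothOfRelativeDimension.smooth 1 c
      infer_instance
    exact finiteType_structureHom c (isAffineOpen_inf D)
  dedekind K _ _ := isDedekindDomain_baseChange₀₁ D K
  not_finite := by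
    intro hfin
    apply (chartHyp₀ D).not_finite
    have hinj : Function.Injective (algebraMap (A₀ D) (A₀₁ D)) :=
      IsLocalization.injective (A₀₁ D)
        (powers_le_nonZeroDivisors_of_noZeroDivisors
          (nonZeroDivisors.ne_zero (t_mem_nonZeroDivisors D)))
    exact Module.Finite.of_injective (IsScalarTower.toAlgHom k (A₀ D) (A₀₁ D)).toLinearMap hinj

variable (e : A₀₁ D →ₐ[k] k)

/-- `deg O(-Γ_φ) = -1` on the fibres of the curve, chart `0`. -/
theorem degClass_pointDiag₀ (K : Type u) [Field K] [Algebra k K] (φ : A₀ D →ₐ[k] K) :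
    degClass K (cls (pointDiag0 D.t D.s (chartHyp₀ D) (hts D) φ)) = -1 := by
  haveI := isDedekindDomain_baseChange₀ D K
  haveI := isDedekindDomain_baseChange₁ D K
  haveI := isDedekindDomain_baseChange₀₁ D K
  obtain ⟨n0, a0, ha0⟩ := exists_coords₀ D
  obtain ⟨n1, a1, ha1⟩ := exists_coords₁ D
  exact degClass_pointDiag0 D.t D.s K (chartHyp₀ D) (hts D) ha0 ha1 φ

/-- `deg O(-Γ_φ) = -1` on the fibres of the curve, chart `1`. -/
theorem degClass_pointDiag₁ (K : Type u) [Field K] [Algebra k K] (φ : A₁ D →ₐ[k] K) :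
    degClass K (cls (pointDiag1 D.t D.s (chartHyp₁ D) (hts D) φ)) = -1 := by
  haveI := isDedekindDomain_baseChange₀ D K
  haveI := isDedekindDomain_baseChange₁ D K
  haveI := isDedekindDomain_baseChange₀₁ D K
  obtain ⟨n0, a0, ha0⟩ := exists_coords₀ D
  obtain ⟨n1, a1, ha1⟩ := exists_coords₁ D
  exact degClass_pointDiag1 D.t D.s K (chartHyp₁ D) (hts D) ha0 ha1 φ

/-- The universal Abel class over the chart `0` of the curve. -/
noncomputable def xi₀ : Cl k (A₀ D) (A₁ D) (A₀₁ D) D.t D.s (A₀ D) :=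
  xi0 D.t D.s (chartHyp₀ D) (hts D) e

/-- The universal Abel class over the chart `1` of the curve. -/
noncomputable def xi₁ : Cl k (A₀ D) (A₁ D) (A₀₁ D) D.t D.s (A₁ D) :=
  xi1 D.t D.s (chartHyp₁ D) (hts D) e

theorem isRigidCl_xi₀ : IsRigidCl e (A₀ D) (xi₀ D e) := isRigidCl_xi0 _ _ _ _ _

theorem isRigidCl_xi₁ : IsRigidCl e (A₁ D) (xi₁ D e) := isRigidCl_xi1 _ _ _ _ _

theorem isDegZero_xi₀ : IsDegZero (A₀ D) (xi₀ D e) :=
  isDegZero_abelCl0 D.t D.s (chartHyp₀ D) (hts D) e
    (fun K _ _ _ x y => degClass_mul_fibre D K x y)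
    (fun K _ _ _ φ => degClass_pointDiag₀ D K φ) _

theorem isDegZero_xi₁ : IsDegZero (A₁ D) (xi₁ D e) :=
  isDegZero_abelCl1 D.t D.s (chartHyp₁ D) (hts D) e
    (fun K _ _ _ x y => degClass_mul_fibre D K x y)
    (fun K _ _ _ φ => degClass_pointDiag₁ D K φ) _

/-- The two universal Abel classes agree over the overlap. -/
theorem bc_xi₀_eq_bc_xi₁ :
    bc (IsScalarTower.toAlgHom k (A₀ D) (A₀₁ D)) (xi₀ D e) =
      bc (IsScalarTower.toAlgHom k (A₁ D) (A₀₁ D)) (xi₁ D e) :=
  bc_xi0_eq_bc_xi1 _ _ _ _ _ _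

end Fermat.Agent.JAC.Abel.AbelBlock56
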