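import Mathlib
import Fermat.Agent.JAC.Grp.AbsOver6

/-!
# JAC / Abel : gluing the Abel map from its values on affine charts

Setting: `r : AbsRep k J F` (the affine points of `J` are `F`), `c : C ⟶ Spec k`, a family of
affine charts `ι j : Spec (A j) ⟶ C` (open immersions, jointly surjective, over `Spec k` via
`φ j : k ⟶ A j`) and points `ξ j : F.obj (A j)` over `φ j`, compatible on all affine overlaps.

* `abelMap` : the morphism `C ⟶ J` with `ι j ≫ abelMap = (r.e (A j)).symm (ξ j)`; uniqueness;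
  `abelMap_toBase : abelMap ≫ r.toBase = c`; `abelOver : Over.mk c ⟶ r.overBase`.
* `compat_of_two_charts` : for two charts whose overlap is `Spec A01`, compatibility follows from
  `F.map ψ0 ξ0 = F.map ψ1 ξ1`.
* `exists_chart_of_field` : a field-valued point of `C` factors through a chart.
* `e_comp_abelMap`, `ptsEquiv_abelOver` : the value of the Abel map on a point of a chart.
-/

set_option autoImplicit false

universe u

open CategoryTheory CategoryTheory.Limits AlgebraicGeometry

namespace Fermat.Agent.JAC.Abel.GlueAbel27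

open Fermat.Agent.JAC.Grp.AbsOver6 Fermat.Agent.JAC.Grp.AffYoneda6

variable {k : CommRingCat.{u}} {J : Scheme.{u}} {F : CommRingCat.{u} ⥤ Type u}
  (r : AbsRep k J F) {C : Scheme.{u}} (c : C ⟶ Spec k)
  {I : Type*} {A : I → CommRingCat.{u}} (ι : ∀ j, Spec (A j) ⟶ C) [∀ j, IsOpenImmersion (ι j)]
  (hcov : ∀ x : C, ∃ j, x ∈ Set.range (ι j))
  (φ : ∀ j, k ⟶ A j) (hφ : ∀ j, ι j ≫ c = Spec.map (φ j))
  (ξ : ∀ j, F.obj (A j)) (hξ : ∀ j, r.π (A j) (ξ j) = φ j)

/-- Compatibility of the chart points on all affine overlaps. -/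
def Compat : Prop :=
  ∀ (i j : I) (R : CommRingCat.{u}) (u : A i ⟶ R) (v : A j ⟶ R),
    Spec.map u ≫ ι i = Spec.map v ≫ ι j → F.map u (ξ i) = F.map v (ξ j)

/-- The open cover of `C` by the charts. -/
noncomputable def chartCover : C.OpenCover :=
  Scheme.Cover.mkOfCovers I (fun j => Spec (A j)) ι
    (fun x => by obtain ⟨j, y, hy⟩ := hcov x; exact ⟨j, y, hy⟩)

include hcov in
/-- Morphisms out of `C` are determined by their restrictions to the charts. -/
theorem hom_ext_charts {Y : Scheme.{u}} (f g : C ⟶ Y) (h : ∀ j : I, ι j ≫ f = ι j ≫ g) :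
    f = g :=
  (chartCover ι hcov).hom_ext f g h

/-- The morphisms on the charts. -/
noncomputable def chartHom (j : I) : Spec (A j) ⟶ J := (r.e (A j)).symm (ξ j)

theorem comp_chartHom {j : I} {R : CommRingCat.{u}} (u : A j ⟶ R) :
    Spec.map u ≫ chartHom r ξ j = (r.e R).symm (F.map u (ξ j)) := by
  apply (r.e R).injective
  rw [r.e_comp, chartHom, Equiv.apply_symm_apply, Equiv.apply_symm_apply]

variable {ι ξ}

omit [∀ j, IsOpenImmersion (ι j)] in
theorem chartHom_compat (hc : Compat ι ξ) (i j : I) :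
    pullback.fst (ι i) (ι j) ≫ chartHom r ξ i = pullback.snd (ι i) (ι j) ≫ chartHom r ξ j := by
  refine hom_ext_of_affine fun R a => ?_
  obtain ⟨u, hu⟩ := Spec.map_surjective (a ≫ pullback.fst (ι i) (ι j))
  obtain ⟨v, hv⟩ := Spec.map_surjective (a ≫ pullback.snd (ι i) (ι j))
  rw [← Category.assoc, ← Category.assoc, ← hu, ← hv, comp_chartHom, comp_chartHom]
  congr 1
  refine hc i j R u v ?_
  rw [hu, hv, Category.assoc, Category.assoc, pullback.condition]

/-- **The Abel map glued from the charts.** -/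
noncomputable def abelMap (hc : Compat ι ξ) : C ⟶ J :=
  (chartCover ι hcov).glueMorphisms (fun j => chartHom r ξ j) (fun i j => chartHom_compat r hc i j)

theorem comp_abelMap (hc : Compat ι ξ) (j : I) :
    ι j ≫ abelMap r hcov hc = (r.e (A j)).symm (ξ j) :=
  (chartCover ι hcov).ι_glueMorphisms _ _ j

theorem abelMap_unique (hc : Compat ι ξ) (a : C ⟶ J)
    (ha : ∀ j, ι j ≫ a = (r.e (A j)).symm (ξ j)) : a = abelMap r hcov hc :=
  hom_ext_charts ι hcov _ _ fun j => by rw [ha, comp_abelMap]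

include hφ hξ in
theorem abelMap_toBase (hc : Compat ι ξ) : abelMap r hcov hc ≫ r.toBase = c :=
  hom_ext_charts ι hcov _ _ fun j => by
    rw [← Category.assoc, comp_abelMap, r.comp_toBase, Equiv.apply_symm_apply, hξ, hφ]

/-- The Abel map as a morphism over `Spec k`. -/
noncomputable def abelOver (hc : Compat ι ξ) : Over.mk c ⟶ r.overBase :=
  Over.homMk (abelMap r hcov hc) (abelMap_toBase r c hcov φ hφ hξ hc)

/-- Value of the Abel map on an affine point of a chart. -/
theorem e_comp_abelMap (hc : Compat ι ξ) {j : I} {R : CommRingCat.{u}} (θ : A j ⟶ R) :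
    r.e R ((Spec.map θ ≫ ι j) ≫ abelMap r hcov hc) = F.map θ (ξ j) := by
  rw [Category.assoc, comp_abelMap, r.e_comp, Equiv.apply_symm_apply]

include hcov in
/-- A point of `C` with values in a local ring factors through one of the charts. -/
theorem exists_chart_of_isLocalRing {B : CommRingCat.{u}} [IsLocalRing B] (y : Spec B ⟶ C) :
    ∃ (j : I) (θ : A j ⟶ B), y = Spec.map θ ≫ ι j := by
  obtain ⟨j, hj⟩ := hcov (y (IsLocalRing.closedPoint B))
  have htop : y ⁻¹ᵁ (ι j).opensRange = ⊤ :=
    Scheme.preimage_eq_top_of_closedPoint_mem y (U := (ι j).opensRange) hj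
  have hrange : Set.range y ⊆ Set.range (ι j) := by
    rintro _ ⟨x, rfl⟩
    have : x ∈ y ⁻¹ᵁ (ι j).opensRange := by rw [htop]; trivial
    exact this
  obtain ⟨θ, hθ⟩ := Spec.map_surjective (IsOpenImmersion.lift (ι j) y hrange)
  exact ⟨j, θ, by rw [hθ, IsOpenImmersion.lift_fac]⟩

/-- Value of the Abel map on a point of a chart, in terms of `ptsEquiv`. -/
theorem ptsEquiv_abelOver (hc : Compat ι ξ) {j : I} {R : CommRingCat.{u}} (θ : A j ⟶ R)
    (t : Spec R ⟶ Spec k) (y : Over.mk t ⟶ Over.mk c) (hy : y.left = Spec.map θ ≫ ι j) :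
    (r.ptsEquiv t (y ≫ abelOver r c hcov φ hφ hξ hc)).1 = F.map θ (ξ j) := by
  change r.e R (y.left ≫ abelMap r hcov hc) = _
  rw [hy, e_comp_abelMap]

end Fermat.Agent.JAC.Abel.GlueAbel27
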