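import Mathlib
import Fermat.Agent.JAC.Abel.GlueAbel27
import Fermat.Agent.JAC.Prop.SmoothGroup27

/-!
# JAC / Abel : the hypothesis `hG` of B6.5 in pure functor-of-points form

With the Abel map glued from chart points `ξ j ∈ F(A j)` (`GlueAbel27`), the hypothesis
"every geometric point of `J` is a sum of `g` values of the Abel map" of
`AbsRepProps27.absRep_properties` / `SmoothGroup27.absRep_properties_of_smooth` follows from the
purely algebraic statement: every `z ∈ F(K)` (over `ρ : k ⟶ K`, `K` algebraically closed) is a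
product of `g` elements `F(θ_i)(ξ_{j_i})`, `θ_i : A_{j_i} ⟶ K` over `k`.

* `chartPt` : the element `F(θ)(ξ j)` of the fibre of `F` over `ρ = φ j ≫ θ`.
* `hG_of_chartSums` : the reduction.
* `properties_of_chartSums`, `properties_of_chartSums_of_smooth` : the B6 end theorems with all
  inputs in functor-of-points form.
-/

set_option autoImplicit false

universe u

open CategoryTheory CategoryTheory.Limits AlgebraicGeometry

namespace Fermat.Agent.JAC.Abel.AbelSum27

open Fermat.Agent.JAC.Grp.AbsOver6 Fermat.Agent.JAC.Abel.GlueAbel27 Fermat.Agent.JAC.Prop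

variable {k : Type u} [Field k] {J : Scheme.{u}} {F : CommRingCat.{u} ⥤ Type u}
  (r : AbsRep (CommRingCat.of k) J F) {C : Scheme.{u}} (c : C ⟶ Spec (CommRingCat.of k))
  {I : Type*} {A : I → CommRingCat.{u}} {ι : ∀ j, Spec (A j) ⟶ C} [∀ j, IsOpenImmersion (ι j)]
  (hcov : ∀ x : C, ∃ j, x ∈ Set.range (ι j))
  (φ : ∀ j, CommRingCat.of k ⟶ A j) (hφ : ∀ j, ι j ≫ c = Spec.map (φ j))
  {ξ : ∀ j, F.obj (A j)} (hξ : ∀ j, r.π (A j) (ξ j) = φ j)

/-- The point `F(θ)(ξ j)` of the fibre of `F` over `ρ = φ j ≫ θ`. -/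
def chartPt {B : CommRingCat.{u}} {ρ : CommRingCat.of k ⟶ B} {j : I} (θ : A j ⟶ B)
    (h : φ j ≫ θ = ρ) : r.Fib B ρ :=
  ⟨F.map θ (ξ j), by rw [r.π_map, hξ, h]⟩

variable [grp : ∀ (B : CommRingCat.{u}) (ρ : CommRingCat.of k ⟶ B), CommGroup (r.Fib B ρ)]

/-- **Reduction of `hG` to a statement about `F`.** -/
theorem hG_of_chartSums (hc : Compat ι ξ) (g : ℕ)
    (hJ : ∀ (K : Type u) [Field K] [IsAlgClosed K]
      (ρ : CommRingCat.of k ⟶ CommRingCat.of K) (z : r.Fib (CommRingCat.of K) ρ),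
      ∃ (j : Fin g → I) (θ : ∀ i, A (j i) ⟶ CommRingCat.of K) (hθ : ∀ i, φ (j i) ≫ θ i = ρ),
        ∏ i, chartPt r φ hξ (θ i) (hθ i) = z)
    (K : Type u) [Field K] [IsAlgClosed K]
    (t : Spec (CommRingCat.of K) ⟶ Spec (CommRingCat.of k))
    (z : r.Fib (CommRingCat.of K) (Spec.preimage t)) :
    ∃ y : Fin g → (Over.mk t ⟶ Over.mk c),
      ∏ i, r.ptsEquiv t (y i ≫ abelOver r c hcov φ hφ hξ hc) = z := by
  obtain ⟨j, θ, hθ, hprod⟩ := hJ K (Spec.preimage t) z
  have hy : ∀ i, (Spec.map (θ i) ≫ ι (j i)) ≫ c = t := fun i => by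
    rw [Category.assoc, hφ, ← Spec.map_comp, hθ, Spec.map_preimage]
  refine ⟨fun i => Over.homMk (Spec.map (θ i) ≫ ι (j i)) (hy i), ?_⟩
  rw [← hprod]
  refine Finset.prod_congr rfl fun i _ => Subtype.ext ?_
  exact ptsEquiv_abelOver r c hcov φ hφ hξ hc (θ i) t _ rfl

section Main

variable [IsAlgClosed k] [IsProper c] [SmoothOfRelativeDimension 1 c] [IsIntegral C]
  (map_mul : ∀ {B B' : CommRingCat.{u}} (ψ : B ⟶ B') {ρ : CommRingCat.of k ⟶ B}
    {ρ' : CommRingCat.of k ⟶ B'} (h : ρ ≫ ψ = ρ') (x y : r.Fib B ρ),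
    r.mapFib ψ h (x * y) = r.mapFib ψ h x * r.mapFib ψ h y)

include hcov hφ map_mul in
/-- **B6 end theorem, all inputs in functor-of-points form, smoothness from (FS).** -/
theorem properties_of_chartSums [LocallyOfFiniteType r.toBase]
    (hFS : AbsRepProps27.LiftsSquareZero r) (hc : Compat ι ξ) (g : ℕ)
    (hJ : ∀ (K : Type u) [Field K] [IsAlgClosed K]
      (ρ : CommRingCat.of k ⟶ CommRingCat.of K) (z : r.Fib (CommRingCat.of K) ρ),
      ∃ (j : Fin g → I) (θ : ∀ i, A (j i) ⟶ CommRingCat.of K) (hθ : ∀ i, φ (j i) ≫ θ i = ρ),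
        ∏ i, chartPt r φ hξ (θ i) (hθ i) = z) :
    Smooth r.toBase ∧ IsProper r.toBase ∧ GeometricallyConnected r.toBase ∧
      GeometricallyIntegral r.toBase :=
  AbsRepProps27.absRep_properties r map_mul c hFS (abelOver r c hcov φ hφ hξ hc) g
    (hG_of_chartSums r c hcov φ hφ hξ hc g hJ)

include hcov hφ map_mul in
/-- **B6 end theorem, all inputs in functor-of-points form, smoothness as a hypothesis.** -/
theorem properties_of_chartSums_of_smooth [Smooth r.toBase] (hc : Compat ι ξ) (g : ℕ)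
    (hJ : ∀ (K : Type u) [Field K] [IsAlgClosed K]
      (ρ : CommRingCat.of k ⟶ CommRingCat.of K) (z : r.Fib (CommRingCat.of K) ρ),
      ∃ (j : Fin g → I) (θ : ∀ i, A (j i) ⟶ CommRingCat.of K) (hθ : ∀ i, φ (j i) ≫ θ i = ρ),
        ∏ i, chartPt r φ hξ (θ i) (hθ i) = z) :
    IsProper r.toBase ∧ GeometricallyConnected r.toBase ∧ GeometricallyIntegral r.toBase :=
  SmoothGroup27.absRep_properties_of_smooth r map_mul c (abelOver r c hcov φ hφ hξ hc) g
    (hG_of_chartSums r c hcov φ hφ hξ hc g hJ)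

end Main

end Fermat.Agent.JAC.Abel.AbelSum27
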