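/-
Programme JAC (S25), Abel chapter (input (iv) of B6), brick (Ab2b).  Owner: helper57.

Base change of ideal diagrams.

* `mulMap Z : R' ⊗[R] Z →ₗ[R'] Z·R'`, `x ⊗ z ↦ x * z`, is surjective, hence bijective as soon as
  `Z` and `Z·R'` are invertible modules (a surjection between invertible modules is bijective):
  `mulEquiv`.
* `idealDiagBaseChangeIso`: for a morphism of two-chart families, the base change of
  `SectionDiv46.idealDiag Z0 Z1` is `idealDiag (Z0·R0') (Z1·R1')`, provided the image ideals are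
  invertible modules.
* `eq_comap_of_sup_span_eq_top`: an ideal of the second chart is determined by its extension to
  the overlap as soon as it has no zero at infinity (`Z1 ⊔ (s) = ⊤`).
-/
import Mathlib
import Fermat.Agent.JAC.Core.Defs36
import Fermat.Agent.JAC.Grp.Diag33
import Fermat.Agent.JAC.Grp.BaseChange33
import Fermat.Agent.JAC.Hilb.SectionDiv46

set_option autoImplicit false

open TensorProduct

universe u

namespace Fermat.Agent.JAC.Abel.IdealBC57

open Fermat.Agent.JAC.Core.Defs36 Fermat.Agent.JAC.Grp.Diag33 Fermat.Agent.JAC.Grp.BaseChange33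
  Fermat.Agent.JAC.Hilb.SectionDiv46

section Single

variable {R R' : Type*} [CommRing R] [CommRing R'] [Algebra R R'] (Z : Ideal R)

/-- The multiplication map `R' ⊗[R] Z → Z·R'`, `x ⊗ z ↦ x * z`. -/
noncomputable def mulMap : R' ⊗[R] Z →ₗ[R'] Z.map (algebraMap R R') :=
  LinearMap.liftBaseChange R' (Algebra.idealMap R' Z)

@[simp]
theorem mulMap_tmul (x : R') (z : Z) :
    ((mulMap (R' := R') Z (x ⊗ₜ z) : Z.map (algebraMap R R')) : R') = x * algebraMap R R' z := by
  simp [mulMap, LinearMap.liftBaseChange_tmul]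

theorem mulMap_surjective : Function.Surjective (mulMap (R' := R') Z) := by
  rintro ⟨y, hy⟩
  suffices h : ∃ w, ((mulMap (R' := R') Z w : Z.map (algebraMap R R')) : R') = y by
    obtain ⟨w, hw⟩ := h
    exact ⟨w, Subtype.ext hw⟩
  rw [Ideal.map] at hy
  induction hy using Submodule.span_induction with
  | mem x hx =>
    obtain ⟨z, hz, rfl⟩ := hx
    exact ⟨1 ⊗ₜ ⟨z, hz⟩, by simp⟩
  | zero => exact ⟨0, by simp⟩
  | add x y _ _ hx hy =>
    obtain ⟨w, hw⟩ := hx
    obtain ⟨w', hw'⟩ := hy
    exact ⟨w + w', by simp [hw, hw']⟩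
  | smul a x _ hx =>
    obtain ⟨w, hw⟩ := hx
    exact ⟨a • w, by simp [hw]⟩

theorem mulMap_bijective [Module.Invertible R Z] [Module.Invertible R' (Z.map (algebraMap R R'))] :
    Function.Bijective (mulMap (R' := R') Z) :=
  Module.Invertible.bijective_of_surjective (mulMap_surjective Z)

/-- `R' ⊗[R] Z ≃ Z·R'` when both `Z` and `Z·R'` are invertible modules. -/
noncomputable def mulEquiv [Module.Invertible R Z]
    [Module.Invertible R' (Z.map (algebraMap R R'))] :
    R' ⊗[R] Z ≃ₗ[R'] Z.map (algebraMap R R') :=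
  LinearEquiv.ofBijective (mulMap (R' := R') Z) (mulMap_bijective Z)

@[simp]
theorem mulEquiv_tmul [Module.Invertible R Z] [Module.Invertible R' (Z.map (algebraMap R R'))]
    (x : R') (z : Z) :
    ((mulEquiv (R' := R') Z (x ⊗ₜ z) : Z.map (algebraMap R R')) : R') = x * algebraMap R R' z :=
  mulMap_tmul Z x z

end Single

section Infinity

variable {R1 R01 : Type*} [CommRing R1] [CommRing R01] [Algebra R1 R01] (s : R1)
  [IsLocalization.Away s R01]

/-- An ideal `Z1` of the second chart with no zero at infinity (`Z1 ⊔ (s) = ⊤`) is the preimage of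
its extension to the overlap. -/
theorem eq_comap_of_sup_span_eq_top (Z1 : Ideal R1) (hinf : Z1 ⊔ Ideal.span {s} = ⊤) :
    Z1 = (Z1.map (algebraMap R1 R01)).comap (algebraMap R1 R01) := by
  apply le_antisymm Ideal.le_comap_map
  intro x hx
  rw [Ideal.mem_comap, IsLocalization.mem_map_algebraMap_iff (Submonoid.powers s)] at hx
  obtain ⟨⟨⟨z, hz⟩, ⟨_, n, rfl⟩⟩, h⟩ := hx
  simp only at h
  rw [← map_mul] at h
  obtain ⟨⟨_, m, rfl⟩, hm⟩ := (IsLocalization.eq_iff_exists (Submonoid.powers s) R01).mp h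
  simp only at hm
  -- `s ^ (m + n) * x ∈ Z1`
  have h1 : s ^ (m + n) * x ∈ Z1 := by
    have : s ^ (m + n) * x = s ^ m * z := by
      rw [pow_add, mul_assoc, ← hm]; ring
    rw [this]
    exact Z1.mul_mem_left _ hz
  -- `Z1 ⊔ (s ^ (m + n)) = ⊤`
  have h2 : Z1 ⊔ Ideal.span {s ^ (m + n)} = ⊤ := by
    have := Ideal.sup_pow_eq_top (n := m + n) hinf
    rwa [Ideal.span_singleton_pow] at this
  obtain ⟨a, ha, b, hb, hab⟩ := Submodule.mem_sup.mp ((Ideal.eq_top_iff_one _).mp h2)
  obtain ⟨c, rfl⟩ := Ideal.mem_span_singleton'.mp hb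
  have : x = a * x + c * (s ^ (m + n) * x) := by
    calc x = (a + c * s ^ (m + n)) * x := by rw [hab, one_mul]
      _ = _ := by ring
  rw [this]
  exact Z1.add_mem (Z1.mul_mem_right _ ha) (Z1.mul_mem_left _ h1)

/-- Two ideals of the second chart with no zero at infinity and the same extension to the overlap
are equal. -/
theorem eq_of_map_eq_of_sup_span_eq_top (Z1 Z1' : Ideal R1)
    (hinf : Z1 ⊔ Ideal.span {s} = ⊤) (hinf' : Z1' ⊔ Ideal.span {s} = ⊤)
    (h : Z1.map (algebraMap R1 R01) = Z1'.map (algebraMap R1 R01)) : Z1 = Z1' := by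
  rw [eq_comap_of_sup_span_eq_top (R01 := R01) s Z1 hinf,
    eq_comap_of_sup_span_eq_top (R01 := R01) s Z1' hinf', h]

end Infinity

section Bundled

variable {R0 R1 R01 : Type u} [CommRing R0] [CommRing R1] [CommRing R01]
  [Algebra R0 R01] [Algebra R1 R01] {t : R0} {s : R1}
variable {R0' R1' R01' : Type u} [CommRing R0'] [CommRing R1'] [CommRing R01']
  [Algebra R0' R01'] [Algebra R1' R01']
  [Algebra R0 R0'] [Algebra R1 R1'] [Algebra R01 R01'] [Algebra R0 R01'] [Algebra R1 R01']
  [IsScalarTower R0 R01 R01'] [IsScalarTower R0 R0' R01']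
  [IsScalarTower R1 R01 R01'] [IsScalarTower R1 R1' R01']
  (t' : R0') (s' : R1')
  [IsLocalization.Away t R01] [IsLocalization.Away s R01]
  [IsLocalization.Away t' R01'] [IsLocalization.Away s' R01']

omit [IsLocalization.Away t R01] [IsLocalization.Away s R01]
  [IsLocalization.Away t' R01'] [IsLocalization.Away s' R01'] in
/-- The compatibility of the extended ideals is inherited by the image ideals. -/
theorem map_map_eq (Z0 : Ideal R0) (Z1 : Ideal R1)
    (h : Ideal.map (algebraMap R0 R01) Z0 = Ideal.map (algebraMap R1 R01) Z1) :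
    Ideal.map (algebraMap R0' R01') (Z0.map (algebraMap R0 R0')) =
      Ideal.map (algebraMap R1' R01') (Z1.map (algebraMap R1 R1')) := by
  rw [Ideal.map_map, Ideal.map_map, ← IsScalarTower.algebraMap_eq, ← IsScalarTower.algebraMap_eq,
    IsScalarTower.algebraMap_eq R0 R01 R01', IsScalarTower.algebraMap_eq R1 R01 R01',
    ← Ideal.map_map, ← Ideal.map_map, h]

omit [IsLocalization.Away t R01] [IsLocalization.Away s R01]
  [IsLocalization.Away t' R01'] [IsLocalization.Away s' R01'] in
theorem map_map_eq' (Z0 : Ideal R0) :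
    Ideal.map (algebraMap R01 R01') (Z0.map (algebraMap R0 R01)) =
      Ideal.map (algebraMap R0' R01') (Z0.map (algebraMap R0 R0')) := by
  rw [Ideal.map_map, Ideal.map_map, ← IsScalarTower.algebraMap_eq, ← IsScalarTower.algebraMap_eq]

variable (R01')

/-- An isomorphism from the base change of a line diagram `N` to a line diagram `N'`, from linear
equivalences on the three vertices which are compatible with the localisation maps on pure
tensors. -/
noncomputable def isoOfBaseChange (N : LineDiag t s R01) (N' : LineDiag t' s' R01')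
    (e0 : R0' ⊗[R0] N.M0 ≃ₗ[R0'] N'.M0) (e1 : R1' ⊗[R1] N.M1 ≃ₗ[R1'] N'.M1)
    (e01 : R01' ⊗[R01] N.M01 ≃ₗ[R01'] N'.M01)
    (h0 : ∀ (a : R0') (z : N.M0),
      e01 (algebraMap R0' R01' a ⊗ₜ[R01] N.rho0 z) = N'.rho0 (e0 (a ⊗ₜ[R0] z)))
    (h1 : ∀ (a : R1') (z : N.M1),
      e01 (algebraMap R1' R01' a ⊗ₜ[R01] N.rho1 z) = N'.rho1 (e1 (a ⊗ₜ[R1] z))) :
    LineDiag.Iso (baseChange R01' t' s' N) N' where
  e0 := e0
  e1 := e1
  e01 := e01
  comm0 := by
    intro x
    change e01 (baseChangeMap N.rho0 x) = N'.rho0 (e0 x)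
    induction x using TensorProduct.induction_on with
    | zero => simp only [map_zero]
    | tmul a z => rw [baseChangeMap_tmul, h0]
    | add x y hx hy => simp only [map_add, hx, hy]
  comm1 := by
    intro x
    change e01 (baseChangeMap N.rho1 x) = N'.rho1 (e1 x)
    induction x using TensorProduct.induction_on with
    | zero => simp only [map_zero]
    | tmul a z => rw [baseChangeMap_tmul, h1]
    | add x y hx hy => simp only [map_add, hx, hy]

omit [IsLocalization.Away t R01] [IsLocalization.Away s R01] [Algebra R1 R01]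
  [Algebra R1' R01'] [Algebra R1 R1'] [Algebra R1 R01'] [IsScalarTower R1 R01 R01']
  [IsScalarTower R1 R1' R01'] in
theorem comm_aux (Z0 : Ideal R0) [Module.Invertible R0 Z0]
    [Module.Invertible R0' (Z0.map (algebraMap R0 R0'))]
    [Module.Invertible R01 (Z0.map (algebraMap R0 R01))]
    [Module.Invertible R01' (Ideal.map (algebraMap R01 R01') (Z0.map (algebraMap R0 R01)))]
    (a : R0') (z : Z0) :
    ((mulEquiv (R' := R01') (Z0.map (algebraMap R0 R01))
        (algebraMap R0' R01' a ⊗ₜ[R01] Algebra.idealMap R01 Z0 z) :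
          Ideal.map (algebraMap R01 R01') (Z0.map (algebraMap R0 R01))) : R01') =
      algebraMap R0' R01' ((mulEquiv (R' := R0') Z0 (a ⊗ₜ[R0] z) :
        Z0.map (algebraMap R0 R0')) : R0') := by
  rw [mulEquiv_tmul, mulEquiv_tmul, map_mul, Algebra.idealMap_apply_coe,
    ← IsScalarTower.algebraMap_apply R0 R0' R01', ← IsScalarTower.algebraMap_apply R0 R01 R01']

omit [IsLocalization.Away t R01] [IsLocalization.Away s R01]
  [Algebra R0' R01'] [Algebra R0 R0'] [Algebra R0 R01'] [IsScalarTower R0 R01 R01']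
  [IsScalarTower R0 R0' R01'] in
theorem comm_aux1 (Z0 : Ideal R0) (Z1 : Ideal R1)
    (h : Ideal.map (algebraMap R0 R01) Z0 = Ideal.map (algebraMap R1 R01) Z1)
    [Module.Invertible R1 Z1]
    [Module.Invertible R1' (Z1.map (algebraMap R1 R1'))]
    [Module.Invertible R01 (Z0.map (algebraMap R0 R01))]
    [Module.Invertible R01' (Ideal.map (algebraMap R01 R01') (Z0.map (algebraMap R0 R01)))]
    (a : R1') (z : Z1) :
    ((mulEquiv (R' := R01') (Z0.map (algebraMap R0 R01))
        (algebraMap R1' R01' a ⊗ₜ[R01]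
          (LinearEquiv.ofEq _ _ h.symm (Algebra.idealMap R01 Z1 z))) :
          Ideal.map (algebraMap R01 R01') (Z0.map (algebraMap R0 R01))) : R01') =
      algebraMap R1' R01' ((mulEquiv (R' := R1') Z1 (a ⊗ₜ[R1] z) :
        Z1.map (algebraMap R1 R1')) : R1') := by
  rw [mulEquiv_tmul, mulEquiv_tmul, map_mul, LinearEquiv.coe_ofEq_apply,
    Algebra.idealMap_apply_coe,
    ← IsScalarTower.algebraMap_apply R1 R1' R01', ← IsScalarTower.algebraMap_apply R1 R01 R01']

/-- **Base change of ideal diagrams**: if the image ideals are invertible modules, the base change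
of `idealDiag Z0 Z1` is `idealDiag (Z0·R0') (Z1·R1')`. -/
noncomputable def idealDiagBaseChangeIso (Z0 : Ideal R0) (Z1 : Ideal R1)
    (h : Ideal.map (algebraMap R0 R01) Z0 = Ideal.map (algebraMap R1 R01) Z1)
    [Module.Invertible R0 Z0] [Module.Invertible R1 Z1]
    [Module.Invertible R0' (Z0.map (algebraMap R0 R0'))]
    [Module.Invertible R1' (Z1.map (algebraMap R1 R1'))] :
    LineDiag.Iso (baseChange R01' t' s' (idealDiag t s Z0 Z1 h))
      (idealDiag t' s' (Z0.map (algebraMap R0 R0')) (Z1.map (algebraMap R1 R1'))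
        (map_map_eq Z0 Z1 h)) :=
  haveI : Module.Invertible R01 (Ideal.map (algebraMap R0 R01) Z0) :=
    invertible01 (idealDiag t s Z0 Z1 h)
  haveI : Module.Invertible R01' (Ideal.map (algebraMap R0' R01') (Z0.map (algebraMap R0 R0'))) :=
    invertible01 (idealDiag t' s' (Z0.map (algebraMap R0 R0')) (Z1.map (algebraMap R1 R1'))
      (map_map_eq Z0 Z1 h))
  haveI : Module.Invertible R01'
      (Ideal.map (algebraMap R01 R01') (Z0.map (algebraMap R0 R01))) :=
    Module.Invertible.congr (LinearEquiv.ofEq _ _ (map_map_eq' (R0' := R0') (R01' := R01') Z0).symm)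
  isoOfBaseChange R01' t' s' (idealDiag t s Z0 Z1 h)
    (idealDiag t' s' (Z0.map (algebraMap R0 R0')) (Z1.map (algebraMap R1 R1'))
      (map_map_eq Z0 Z1 h))
    (mulEquiv Z0) (mulEquiv Z1)
    ((mulEquiv (R' := R01') (Z0.map (algebraMap R0 R01))).trans
      (LinearEquiv.ofEq _ _ (map_map_eq' (R0' := R0') (R01' := R01') Z0)))
    (fun a z => Subtype.ext (comm_aux (R01' := R01') Z0 a z))
    (fun a z => Subtype.ext (comm_aux1 (R01' := R01') Z0 Z1 h a z))

/-- Class form of `idealDiagBaseChangeIso`. -/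
theorem baseChangeHom_cls_idealDiag (Z0 : Ideal R0) (Z1 : Ideal R1)
    (h : Ideal.map (algebraMap R0 R01) Z0 = Ideal.map (algebraMap R1 R01) Z1)
    [Module.Invertible R0 Z0] [Module.Invertible R1 Z1]
    [Module.Invertible R0' (Z0.map (algebraMap R0 R0'))]
    [Module.Invertible R1' (Z1.map (algebraMap R1 R1'))] :
    baseChangeHom R01' t' s' (cls (idealDiag t s Z0 Z1 h)) =
      cls (idealDiag t' s' (Z0.map (algebraMap R0 R0')) (Z1.map (algebraMap R1 R1'))
        (map_map_eq Z0 Z1 h)) := by
  rw [baseChangeHom_cls, cls_eq_iff]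
  exact ⟨idealDiagBaseChangeIso R01' t' s' Z0 Z1 h⟩

end Bundled

end Fermat.Agent.JAC.Abel.IdealBC57
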