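/-
Programme JAC (S25), Abel chapter (input (iv) of B6), brick (Ab3a).  Owner: helper57.

The pull-back `pr* L` of an invertible module `L` on the base `B` to a two-chart family over `B`:
* `constDiag B R01 t s L : LineDiag t s R01` with vertices `R_i ⊗[B] L`;
* `constDiagCongr`, `constDiagUnit`, `cls_constDiag_of_linearEquiv` (free ⇒ trivial class);
* `mapAlgebra_toPic01_constDiag`: `e* pr* L = L` in `Pic B` for a section `e : R01 → B`;
* `mapAlgebra_toPic01_idealDiag`: `e*` of an ideal diagram is the class of the image ideal, when the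
  latter is invertible;
* `constDiagBaseChangeIso`, `baseChangeHom_cls_constDiag`: base change of `pr* L` along a
  morphism of families over `B → B'` is `pr* (B' ⊗[B] L)`.
-/
import Mathlib
import Fermat.Agent.JAC.Core.Defs36
import Fermat.Agent.JAC.Grp.Diag33
import Fermat.Agent.JAC.Grp.BaseChange33
import Fermat.Agent.JAC.Abel.IdealBC57

set_option autoImplicit false
set_option linter.style.haveILetI false

open TensorProduct

universe u

namespace Fermat.Agent.JAC.Abel.ConstDiag57

open Fermat.Agent.JAC.Core.Defs36 Fermat.Agent.JAC.Grp.Diag33 Fermat.Agent.JAC.Grp.BaseChange33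
  Fermat.Agent.JAC.Abel.IdealBC57

section General

variable (B : Type u) [CommRing B]
variable {R0 R1 : Type u} (R01 : Type u) [CommRing R0] [CommRing R1] [CommRing R01]
  [Algebra B R0] [Algebra B R1] [Algebra B R01] [Algebra R0 R01] [Algebra R1 R01]
  [IsScalarTower B R0 R01] [IsScalarTower B R1 R01]
  (t : R0) (s : R1) [IsLocalization.Away t R01] [IsLocalization.Away s R01]
variable (L : Type u) [AddCommGroup L] [Module B L] [Module.Invertible B L]

/-- The pull-back `pr* L` of an invertible module on the base to the two-chart family. -/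
noncomputable def constDiag : LineDiag t s R01 where
  M0 := R0 ⊗[B] L
  M1 := R1 ⊗[B] L
  M01 := R01 ⊗[B] L
  rho0 := AlgebraTensorModule.rTensor B L (Algebra.linearMap R0 R01)
  rho1 := AlgebraTensorModule.rTensor B L (Algebra.linearMap R1 R01)
  isLocalizedModule0 :=
    haveI : IsLocalizedModule (Submonoid.powers t) (Algebra.linearMap R0 R01) :=
      (isLocalizedModule_iff_isLocalization).mpr inferInstance
    IsLocalizedModule.rTensor R0 (Submonoid.powers t) (Algebra.linearMap R0 R01)
  isLocalizedModule1 :=
    haveI : IsLocalizedModule (Submonoid.powers s) (Algebra.linearMap R1 R01) :=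
      (isLocalizedModule_iff_isLocalization).mpr inferInstance
    IsLocalizedModule.rTensor R1 (Submonoid.powers s) (Algebra.linearMap R1 R01)

@[simp] theorem constDiag_rho0_tmul (r : R0) (l : L) :
    (constDiag B R01 t s L).rho0 (r ⊗ₜ[B] l) = (algebraMap R0 R01 r ⊗ₜ[B] l : R01 ⊗[B] L) := rfl

@[simp] theorem constDiag_rho1_tmul (r : R1) (l : L) :
    (constDiag B R01 t s L).rho1 (r ⊗ₜ[B] l) = (algebraMap R1 R01 r ⊗ₜ[B] l : R01 ⊗[B] L) := rfl

variable {L} {L' : Type u} [AddCommGroup L'] [Module B L'] [Module.Invertible B L']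

/-- `pr*` of isomorphic modules are isomorphic. -/
noncomputable def constDiagCongr (e : L ≃ₗ[B] L') :
    LineDiag.Iso (constDiag B R01 t s L) (constDiag B R01 t s L') where
  e0 := AlgebraTensorModule.congr (LinearEquiv.refl R0 R0) e
  e1 := AlgebraTensorModule.congr (LinearEquiv.refl R1 R1) e
  e01 := AlgebraTensorModule.congr (LinearEquiv.refl R01 R01) e
  comm0 := by
    intro x
    change AlgebraTensorModule.congr (LinearEquiv.refl R01 R01) e
      (AlgebraTensorModule.rTensor B L (Algebra.linearMap R0 R01) x) =
      AlgebraTensorModule.rTensor B L' (Algebra.linearMap R0 R01)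
        (AlgebraTensorModule.congr (LinearEquiv.refl R0 R0) e x)
    induction x using TensorProduct.induction_on with
    | zero => simp only [map_zero]
    | tmul r l => simp
    | add x y hx hy => simp only [map_add, hx, hy]
  comm1 := by
    intro x
    change AlgebraTensorModule.congr (LinearEquiv.refl R01 R01) e
      (AlgebraTensorModule.rTensor B L (Algebra.linearMap R1 R01) x) =
      AlgebraTensorModule.rTensor B L' (Algebra.linearMap R1 R01)
        (AlgebraTensorModule.congr (LinearEquiv.refl R1 R1) e x)
    induction x using TensorProduct.induction_on with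
    | zero => simp only [map_zero]
    | tmul r l => simp
    | add x y hx hy => simp only [map_add, hx, hy]

theorem cls_constDiag_congr (e : L ≃ₗ[B] L') :
    cls (constDiag B R01 t s L) = cls (constDiag B R01 t s L') :=
  cls_eq_iff.mpr ⟨constDiagCongr B R01 t s e⟩

/-- `pr*` of the trivial module is the unit diagram. -/
noncomputable def constDiagUnit : LineDiag.Iso (constDiag B R01 t s B) (LineDiag.unit t s R01) where
  e0 := AlgebraTensorModule.rid B R0 R0
  e1 := AlgebraTensorModule.rid B R1 R1
  e01 := AlgebraTensorModule.rid B R01 R01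
  comm0 := by
    intro x
    change AlgebraTensorModule.rid B R01 R01
      (AlgebraTensorModule.rTensor B B (Algebra.linearMap R0 R01) x) =
      algebraMap R0 R01 (AlgebraTensorModule.rid B R0 R0 x)
    induction x using TensorProduct.induction_on with
    | zero => simp only [map_zero]
    | tmul r l => simp [Algebra.smul_def, ← IsScalarTower.algebraMap_apply]
    | add x y hx hy => simp only [map_add, hx, hy]
  comm1 := by
    intro x
    change AlgebraTensorModule.rid B R01 R01
      (AlgebraTensorModule.rTensor B B (Algebra.linearMap R1 R01) x) =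
      algebraMap R1 R01 (AlgebraTensorModule.rid B R1 R1 x)
    induction x using TensorProduct.induction_on with
    | zero => simp only [map_zero]
    | tmul r l => simp [Algebra.smul_def, ← IsScalarTower.algebraMap_apply]
    | add x y hx hy => simp only [map_add, hx, hy]

/-- `pr*` of a free module of rank one is trivial. -/
theorem cls_constDiag_of_linearEquiv (e : L ≃ₗ[B] B) : cls (constDiag B R01 t s L) = 1 := by
  rw [cls_constDiag_congr B R01 t s e, cls_one, cls_eq_iff]
  exact ⟨constDiagUnit B R01 t s⟩

end General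

section Pic

open CommRing

/-- `Pic.mapAlgebra` on the class of a module. -/
theorem mapAlgebra_mk {R : Type u} [CommRing R] {A : Type u} [CommRing A] [Algebra R A]
    (X : Type u) [AddCommGroup X] [Module R X] [Module.Invertible R X] :
    Pic.mapAlgebra R A (Pic.mk R X) = Pic.mk A (A ⊗[R] X) := by
  rw [Pic.mapAlgebra_apply, Pic.mk_eq_mk_iff]
  exact ⟨AlgebraTensorModule.congr (LinearEquiv.refl A A) (Pic.mk.linearEquiv R X)⟩

variable (B : Type u) [CommRing B]
variable {R0 R1 : Type u} (R01 : Type u) [CommRing R0] [CommRing R1] [CommRing R01]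
  [Algebra B R0] [Algebra B R1] [Algebra B R01] [Algebra R0 R01] [Algebra R1 R01]
  [IsScalarTower B R0 R01] [IsScalarTower B R1 R01]
  (t : R0) (s : R1) [IsLocalization.Away t R01] [IsLocalization.Away s R01]

/-- **`e* pr* = id`**: the restriction of `pr* L` along a section `R01 → B` of `B → R01` is `L`. -/
theorem mapAlgebra_toPic01_constDiag [Algebra R01 B] [IsScalarTower B R01 B]
    (L : Type u) [AddCommGroup L] [Module B L] [Module.Invertible B L] :
    Pic.mapAlgebra R01 B (toPic01 (cls (constDiag B R01 t s L))) = Pic.mk B L := by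
  rw [toPic01_cls]
  change Pic.mapAlgebra R01 B (Pic.mk R01 (R01 ⊗[B] L)) = Pic.mk B L
  rw [mapAlgebra_mk, Pic.mk_eq_mk_iff]
  exact ⟨AlgebraTensorModule.cancelBaseChange B R01 B B L ≪≫ₗ TensorProduct.lid B L⟩

omit [Algebra B R0] [Algebra B R1] [Algebra B R01] [IsScalarTower B R0 R01]
  [IsScalarTower B R1 R01] in
/-- The restriction of an ideal diagram along `R01 → B` is the class of the image ideal, when the
latter is invertible. -/
theorem mapAlgebra_toPic01_idealDiag [Algebra R01 B] (Z0 : Ideal R0) (Z1 : Ideal R1)
    (h : Ideal.map (algebraMap R0 R01) Z0 = Ideal.map (algebraMap R1 R01) Z1)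
    [Module.Invertible R0 Z0] [Module.Invertible R1 Z1]
    [Module.Invertible B ((Z0.map (algebraMap R0 R01)).map (algebraMap R01 B))] :
    Pic.mapAlgebra R01 B
      (toPic01 (cls (Fermat.Agent.JAC.Hilb.SectionDiv46.idealDiag t s Z0 Z1 h))) =
      Pic.mk B ((Z0.map (algebraMap R0 R01)).map (algebraMap R01 B)) := by
  haveI : Module.Invertible R01 (Ideal.map (algebraMap R0 R01) Z0) :=
    invertible01 (Fermat.Agent.JAC.Hilb.SectionDiv46.idealDiag t s Z0 Z1 h)
  rw [toPic01_cls]
  change Pic.mapAlgebra R01 B (Pic.mk R01 (Ideal.map (algebraMap R0 R01) Z0)) = _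
  rw [mapAlgebra_mk, Pic.mk_eq_mk_iff]
  exact ⟨mulEquiv (R' := B) (Z0.map (algebraMap R0 R01))⟩

end Pic

section BaseChange

variable {B B' : Type u} [CommRing B] [CommRing B'] [Algebra B B']
variable {R0 R1 R01 : Type u} [CommRing R0] [CommRing R1] [CommRing R01]
  [Algebra R0 R01] [Algebra R1 R01] {t : R0} {s : R1}
variable {R0' R1' R01' : Type u} [CommRing R0'] [CommRing R1'] [CommRing R01']
  [Algebra R0' R01'] [Algebra R1' R01']
  [Algebra R0 R0'] [Algebra R1 R1'] [Algebra R01 R01'] [Algebra R0 R01'] [Algebra R1 R01']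
  [IsScalarTower R0 R01 R01'] [IsScalarTower R0 R0' R01']
  [IsScalarTower R1 R01 R01'] [IsScalarTower R1 R1' R01']
  (t' : R0') (s' : R1')
  [IsLocalization.Away t R01] [IsLocalization.Away s R01]
  [IsLocalization.Away t' R01'] [IsLocalization.Away s' R01']
  [Algebra B R0] [Algebra B R1] [Algebra B R01] [IsScalarTower B R0 R01] [IsScalarTower B R1 R01]
  [Algebra B' R0'] [Algebra B' R1'] [Algebra B' R01'] [IsScalarTower B' R0' R01']
  [IsScalarTower B' R1' R01']
  [Algebra B R0'] [Algebra B R1'] [Algebra B R01']
  [IsScalarTower B R0 R0'] [IsScalarTower B R1 R1'] [IsScalarTower B R01 R01']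
  [IsScalarTower B B' R0'] [IsScalarTower B B' R1'] [IsScalarTower B B' R01']
  (L : Type u) [AddCommGroup L] [Module B L] [Module.Invertible B L]

/-- The comparison `R' ⊗[R] (R ⊗[B] L) ≃ R' ⊗[B'] (B' ⊗[B] L)`. -/
noncomputable def cancelEquiv (R R' : Type u) [CommRing R] [CommRing R'] [Algebra R R']
    [Algebra B R] [Algebra B' R'] [Algebra B R'] [IsScalarTower B R R'] [IsScalarTower B B' R'] :
    R' ⊗[R] (R ⊗[B] L) ≃ₗ[R'] R' ⊗[B'] (B' ⊗[B] L) :=
  AlgebraTensorModule.cancelBaseChange B R R' R' L ≪≫ₗ
    (AlgebraTensorModule.cancelBaseChange B B' R' R' L).symm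

omit [Module.Invertible B L] in
@[simp] theorem cancelEquiv_tmul (R R' : Type u) [CommRing R] [CommRing R'] [Algebra R R']
    [Algebra B R] [Algebra B' R'] [Algebra B R'] [IsScalarTower B R R'] [IsScalarTower B B' R']
    (a : R') (r : R) (l : L) :
    cancelEquiv (B' := B') L R R' (a ⊗ₜ[R] (r ⊗ₜ[B] l)) =
      (algebraMap R R' r * a) ⊗ₜ[B'] ((1 : B') ⊗ₜ[B] l) := by
  simp [cancelEquiv, Algebra.smul_def]

variable (R01')

/-- **Base change of `pr* L`** is `pr* (B' ⊗[B] L)`. -/
noncomputable def constDiagBaseChangeIso :
    LineDiag.Iso (baseChange R01' t' s' (constDiag B R01 t s L))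
      (constDiag B' R01' t' s' (B' ⊗[B] L)) :=
  isoOfBaseChange R01' t' s' (constDiag B R01 t s L) (constDiag B' R01' t' s' (B' ⊗[B] L))
    (cancelEquiv (B' := B') L R0 R0') (cancelEquiv (B' := B') L R1 R1')
    (cancelEquiv (B' := B') L R01 R01')
    (by
      intro a z
      change cancelEquiv (B' := B') L R01 R01'
          (algebraMap R0' R01' a ⊗ₜ[R01]
            AlgebraTensorModule.rTensor B L (Algebra.linearMap R0 R01) z) =
        AlgebraTensorModule.rTensor B' (B' ⊗[B] L) (Algebra.linearMap R0' R01')
          (cancelEquiv (B' := B') L R0 R0' (a ⊗ₜ[R0] z))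
      induction z using TensorProduct.induction_on with
      | zero => simp only [map_zero, TensorProduct.tmul_zero]
      | tmul r l =>
        rw [AlgebraTensorModule.rTensor_tmul, cancelEquiv_tmul, cancelEquiv_tmul,
          AlgebraTensorModule.rTensor_tmul, Algebra.linearMap_apply, Algebra.linearMap_apply,
          map_mul, ← IsScalarTower.algebraMap_apply R0 R0' R01',
          ← IsScalarTower.algebraMap_apply R0 R01 R01']
      | add x y hx hy => simp only [map_add, TensorProduct.tmul_add, hx, hy])
    (by
      intro a z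
      change cancelEquiv (B' := B') L R01 R01'
          (algebraMap R1' R01' a ⊗ₜ[R01]
            AlgebraTensorModule.rTensor B L (Algebra.linearMap R1 R01) z) =
        AlgebraTensorModule.rTensor B' (B' ⊗[B] L) (Algebra.linearMap R1' R01')
          (cancelEquiv (B' := B') L R1 R1' (a ⊗ₜ[R1] z))
      induction z using TensorProduct.induction_on with
      | zero => simp only [map_zero, TensorProduct.tmul_zero]
      | tmul r l =>
        rw [AlgebraTensorModule.rTensor_tmul, cancelEquiv_tmul, cancelEquiv_tmul,
          AlgebraTensorModule.rTensor_tmul, Algebra.linearMap_apply, Algebra.linearMap_apply,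
          map_mul, ← IsScalarTower.algebraMap_apply R1 R1' R01',
          ← IsScalarTower.algebraMap_apply R1 R01 R01']
      | add x y hx hy => simp only [map_add, TensorProduct.tmul_add, hx, hy])

theorem baseChangeHom_cls_constDiag :
    baseChangeHom R01' t' s' (cls (constDiag B R01 t s L)) =
      cls (constDiag B' R01' t' s' (B' ⊗[B] L)) := by
  rw [baseChangeHom_cls, cls_eq_iff]
  exact ⟨constDiagBaseChangeIso R01' t' s' L⟩

end BaseChange

end Fermat.Agent.JAC.Abel.ConstDiag57
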