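/-
Programme JAC (S25), Abel chapter (input (iv) of B6), brick (Ab2a).  Owner: helper57.

**The ideal of the diagonal of a smooth affine curve is an invertible module.**

* `invertible_of_forall_isMaximal_principal`: over a domain, a finitely presented nonzero ideal
  which is principal in the local ring of every maximal ideal is an invertible module;
* `map_atPrime_eq_span_singleton`: Nakayama at a prime: if `I ≤ P` is generated by a finite set `s`,
  `x ∈ I`, and every `y ∈ s` satisfies `u * y ∈ (x) + P * I` for some `u ∉ P`, then `I R_P = (x)`;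
* `diag_mul`: the Leibniz rule `δ(ab) = (1 ⊗ a) δ(b) + (b ⊗ 1) δ(a)` for `δ a = 1 ⊗ a - a ⊗ 1`;
* `invertible_diagonalIdeal`: if `A` is a `k`-algebra of finite type such that `A ⊗[k] A` is a
  domain, every maximal ideal `m` of `A` has residue field `k` and is locally principal
  (`A` a Dedekind domain over an algebraically closed field), and `A ≠ k`, then the ideal
  `graphIdeal (AlgHom.id k A) = ker (A ⊗[k] A → A)` of the diagonal is an invertible
  `A ⊗[k] A`-module;
* `invertible_diagonalIdeal_of_isDedekindDomain`: the Dedekind form.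
-/
import Mathlib
import Fermat.Agent.JAC.Alg.InvertibleLocal98
import Fermat.Agent.JAC.Alg.TensorDomain69
import Fermat.Agent.JAC.Cover.GraphIdeal98

set_option autoImplicit false

open TensorProduct

namespace Fermat.Agent.JAC.Abel.DiagonalInvertible57

open Fermat.Agent.JAC.Alg.InvertibleLocal98 Fermat.Agent.JAC.Cover.GraphIdeal98

section Local

variable {R : Type*} [CommRing R]

/-- Over a domain, a finitely presented nonzero ideal which becomes principal in the local ring of
every maximal ideal is an invertible module. -/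
theorem invertible_of_forall_isMaximal_principal [IsDomain R] (I : Ideal R)
    [Module.FinitePresentation R I] (hI : I ≠ ⊥)
    (h : ∀ (P : Ideal R) [P.IsMaximal], ∃ y : Localization.AtPrime P,
      I.map (algebraMap R (Localization.AtPrime P)) = Ideal.span {y}) :
    Module.Invertible R I := by
  refine invertible_of_isLocalized_maximal (fun P _ => Localization.AtPrime P)
    (fun P _ => I.localized' (Localization.AtPrime P) P.primeCompl
      (Algebra.linearMap R (Localization.AtPrime P)))
    (fun P _ => I.toLocalized' (Localization.AtPrime P) P.primeCompl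
      (Algebra.linearMap R (Localization.AtPrime P))) (fun P _ => ?_)
  obtain ⟨y, hy⟩ := h P
  have hinj : Function.Injective (algebraMap R (Localization.AtPrime P)) :=
    IsLocalization.injective _ P.primeCompl_le_nonZeroDivisors
  have hy0 : y ≠ 0 := by
    rintro rfl
    apply hI
    rw [eq_bot_iff]
    intro x hx
    have : algebraMap R (Localization.AtPrime P) x ∈
        I.map (algebraMap R (Localization.AtPrime P)) := Ideal.mem_map_of_mem _ hx
    rw [hy, Ideal.mem_span_singleton'] at this
    obtain ⟨a, ha⟩ := this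
    rw [mul_zero] at ha
    rw [Ideal.mem_bot]
    exact hinj (by rw [← ha, map_zero])
  have e1 := LinearEquiv.ofEq _ _
    (Ideal.localized'_eq_map (Localization.AtPrime P) P.primeCompl I)
  obtain ⟨e2⟩ := nonempty_linearEquiv_of_eq_span_singleton _ y
    (mem_nonZeroDivisors_of_ne_zero hy0) hy
  exact Module.Invertible.congr (e1.trans e2).symm

/-- **Nakayama at a prime.**  If the ideal `I ≤ P` is generated by the finite set `s`, `x ∈ I`,
and every `y ∈ s` satisfies `u * y ∈ (x) + P * I` for some `u ∉ P`, then `I` is generated by `x`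
in the local ring at `P`. -/
theorem map_atPrime_eq_span_singleton (P : Ideal R) [P.IsPrime] (I : Ideal R)
    (s : Set R) (hs : I = Ideal.span s) (hfin : s.Finite) (x : R) (hx : x ∈ I)
    (h : ∀ y ∈ s, ∃ u, u ∉ P ∧ u * y ∈ Ideal.span {x} ⊔ P * I) :
    I.map (algebraMap R (Localization.AtPrime P)) =
      Ideal.span {algebraMap R (Localization.AtPrime P) x} := by
  set f := algebraMap R (Localization.AtPrime P) with hf
  apply le_antisymm
  · -- Nakayama
    have hFG : (I.map f).FG := by
      rw [hs, Ideal.map_span]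
      exact Submodule.fg_span (hfin.image _)
    have hjac : P.map f ≤ Ideal.jacobson ⊥ := by
      rw [Localization.AtPrime.map_eq_maximalIdeal, IsLocalRing.jacobson_eq_maximalIdeal ⊥ bot_ne_top]
    refine Submodule.le_of_le_smul_of_le_jacobson_bot (N := Ideal.span {f x}) hFG hjac ?_
    have hgen : I.map f = Ideal.span (f '' s) := by rw [hs, Ideal.map_span]
    rw [hgen, Ideal.span_le]
    rintro _ ⟨y, hy, rfl⟩
    obtain ⟨u, hu, huy⟩ := h y hy
    have hunit : IsUnit (f u) := IsLocalization.map_units _ (⟨u, hu⟩ : P.primeCompl)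
    obtain ⟨v, hv⟩ := hunit.exists_left_inv
    have h1 : f (u * y) ∈ (Ideal.span {x} ⊔ P * I).map f := Ideal.mem_map_of_mem _ huy
    rw [Ideal.map_sup, Ideal.map_mul, Ideal.map_span, Set.image_singleton] at h1
    have h2 : f y = v * f (u * y) := by
      rw [map_mul, ← mul_assoc, hv, one_mul]
    rw [SetLike.mem_coe, h2, ← hgen, smul_eq_mul]
    exact Ideal.mul_mem_left _ v h1
  · rw [Ideal.span_le, Set.singleton_subset_iff]
    exact Ideal.mem_map_of_mem _ hx

end Local

section Diagonal

variable {k : Type*} [CommRing k] {A : Type*} [CommRing A] [Algebra k A]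

/-- The element `δ a = 1 ⊗ a - a ⊗ 1` of the ideal of the diagonal. -/
noncomputable def diag (a : A) : A ⊗[k] A := (1 : A) ⊗ₜ[k] a - a ⊗ₜ[k] (1 : A)

theorem diag_mem (a : A) : diag (k := k) a ∈ graphIdeal (AlgHom.id k A) :=
  sub_mem_graphIdeal (AlgHom.id k A) a

/-- Leibniz rule for `δ`. -/
theorem diag_mul (a b : A) :
    diag (k := k) (a * b) = ((1 : A) ⊗ₜ[k] a) * diag b + (b ⊗ₜ[k] (1 : A)) * diag a := by
  simp only [diag, mul_sub, Algebra.TensorProduct.tmul_mul_tmul, one_mul, mul_one]
  rw [mul_comm b a]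
  ring

theorem diag_add (a b : A) : diag (k := k) (a + b) = diag a + diag b := by
  simp only [diag, TensorProduct.tmul_add, TensorProduct.add_tmul]
  ring

theorem diag_algebraMap (c : k) : diag (k := k) (algebraMap k A c) = 0 := by
  rw [diag, Algebra.algebraMap_eq_smul_one, TensorProduct.tmul_smul, TensorProduct.smul_tmul',
    sub_self]

theorem graphMap_id_tmul_one (a : A) : graphMap (AlgHom.id k A) (a ⊗ₜ[k] (1 : A)) = a := by
  simp

theorem graphMap_id_one_tmul (a : A) : graphMap (AlgHom.id k A) ((1 : A) ⊗ₜ[k] a) = a := by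
  simp

end Diagonal

section Main

variable (k : Type*) [Field k] (A : Type*) [CommRing A] [Algebra k A]

/-- **The ideal of the diagonal is invertible** (abstract form). -/
theorem invertible_diagonalIdeal [Algebra.FiniteType k A] [IsDomain (A ⊗[k] A)]
    (hres : ∀ m : Ideal A, m.IsMaximal → ∀ a : A, ∃ c : k, a - algebraMap k A c ∈ m)
    (hprin : ∀ m : Ideal A, m.IsMaximal → ∃ π ∈ m, ∀ a ∈ m, ∃ u, u ∉ m ∧ u * a ∈ Ideal.span {π})
    (hne : ∃ a : A, (1 : A) ⊗ₜ[k] a ≠ a ⊗ₜ[k] (1 : A)) :
    Module.Invertible (A ⊗[k] A) (graphIdeal (AlgHom.id k A)) := by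
  set R := A ⊗[k] A
  set I := graphIdeal (AlgHom.id k A) with hIdef
  set μ := graphMap (AlgHom.id k A) with hμ
  have hft : Algebra.FiniteType k R := Algebra.FiniteType.trans (S := A) inferInstance inferInstance
  have hnoeth : IsNoetherianRing R := Algebra.FiniteType.isNoetherianRing k R
  have hFP : Module.FinitePresentation R I := Module.finitePresentation_of_finite R I
  -- `I ≠ ⊥`
  have hI0 : I ≠ ⊥ := by
    obtain ⟨a, ha⟩ := hne
    intro h0
    have : diag (k := k) a ∈ I := diag_mem a
    rw [h0, Ideal.mem_bot, diag, sub_eq_zero] at this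
    exact ha this
  -- a finite generating set
  obtain ⟨s0, hs0⟩ := (Algebra.FiniteType.out : (⊤ : Subalgebra k A).FG)
  have hIspan : I = Ideal.span ((fun a : A => diag (k := k) a) '' (s0 : Set A)) :=
    graphIdeal_eq_span_of_adjoin (AlgHom.id k A) (s0 : Set A) hs0
  refine invertible_of_forall_isMaximal_principal I hI0 (fun P _ => ?_)
  by_cases hIP : I ≤ P
  · -- `P` lies over a maximal ideal `m` of `A`
    have hsurj : Function.Surjective μ := graphMap_surjective _
    set m : Ideal A := P.map μ with hm
    have hker : RingHom.ker μ ≤ P := hIP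
    have hmmax : m.IsMaximal := by
      refine (Ideal.map_eq_top_or_isMaximal_of_surjective μ hsurj ‹P.IsMaximal›).resolve_left ?_
      intro htop
      have h1 : (1 : A) ∈ P.map μ := by rw [htop]; trivial
      rw [Ideal.mem_map_iff_of_surjective μ hsurj] at h1
      obtain ⟨w, hw, hw1⟩ := h1
      have h2 : 1 - w ∈ P := hker (by rw [RingHom.mem_ker, map_sub, hw1, map_one, sub_self])
      have h3 := P.add_mem h2 hw
      rw [sub_add_cancel] at h3
      exact (Ideal.IsMaximal.ne_top ‹P.IsMaximal›) ((Ideal.eq_top_iff_one P).mpr h3)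
    have hPm : ∀ z : R, z ∈ P ↔ μ z ∈ m := by
      intro z
      rw [hm, Ideal.mem_map_iff_of_surjective μ hsurj]
      constructor
      · intro hz; exact ⟨z, hz, rfl⟩
      · rintro ⟨w, hw, hwz⟩
        have : z - w ∈ P := hker (by rw [RingHom.mem_ker, map_sub, hwz, sub_self])
        have := P.add_mem this hw
        simpa using this
    obtain ⟨π, hπm, hπ⟩ := hprin m hmmax
    refine ⟨algebraMap R _ (diag (k := k) π), ?_⟩
    refine map_atPrime_eq_span_singleton P I _ hIspan (s0.finite_toSet.image _)
      (diag π) (diag_mem π) ?_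
    rintro _ ⟨a, -, rfl⟩
    change ∃ u, u ∉ P ∧ u * diag (k := k) a ∈ Ideal.span {diag π} ⊔ P * I
    -- reduce to `a ∈ m`
    obtain ⟨c, hc⟩ := hres m hmmax a
    set a' := a - algebraMap k A c with ha'
    have hda : diag (k := k) a = diag a' := by
      have : a = a' + algebraMap k A c := by rw [ha']; ring
      conv_lhs => rw [this]
      rw [diag_add, diag_algebraMap, add_zero]
    obtain ⟨u, hum, b, hb⟩ : ∃ u, u ∉ m ∧ ∃ b, u * a' = b * π := by
      obtain ⟨u, hu, hu'⟩ := hπ a' hc
      obtain ⟨b, hb⟩ := Ideal.mem_span_singleton'.mp hu'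
      exact ⟨u, hu, b, hb.symm⟩
    refine ⟨(1 : A) ⊗ₜ[k] u, ?_, ?_⟩
    · rw [hPm, graphMap_id_one_tmul]; exact hum
    · -- `(1 ⊗ u) δ a' = (1 ⊗ b) δ π + (π ⊗ 1) δ b - (a' ⊗ 1) δ u`
      have key : ((1 : A) ⊗ₜ[k] u) * diag (k := k) a' =
          ((1 : A) ⊗ₜ[k] b) * diag π + ((π ⊗ₜ[k] (1 : A)) * diag b -
            (a' ⊗ₜ[k] (1 : A)) * diag u) := by
        have h1 := diag_mul (k := k) u a'
        have h2 := diag_mul (k := k) b π
        rw [hb] at h1
        rw [h1] at h2
        linear_combination h2
      rw [hda, key]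
      refine Ideal.add_mem _ (Ideal.mem_sup_left (Ideal.mul_mem_left _ _
        (Ideal.mem_span_singleton_self _))) (Ideal.mem_sup_right ?_)
      refine Ideal.sub_mem _ (Ideal.mul_mem_mul ?_ (diag_mem b)) (Ideal.mul_mem_mul ?_ (diag_mem u))
      · rw [hPm, graphMap_id_tmul_one]; exact hπm
      · rw [hPm, graphMap_id_tmul_one]; exact hc
  · -- `I ⊄ P`: the localisation of `I` is the unit ideal
    refine ⟨1, ?_⟩
    rw [Ideal.span_singleton_one]
    obtain ⟨x, hxI, hxP⟩ := SetLike.not_le_iff_exists.mp hIP
    rw [Ideal.eq_top_iff_one]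
    have hunit : IsUnit (algebraMap R (Localization.AtPrime P) x) :=
      IsLocalization.map_units _ (⟨x, hxP⟩ : P.primeCompl)
    obtain ⟨v, hv⟩ := hunit.exists_left_inv
    rw [← hv]
    exact Ideal.mul_mem_left _ v (Ideal.mem_map_of_mem _ hxI)

end Main

section Dedekind

variable (k : Type*) [Field k] (A : Type*) [CommRing A] [Algebra k A]

/-- If `1 ⊗ a = a ⊗ 1` in `A ⊗[k] A` (over a field `k`, `A` nontrivial) then `a` is a constant. -/
theorem mem_range_algebraMap_of_tmul_eq [Nontrivial A] {a : A}
    (h : (1 : A) ⊗ₜ[k] a = a ⊗ₜ[k] (1 : A)) : a ∈ Set.range (algebraMap k A) := by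
  obtain ⟨g, hg⟩ := LinearMap.exists_leftInverse_of_injective (Algebra.linearMap k A)
    (LinearMap.ker_eq_bot.mpr (algebraMap k A).injective)
  have hg1 : g 1 = 1 := by
    have := LinearMap.congr_fun hg (1 : k)
    simpa using this
  have h2 := congrArg (fun z => TensorProduct.lid k A (LinearMap.rTensor A g z)) h
  simp only [LinearMap.rTensor_tmul, TensorProduct.lid_tmul, hg1, one_smul] at h2
  exact ⟨g a, by rw [Algebra.algebraMap_eq_smul_one]; exact h2.symm⟩

/-- In a Dedekind domain every maximal ideal is locally principal, in elementary form. -/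
theorem exists_local_generator_of_isDedekindDomain [IsDedekindDomain A] (m : Ideal A)
    [hm : m.IsMaximal] : ∃ π ∈ m, ∀ a ∈ m, ∃ u, u ∉ m ∧ u * a ∈ Ideal.span {π} := by
  by_cases hm0 : m = ⊥
  · refine ⟨0, m.zero_mem, fun a ha => ⟨1, ?_, ?_⟩⟩
    · exact fun h1 => hm.ne_top ((Ideal.eq_top_iff_one m).mpr h1)
    · rw [hm0, Ideal.mem_bot] at ha
      rw [ha, mul_zero]; exact Ideal.zero_mem _
  · have hlt : m ^ 2 < m := by
      have := Ideal.pow_succ_lt_pow hm0 1
      simpa using this
    obtain ⟨π, hπm, hπ2⟩ := SetLike.exists_of_lt hlt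
    refine ⟨π, hπm, ?_⟩
    have hdvd : m ∣ Ideal.span {π} := by
      rw [Ideal.dvd_iff_le, Ideal.span_singleton_le_iff_mem]; exact hπm
    obtain ⟨J, hJ⟩ := hdvd
    have hJm : ¬ J ≤ m := by
      intro hle
      obtain ⟨J', rfl⟩ := Ideal.dvd_iff_le.mpr hle
      apply hπ2
      have : Ideal.span {π} ≤ m ^ 2 := by
        rw [hJ, ← mul_assoc, ← pow_two]
        exact Ideal.mul_le_left
      exact this (Ideal.mem_span_singleton_self π)
    obtain ⟨u, huJ, hum⟩ := SetLike.not_le_iff_exists.mp hJm
    intro a ha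
    refine ⟨u, hum, ?_⟩
    rw [hJ, mul_comm u a]
    exact Ideal.mul_mem_mul ha huJ

/-- **The ideal of the diagonal of a Dedekind curve chart over an algebraically closed field is
invertible.** -/
theorem invertible_diagonalIdeal_of_isDedekindDomain [IsAlgClosed k] [IsDedekindDomain A]
    [Algebra.FiniteType k A] (hne : ¬ Function.Surjective (algebraMap k A)) :
    Module.Invertible (A ⊗[k] A) (graphIdeal (AlgHom.id k A)) := by
  have : IsDomain (A ⊗[k] A) := Fermat.Agent.JAC.Alg.TensorDomain69.isDomain_tensorProduct k A A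
  refine invertible_diagonalIdeal k A (fun m hm a => ?_) (fun m hm => ?_) ?_
  · have := hm
    have hbij : Function.Bijective (algebraMap k (A ⧸ m)) := by
      let _ : Field (A ⧸ m) := Ideal.Quotient.field m
      have : Module.Finite k (A ⧸ m) := finite_of_finite_type_of_isJacobsonRing k (A ⧸ m)
      exact IsAlgClosed.algebraMap_bijective_of_isIntegral
    obtain ⟨c, hc⟩ := hbij.2 (Ideal.Quotient.mk m a)
    refine ⟨c, ?_⟩
    rw [← Ideal.Quotient.eq, ← hc]
    rfl
  · have := hm
    exact exists_local_generator_of_isDedekindDomain A m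
  · by_contra hcon
    push Not at hcon
    exact hne fun a => mem_range_algebraMap_of_tmul_eq k A (hcon a)

end Dedekind

end Fermat.Agent.JAC.Abel.DiagonalInvertible57
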