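/-
Programme JAC (S25), Abel chapter (input (iv) of B6), brick (Ab2c).  Owner: helper57.

**The graph ideal of every `B`-point of a curve chart is an invertible module.**

For a `k`-algebra `A`, a `k`-algebra `B` and `φ : A →ₐ[k] B`, the graph ideal
`graphIdeal φ ⊂ B ⊗[k] A` is the base change of the ideal of the diagonal
`graphIdeal (AlgHom.id k A) ⊂ A ⊗[k] A` along `φ ⊗ id`: the multiplication map
`(B ⊗ A) ⊗[A ⊗ A] I_Δ → B ⊗ A` is injective, because `I_Δ` is a direct summand of `A ⊗ A` as a
module over the left factor.  Hence `graphIdeal φ` is invertible as soon as `I_Δ` is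
(`DiagonalInvertible57`).
-/
import Mathlib
import Fermat.Agent.JAC.Cover.GraphIdeal98
import Fermat.Agent.JAC.Abel.DiagonalInvertible57
import Fermat.Agent.JAC.Abel.IdealBC57

set_option autoImplicit false

open TensorProduct

namespace Fermat.Agent.JAC.Abel.GraphInvertible57

open Fermat.Agent.JAC.Cover.GraphIdeal98 Fermat.Agent.JAC.Abel.IdealBC57

variable {k : Type*} [CommRing k] {A : Type*} [CommRing A] [Algebra k A]
  {B : Type*} [CommRing B] [Algebra k B] (φ : A →ₐ[k] B)

/-- The ring map `φ ⊗ id : A ⊗[k] A → B ⊗[k] A`. -/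
noncomputable def tmap : A ⊗[k] A →ₐ[k] B ⊗[k] A :=
  Algebra.TensorProduct.map φ (AlgHom.id k A)

@[simp] theorem tmap_tmul (a a' : A) : tmap φ (a ⊗ₜ[k] a') = φ a ⊗ₜ[k] a' := rfl

variable (k A) in
/-- The ideal of the diagonal. -/
noncomputable abbrev diagIdeal : Ideal (A ⊗[k] A) := graphIdeal (AlgHom.id k A)

/-- The retraction of `A ⊗ A` onto the ideal of the diagonal, linear over the left factor. -/
noncomputable def retr : A ⊗[k] A →ₗ[A] diagIdeal k A where
  toFun r := ⟨r - graphMap (AlgHom.id k A) r ⊗ₜ[k] (1 : A), sub_section_mem_graphIdeal _ r⟩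
  map_add' x y := by
    apply Subtype.ext
    simp only [map_add, TensorProduct.add_tmul, Submodule.coe_add]
    ring
  map_smul' a x := by
    apply Subtype.ext
    simp only [map_smul, RingHom.id_apply]
    rw [Submodule.coe_smul_of_tower, smul_sub, TensorProduct.smul_tmul']

theorem retr_apply_coe (r : A ⊗[k] A) :
    ((retr r : diagIdeal k A) : A ⊗[k] A) = r - graphMap (AlgHom.id k A) r ⊗ₜ[k] (1 : A) := rfl

theorem retr_subtype (z : diagIdeal k A) : retr (z : A ⊗[k] A) = z := by
  apply Subtype.ext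
  rw [retr_apply_coe, mem_graphIdeal.mp z.2, TensorProduct.zero_tmul, sub_zero]

section Main

/-- **The multiplication map `(B ⊗ A) ⊗[A ⊗ A] I_Δ → (B ⊗ A)` is injective.** -/
theorem mulMap_diag_injective :
    letI : Algebra (A ⊗[k] A) (B ⊗[k] A) := (tmap φ).toRingHom.toAlgebra
    Function.Injective (mulMap (R' := B ⊗[k] A) (diagIdeal k A)) := by
  let algRS : Algebra (A ⊗[k] A) (B ⊗[k] A) := (tmap φ).toRingHom.toAlgebra
  let algAB : Algebra A B := φ.toRingHom.toAlgebra
  have : IsScalarTower k A B := IsScalarTower.of_algebraMap_eq fun r => (φ.commutes r).symm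
  have halg : ∀ r : A ⊗[k] A, algebraMap (A ⊗[k] A) (B ⊗[k] A) r = tmap φ r := fun _ => rfl
  have hsmulAB : ∀ (a : A) (b : B), a • b = φ a * b := fun _ _ => rfl
  -- the additive map `Θ : B ⊗[A] I_Δ → (B ⊗ A) ⊗[A ⊗ A] I_Δ`, `b ⊗ z ↦ (b ⊗ 1) ⊗ z`
  let F : B →+ diagIdeal k A →+ (B ⊗[k] A) ⊗[A ⊗[k] A] diagIdeal k A :=
    { toFun := fun b =>
        { toFun := fun z => (b ⊗ₜ[k] (1 : A)) ⊗ₜ[A ⊗[k] A] z
          map_zero' := by simp
          map_add' := fun z z' => by simp [TensorProduct.tmul_add] }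
      map_zero' := by ext z; simp
      map_add' := fun b b' => by ext z; simp [TensorProduct.add_tmul] }
  have hF : ∀ (a : A) (b : B) (z : diagIdeal k A), F (a • b) z = F b (a • z) := by
    intro a b z
    change ((a • b) ⊗ₜ[k] (1 : A)) ⊗ₜ[A ⊗[k] A] z = (b ⊗ₜ[k] (1 : A)) ⊗ₜ[A ⊗[k] A] (a • z)
    have h1 : (a • b) ⊗ₜ[k] (1 : A) = (a ⊗ₜ[k] (1 : A) : A ⊗[k] A) • (b ⊗ₜ[k] (1 : A) : B ⊗[k] A) := by
      rw [Algebra.smul_def (a ⊗ₜ[k] (1 : A) : A ⊗[k] A) (b ⊗ₜ[k] (1 : A) : B ⊗[k] A), halg,
        tmap_tmul, Algebra.TensorProduct.tmul_mul_tmul, hsmulAB, mul_one]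
    have h2 : a • z = (a ⊗ₜ[k] (1 : A) : A ⊗[k] A) • z := by
      apply Subtype.ext
      simp [Algebra.smul_def]
    rw [h1, h2, TensorProduct.smul_tmul]
  let Θ : B ⊗[A] diagIdeal k A →+ (B ⊗[k] A) ⊗[A ⊗[k] A] diagIdeal k A :=
    TensorProduct.liftAddHom F hF
  have hΘ : ∀ (b : B) (z : diagIdeal k A), Θ (b ⊗ₜ z) = (b ⊗ₜ[k] (1 : A)) ⊗ₜ[A ⊗[k] A] z :=
    fun b z => TensorProduct.liftAddHom_tmul F hF b z
  -- `Θ` is surjective
  have hΘsurj : Function.Surjective Θ := by
    intro w
    induction w using TensorProduct.induction_on with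
    | zero => exact ⟨0, map_zero _⟩
    | tmul x z =>
      induction x using TensorProduct.induction_on with
      | zero => exact ⟨0, by simp⟩
      | tmul b a =>
        refine ⟨b ⊗ₜ (((1 : A) ⊗ₜ[k] a : A ⊗[k] A) • z), ?_⟩
        rw [hΘ, ← TensorProduct.smul_tmul, Algebra.smul_def, halg, tmap_tmul,
          Algebra.TensorProduct.tmul_mul_tmul, map_one, one_mul, mul_one]
      | add x y hx hy =>
        obtain ⟨v, hv⟩ := hx
        obtain ⟨v', hv'⟩ := hy
        exact ⟨v + v', by rw [map_add, hv, hv', TensorProduct.add_tmul]⟩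
    | add w w' hw hw' =>
      obtain ⟨v, hv⟩ := hw
      obtain ⟨v', hv'⟩ := hw'
      exact ⟨v + v', by rw [map_add, hv, hv']⟩
  -- the inclusion `I_Δ → A ⊗ A` stays injective after `B ⊗[A] -`
  let ι : diagIdeal k A →ₗ[A] A ⊗[k] A := (diagIdeal k A).subtype.restrictScalars A
  have hretr : (retr (k := k) (A := A)).comp ι = LinearMap.id := by
    ext z
    exact congrArg Subtype.val (retr_subtype z)
  have hιinj : Function.Injective (LinearMap.lTensor B ι) := by
    have : (LinearMap.lTensor B (retr (k := k) (A := A))).comp (LinearMap.lTensor B ι) =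
        LinearMap.id := by
      rw [← LinearMap.lTensor_comp, hretr, LinearMap.lTensor_id]
    exact Function.LeftInverse.injective (g := LinearMap.lTensor B (retr (k := k) (A := A)))
      fun v => by
        have := LinearMap.congr_fun this v
        simpa using this
  -- the isomorphism `σ : B ⊗[A] (A ⊗ A) ≃ B ⊗ A`
  let σ := TensorProduct.AlgebraTensorModule.cancelBaseChange k A B B A
  -- the key identity
  have hkey : ∀ v : B ⊗[A] diagIdeal k A,
      ((mulMap (R' := B ⊗[k] A) (diagIdeal k A) (Θ v) :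
        (diagIdeal k A).map (algebraMap (A ⊗[k] A) (B ⊗[k] A))) : B ⊗[k] A) =
        σ (LinearMap.lTensor B ι v) := by
    intro v
    induction v using TensorProduct.induction_on with
    | zero => simp
    | tmul b z =>
      rw [hΘ, mulMap_tmul, LinearMap.lTensor_tmul, halg]
      change b ⊗ₜ[k] (1 : A) * tmap φ (z : A ⊗[k] A) = σ (b ⊗ₜ[A] (z : A ⊗[k] A))
      generalize (z : A ⊗[k] A) = r
      induction r using TensorProduct.induction_on with
      | zero => simp
      | tmul a a' =>
        rw [tmap_tmul, Algebra.TensorProduct.tmul_mul_tmul, one_mul,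
          TensorProduct.AlgebraTensorModule.cancelBaseChange_tmul, hsmulAB, mul_comm]
      | add x y hx hy => rw [map_add, mul_add, hx, hy, TensorProduct.tmul_add, map_add]
    | add v v' hv hv' =>
      rw [map_add, map_add, Submodule.coe_add, hv, hv', map_add, map_add]
  -- conclusion
  intro w w' hww'
  obtain ⟨v, rfl⟩ := hΘsurj w
  obtain ⟨v', rfl⟩ := hΘsurj w'
  have h1 := congrArg Subtype.val hww'
  rw [hkey, hkey] at h1
  rw [hιinj (σ.injective h1)]

end Main

/-- **The graph ideal of a `B`-point is invertible** as soon as the ideal of the diagonal is. -/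
theorem invertible_graphIdeal [Module.Invertible (A ⊗[k] A) (diagIdeal k A)] :
    Module.Invertible (B ⊗[k] A) (graphIdeal φ) := by
  let algRS : Algebra (A ⊗[k] A) (B ⊗[k] A) := (tmap φ).toRingHom.toAlgebra
  have hmap : (diagIdeal k A).map (algebraMap (A ⊗[k] A) (B ⊗[k] A)) = graphIdeal φ := by
    have := map_graphIdeal (AlgHom.id k A) φ
    rw [AlgHom.comp_id] at this
    exact this
  have hbij : Function.Bijective (mulMap (R' := B ⊗[k] A) (diagIdeal k A)) :=
    ⟨mulMap_diag_injective φ, mulMap_surjective _⟩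
  have e1 : (B ⊗[k] A) ⊗[A ⊗[k] A] diagIdeal k A ≃ₗ[B ⊗[k] A]
      (diagIdeal k A).map (algebraMap (A ⊗[k] A) (B ⊗[k] A)) :=
    LinearEquiv.ofBijective _ hbij
  exact Module.Invertible.congr (e1.trans (LinearEquiv.ofEq _ _ hmap))

/-- **The graph ideal of every `B`-point of a Dedekind curve chart over an algebraically closed
field is an invertible module.** -/
theorem invertible_graphIdeal_of_isDedekindDomain {k : Type*} [Field k] [IsAlgClosed k]
    {A : Type*} [CommRing A] [Algebra k A] [IsDedekindDomain A] [Algebra.FiniteType k A]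
    (hne : ¬ Function.Surjective (algebraMap k A))
    {B : Type*} [CommRing B] [Algebra k B] (φ : A →ₐ[k] B) :
    Module.Invertible (B ⊗[k] A) (graphIdeal φ) := by
  have := DiagonalInvertible57.invertible_diagonalIdeal_of_isDedekindDomain k A hne
  exact invertible_graphIdeal φ

end Fermat.Agent.JAC.Abel.GraphInvertible57
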