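/-
Programme JAC (S25), Abel chapter (input (iv) of B6), brick (Ab4), place language.  Owner: helper57.

**Jacobi inversion** for a complete curve covered by two Dedekind charts (`Core38.TwoChart`), all of
whose places have degree one (algebraically closed constant field): if `χ(O) = 1 - g`, every divisor
of degree `0` is linearly equivalent to `x₁ + ⋯ + x_g - g • P₀` for suitable places `x_i`.
Equivalently every divisor of degree `g` is linearly equivalent to an effective divisor
`x₁ + ⋯ + x_g`.  Only Riemann's inequality `h⁰(D) ≥ deg D + χ(O)` is used.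
-/
import Mathlib
import Fermat.Prelude.Def_AlgebraicCurve_Repartitions
import Fermat.Agent.JAC.Fibre.Core38

set_option autoImplicit false

open AlgebraicCurve

namespace Fermat.Agent.JAC.Abel.JacobiInv57

open Fermat.Agent.JAC.Fibre.Core38

universe u v

variable {K : Type u} {F : Type v} [Field K] [Field F] [Algebra K F]

/-- The degree of a divisor all of whose points have degree one is the sum of its coefficients. -/
theorem degree_eq_sum (hdeg : ∀ v : Place K F, v.deg = 1) (E : Divisor K F) :
    Divisor.degree E = E.sum fun _ n => n := by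
  have : Divisor.degree E = E.sum fun v n => n * (v.deg : ℤ) := by
    simp [Divisor.degree, Finsupp.liftAddHom_apply]
  rw [this]
  refine Finsupp.sum_congr fun v _ => ?_
  rw [hdeg v]; simp

/-- An effective divisor of degree `0` (all points of degree one) is zero. -/
theorem eq_zero_of_effective_of_degree_eq_zero (hdeg : ∀ v : Place K F, v.deg = 1)
    {E : Divisor K F} (hE : 0 ≤ E) (h0 : Divisor.degree E = 0) : E = 0 := by
  classical
  rw [degree_eq_sum hdeg, Finsupp.sum] at h0
  have hnn : ∀ v ∈ E.support, 0 ≤ E v := fun v _ => hE v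
  have := (Finset.sum_eq_zero_iff_of_nonneg hnn).mp h0
  ext v
  by_cases hv : v ∈ E.support
  · simpa using this v hv
  · simpa using Finsupp.notMem_support_iff.mp hv

/-- An effective divisor of positive degree has a point in its support. -/
theorem exists_pos_of_effective
    {E : Divisor K F} (hE : 0 ≤ E) (hpos : 0 < Divisor.degree E) : ∃ v, 0 < E v := by
  by_contra hcon
  push Not at hcon
  have hz : E = 0 := by
    ext v
    exact le_antisymm (hcon v) (hE v)
  rw [hz, map_zero] at hpos
  exact lt_irrefl _ hpos

/-- **Effective divisors are sums of points**: if all places have degree one, an effective divisor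
of degree `n` is a sum of `n` points. -/
theorem exists_points_of_effective (hdeg : ∀ v : Place K F, v.deg = 1) (n : ℕ) :
    ∀ {E : Divisor K F}, 0 ≤ E → Divisor.degree E = n →
      ∃ x : Fin n → Place K F, E = ∑ i, Finsupp.single (x i) 1 := by
  induction n with
  | zero =>
    intro E hE hn
    refine ⟨Fin.elim0, ?_⟩
    simp only [Finset.univ_eq_empty, Finset.sum_empty]
    exact eq_zero_of_effective_of_degree_eq_zero hdeg hE (by simpa using hn)
  | succ n ih =>
    intro E hE hn
    obtain ⟨v, hv⟩ := exists_pos_of_effective hE (by rw [hn]; positivity)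
    have hE' : 0 ≤ E - Finsupp.single v 1 := by
      intro w
      by_cases hw : w = v
      · subst hw
        simp only [Finsupp.coe_zero, Pi.zero_apply, Finsupp.coe_sub, Pi.sub_apply,
          Finsupp.single_eq_same]
        omega
      · have := hE w
        simpa [Finsupp.single_apply, Ne.symm hw] using this
    have hn' : Divisor.degree (E - Finsupp.single v 1) = n := by
      rw [map_sub, hn, Divisor.degree_single, hdeg v]
      push_cast; ring
    obtain ⟨x, hx⟩ := ih hE' hn'
    refine ⟨Fin.cons v x, ?_⟩
    rw [Fin.sum_univ_succ]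
    simp only [Fin.cons_zero, Fin.cons_succ]
    rw [← hx]
    abel

variable {U₀ U₁ : Set (Place K F)}

/-- A divisor with `h⁰ > 0` is linearly equivalent to an effective divisor. -/
theorem exists_effective_of_h0n_pos (T : TwoChart U₀ U₁) {D : Divisor K F}
    (hpos : 0 < h0n U₀ U₁ D) : ∃ (f : F) (hf : f ≠ 0), 0 ≤ D + T.div f hf := by
  rw [T.h0n_eq_finrank_riemannRochSpace] at hpos
  have := T.finite_riemannRochSpace D
  obtain ⟨⟨f, hfD⟩, hf⟩ := Module.finrank_pos_iff_exists_ne_zero.mp hpos
  have hf0 : f ≠ 0 := fun h => hf (Subtype.ext h)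
  refine ⟨f, hf0, ?_⟩
  intro v
  have := (mem_riemannRochSpace_iff.mp hfD v).resolve_left hf0
  simp only [Finsupp.coe_zero, Pi.zero_apply, Finsupp.add_apply, TwoChart.div_apply]
  omega

/-- **Jacobi inversion, effective form**: if `χ(O) = 1 - g` and all places have degree one, every
divisor of degree `g` is linearly equivalent to a sum of `g` points. -/
theorem exists_points_of_degree_eq (T : TwoChart U₀ U₁) (hdeg : ∀ v : Place K F, v.deg = 1)
    (g : ℕ) (hchi : chi U₀ U₁ 0 = 1 - g) {D : Divisor K F} (hD : Divisor.degree D = g) :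
    ∃ (x : Fin g → Place K F) (f : F) (hf : f ≠ 0),
      D + T.div f hf = ∑ i, Finsupp.single (x i) 1 := by
  have h1 := T.riemann_inequality D
  rw [hchi, hD] at h1
  have hpos : 0 < h0n U₀ U₁ D := by
    have : (0 : ℤ) < h0n U₀ U₁ D := by linarith
    exact_mod_cast this
  obtain ⟨f, hf, hE⟩ := exists_effective_of_h0n_pos T hpos
  have hdegE : Divisor.degree (D + T.div f hf) = g := by
    rw [map_add, T.degree_div, add_zero, hD]
  obtain ⟨x, hx⟩ := exists_points_of_effective hdeg g hE hdegE
  exact ⟨x, f, hf, hx⟩

/-- **Jacobi inversion**: if `χ(O) = 1 - g` and all places have degree one, every divisor of degree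
`0` is linearly equivalent to `x₁ + ⋯ + x_g - g • P₀`. -/
theorem exists_points_of_degree_eq_zero (T : TwoChart U₀ U₁) (hdeg : ∀ v : Place K F, v.deg = 1)
    (g : ℕ) (hchi : chi U₀ U₁ 0 = 1 - g) (P₀ : Place K F) {D : Divisor K F}
    (hD : Divisor.degree D = 0) :
    ∃ (x : Fin g → Place K F) (f : F) (hf : f ≠ 0),
      D + T.div f hf = ∑ i, Finsupp.single (x i) 1 - g • Finsupp.single P₀ 1 := by
  have hD' : Divisor.degree (D + g • Finsupp.single P₀ 1) = g := by
    rw [map_add, hD, map_nsmul, Divisor.degree_single, hdeg P₀]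
    simp
  obtain ⟨x, f, hf, h⟩ := exists_points_of_degree_eq T hdeg g hchi hD'
  refine ⟨x, f, hf, ?_⟩
  rw [← h]
  abel

/-- **Jacobi inversion, class form** (sign convention of the Abel map `y ↦ O(P₀ - y)`): every
divisor of degree `0` is linearly equivalent to `g • P₀ - (x₁ + ⋯ + x_g)`. -/
theorem exists_points_of_degree_eq_zero' (T : TwoChart U₀ U₁) (hdeg : ∀ v : Place K F, v.deg = 1)
    (g : ℕ) (hchi : chi U₀ U₁ 0 = 1 - g) (P₀ : Place K F) {D : Divisor K F}
    (hD : Divisor.degree D = 0) :
    ∃ (x : Fin g → Place K F) (f : F) (hf : f ≠ 0),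
      D - T.div f hf = ∑ i, (Finsupp.single P₀ 1 - Finsupp.single (x i) 1) := by
  have hD' : Divisor.degree (-D) = 0 := by rw [map_neg, hD, neg_zero]
  obtain ⟨x, f, hf, h⟩ := exists_points_of_degree_eq_zero T hdeg g hchi P₀ hD'
  refine ⟨x, f, hf, ?_⟩
  have : D - T.div f hf = -(-D + T.div f hf) := by abel
  rw [this, h, Finset.sum_sub_distrib]
  simp only [Finset.sum_const, Finset.card_univ, Fintype.card_fin]
  abel

/-- In terms of the Prelude's `Divisor.principal`: the difference is principal. -/
theorem exists_points_sub_mem_principal (T : TwoChart U₀ U₁)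
    (hdeg : ∀ v : Place K F, v.deg = 1) (g : ℕ) (hchi : chi U₀ U₁ 0 = 1 - g) (P₀ : Place K F)
    {D : Divisor K F} (hD : Divisor.degree D = 0) :
    ∃ x : Fin g → Place K F,
      D - ∑ i, (Finsupp.single P₀ 1 - Finsupp.single (x i) 1) ∈
        Divisor.principal (K := K) (F := F) := by
  obtain ⟨x, f, hf, h⟩ := exists_points_of_degree_eq_zero' T hdeg g hchi P₀ hD
  refine ⟨x, ?_⟩
  rw [← h, Divisor.mem_principal]
  refine ⟨f, hf, fun v => ?_⟩
  simp

end Fermat.Agent.JAC.Abel.JacobiInv57
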