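/-
Programme JAC (S25), Abel chapter (input (iv) of B6), brick (Ab2d).  Owner: helper57.

Point diagrams: the line diagram `O(-Γ_φ)` over the constant family `B ⊗[k] A_i` attached to a
`B`-point `φ` of one of the two charts of the curve, its base change, and the agreement of the two
constructions for points of the overlap.
-/
import Mathlib
import Fermat.Agent.JAC.Core.AlgAtlas36
import Fermat.Agent.JAC.Cover.GraphIdeal98
import Fermat.Agent.JAC.Div.DivisorDiagram56
import Fermat.Agent.JAC.Hilb.SectionDiv46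
import Fermat.Agent.JAC.Abel.IdealBC57

set_option autoImplicit false
set_option linter.style.haveILetI false

open TensorProduct

universe u

namespace Fermat.Agent.JAC.Abel.PointDiag57

open scoped Fermat.Agent.JAC.Core.ConstFamily36
open Fermat.Agent.JAC.Core.Defs36 Fermat.Agent.JAC.Core.ConstFamily36
  Fermat.Agent.JAC.Core.AlgAtlas36 Fermat.Agent.JAC.Grp.Diag33 Fermat.Agent.JAC.Grp.BaseChange33
  Fermat.Agent.JAC.Cover.GraphIdeal98 Fermat.Agent.JAC.Div.DivisorDiagram56
  Fermat.Agent.JAC.Hilb.SectionDiv46 Fermat.Agent.JAC.Abel.IdealBC57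

variable {k : Type u} [Field k] {A0 A1 A01 : Type u} [CommRing A0] [CommRing A1] [CommRing A01]
  [Algebra k A0] [Algebra k A1] [Algebra k A01] [Algebra A0 A01] [Algebra A1 A01]
  [IsScalarTower k A0 A01] [IsScalarTower k A1 A01] {t : A0} {s : A1}
  [IsLocalization.Away t A01] [IsLocalization.Away s A01]

section Family

variable (B : Type u) [CommRing B] [Algebra k B]

omit [IsLocalization.Away t A01] [IsLocalization.Away s A01] in
/-- The relation `t * s = 1` over the constant family. -/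
theorem hts_tensor (hts : algebraMap A0 A01 t * algebraMap A1 A01 s = 1) :
    algebraMap (B ⊗[k] A0) (B ⊗[k] A01) ((1 : B) ⊗ₜ[k] t) *
      algebraMap (B ⊗[k] A1) (B ⊗[k] A01) ((1 : B) ⊗ₜ[k] s) = 1 := by
  rw [algebraMap_tensor_tmul, algebraMap_tensor_tmul, Algebra.TensorProduct.tmul_mul_tmul, hts,
    mul_one]
  rfl

end Family

section Ideals

variable {B : Type u} [CommRing B] [Algebra k B]

/-- Ideal diagrams with equal ideals have the same class. -/
theorem cls_idealDiag_congr {Z0 Z0' : Ideal (B ⊗[k] A0)} {Z1 Z1' : Ideal (B ⊗[k] A1)}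
    (h0 : Z0 = Z0') (h1 : Z1 = Z1')
    (h : Z0.map (algebraMap (B ⊗[k] A0) (B ⊗[k] A01)) =
      Z1.map (algebraMap (B ⊗[k] A1) (B ⊗[k] A01)))
    (h' : Z0'.map (algebraMap (B ⊗[k] A0) (B ⊗[k] A01)) =
      Z1'.map (algebraMap (B ⊗[k] A1) (B ⊗[k] A01)))
    [Module.Invertible (B ⊗[k] A0) Z0] [Module.Invertible (B ⊗[k] A1) Z1]
    [Module.Invertible (B ⊗[k] A0) Z0'] [Module.Invertible (B ⊗[k] A1) Z1'] :
    cls (idealDiag ((1 : B) ⊗ₜ[k] t) ((1 : B) ⊗ₜ[k] s) Z0 Z1 h) =
      cls (idealDiag ((1 : B) ⊗ₜ[k] t) ((1 : B) ⊗ₜ[k] s) Z0' Z1' h') := by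
  subst h0
  subst h1
  rfl

end Ideals

section BaseChange

variable {B B' : Type u} [CommRing B] [CommRing B'] [Algebra k B] [Algebra k B']
  (ψ : B →ₐ[k] B')

omit [IsLocalization.Away t A01] [IsLocalization.Away s A01] in
/-- Compatibility of the extended ideals after base change along `ψ`. -/
theorem map_bcMap_eq (Z0 : Ideal (B ⊗[k] A0)) (Z1 : Ideal (B ⊗[k] A1))
    (h : Z0.map (algebraMap (B ⊗[k] A0) (B ⊗[k] A01)) =
      Z1.map (algebraMap (B ⊗[k] A1) (B ⊗[k] A01))) :
    (Z0.map (bcMap ψ A0 A0)).map (algebraMap (B' ⊗[k] A0) (B' ⊗[k] A01)) =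
      (Z1.map (bcMap ψ A1 A1)).map (algebraMap (B' ⊗[k] A1) (B' ⊗[k] A01)) := by
  have e0 : (algebraMap (B' ⊗[k] A0) (B' ⊗[k] A01)).comp (bcMap ψ A0 A0) =
      (bcMap ψ A01 A01).comp (algebraMap (B ⊗[k] A0) (B ⊗[k] A01)) := by
    refine RingHom.ext fun x => ?_
    induction x using TensorProduct.induction_on with
    | zero => simp
    | tmul b a => rfl
    | add x y hx hy => simp only [map_add, hx, hy]
  have e1 : (algebraMap (B' ⊗[k] A1) (B' ⊗[k] A01)).comp (bcMap ψ A1 A1) =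
      (bcMap ψ A01 A01).comp (algebraMap (B ⊗[k] A1) (B ⊗[k] A01)) := by
    refine RingHom.ext fun x => ?_
    induction x using TensorProduct.induction_on with
    | zero => simp
    | tmul b a => rfl
    | add x y hx hy => simp only [map_add, hx, hy]
  rw [Ideal.map_map, Ideal.map_map, e0, e1, ← Ideal.map_map, ← Ideal.map_map, h]

/-- **Base change of ideal diagrams over the constant family.** -/
theorem bc_cls_idealDiag (Z0 : Ideal (B ⊗[k] A0)) (Z1 : Ideal (B ⊗[k] A1))
    (h : Z0.map (algebraMap (B ⊗[k] A0) (B ⊗[k] A01)) =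
      Z1.map (algebraMap (B ⊗[k] A1) (B ⊗[k] A01)))
    [Module.Invertible (B ⊗[k] A0) Z0] [Module.Invertible (B ⊗[k] A1) Z1]
    [Module.Invertible (B' ⊗[k] A0) (Z0.map (bcMap ψ A0 A0))]
    [Module.Invertible (B' ⊗[k] A1) (Z1.map (bcMap ψ A1 A1))] :
    bc ψ (cls (idealDiag ((1 : B) ⊗ₜ[k] t) ((1 : B) ⊗ₜ[k] s) Z0 Z1 h)) =
      cls (idealDiag ((1 : B') ⊗ₜ[k] t) ((1 : B') ⊗ₜ[k] s) (Z0.map (bcMap ψ A0 A0))
        (Z1.map (bcMap ψ A1 A1)) (map_bcMap_eq ψ Z0 Z1 h)) := by
  letI : Algebra (B ⊗[k] A0) (B' ⊗[k] A0) := (bcMap ψ A0 A0).toAlgebra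
  letI : Algebra (B ⊗[k] A1) (B' ⊗[k] A1) := (bcMap ψ A1 A1).toAlgebra
  letI : Algebra (B ⊗[k] A01) (B' ⊗[k] A01) := (bcMap ψ A01 A01).toAlgebra
  letI : Algebra (B ⊗[k] A0) (B' ⊗[k] A01) := (bcMap ψ A0 A01).toAlgebra
  letI : Algebra (B ⊗[k] A1) (B' ⊗[k] A01) := (bcMap ψ A1 A01).toAlgebra
  haveI : IsScalarTower (B ⊗[k] A0) (B ⊗[k] A01) (B' ⊗[k] A01) :=
    IsScalarTower.of_algebraMap_eq (fun x => by
      induction x using TensorProduct.induction_on with
      | zero => simp
      | tmul b a => rfl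
      | add x y hx hy => simp only [map_add, hx, hy])
  haveI : IsScalarTower (B ⊗[k] A0) (B' ⊗[k] A0) (B' ⊗[k] A01) :=
    IsScalarTower.of_algebraMap_eq (fun x => by
      induction x using TensorProduct.induction_on with
      | zero => simp
      | tmul b a => rfl
      | add x y hx hy => simp only [map_add, hx, hy])
  haveI : IsScalarTower (B ⊗[k] A1) (B ⊗[k] A01) (B' ⊗[k] A01) :=
    IsScalarTower.of_algebraMap_eq (fun x => by
      induction x using TensorProduct.induction_on with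
      | zero => simp
      | tmul b a => rfl
      | add x y hx hy => simp only [map_add, hx, hy])
  haveI : IsScalarTower (B ⊗[k] A1) (B' ⊗[k] A1) (B' ⊗[k] A01) :=
    IsScalarTower.of_algebraMap_eq (fun x => by
      induction x using TensorProduct.induction_on with
      | zero => simp
      | tmul b a => rfl
      | add x y hx hy => simp only [map_add, hx, hy])
  exact baseChangeHom_cls_idealDiag (B' ⊗[k] A01) ((1 : B') ⊗ₜ[k] t) ((1 : B') ⊗ₜ[k] s) Z0 Z1 h

end BaseChange

section Helpers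

/-- `Ideal.map` only depends on the underlying function. -/
theorem ideal_map_congr {R S F G : Type*} [CommRing R] [CommRing S] [FunLike F R S]
    [RingHomClass F R S] [FunLike G R S] [RingHomClass G R S] (f : F) (g : G)
    (h : ∀ x, f x = g x) (I : Ideal R) : I.map f = I.map g := by
  have : (f : R → S) = g := funext h
  unfold Ideal.map
  rw [this]

/-- `Ideal.comap` only depends on the underlying function. -/
theorem ideal_comap_congr {R S F G : Type*} [CommRing R] [CommRing S] [FunLike F R S]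
    [RingHomClass F R S] [FunLike G R S] [RingHomClass G R S] (f : F) (g : G)
    (h : ∀ x, f x = g x) (I : Ideal S) : I.comap f = I.comap g := by
  ext x
  rw [Ideal.mem_comap, Ideal.mem_comap, h]

/-- A localisation away from `t` is generated by the image and the inverse of `t`. -/
theorem adjoin_range_union_eq_top {A A' : Type*} [CommRing A] [CommRing A'] [Algebra k A]
    [Algebra k A'] [Algebra A A'] [IsScalarTower k A A'] (t : A) [IsLocalization.Away t A']
    (u : A') (hu : algebraMap A A' t * u = 1) :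
    Algebra.adjoin k (Set.range (IsScalarTower.toAlgHom k A A') ∪ {u}) = ⊤ := by
  rw [eq_top_iff]
  intro x _
  obtain ⟨⟨a, ⟨_, n, rfl⟩⟩, hx⟩ := IsLocalization.surj (Submonoid.powers t) x
  simp only [map_pow] at hx
  have hx' : x = algebraMap A A' a * u ^ n := by
    calc x = x * (algebraMap A A' t * u) ^ n := by rw [hu, one_pow, mul_one]
      _ = (x * algebraMap A A' t ^ n) * u ^ n := by rw [mul_pow]; ring
      _ = _ := by rw [hx]
  rw [hx']
  have hu' : u ∈ Algebra.adjoin k (Set.range (IsScalarTower.toAlgHom k A A') ∪ {u}) :=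
    Algebra.subset_adjoin (Set.mem_union_right _ (Set.mem_singleton u))
  have ha' : algebraMap A A' a ∈
      Algebra.adjoin k (Set.range (IsScalarTower.toAlgHom k A A') ∪ {u}) :=
    Algebra.subset_adjoin (Set.mem_union_left _ ⟨a, rfl⟩)
  exact mul_mem ha' (pow_mem hu' n)

end Helpers

section Point

variable {B : Type u} [CommRing B] [Algebra k B]

omit [IsLocalization.Away t A01] [IsLocalization.Away s A01] in
theorem algebraMap_eq_map0 (x : B ⊗[k] A0) :
    algebraMap (B ⊗[k] A0) (B ⊗[k] A01) x =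
      Algebra.TensorProduct.map (AlgHom.id k B) (IsScalarTower.toAlgHom k A0 A01) x := by
  induction x using TensorProduct.induction_on with
  | zero => simp
  | tmul b a => rfl
  | add x y hx hy => simp only [map_add, hx, hy]

omit [IsLocalization.Away t A01] [IsLocalization.Away s A01] in
theorem algebraMap_eq_map1 (x : B ⊗[k] A1) :
    algebraMap (B ⊗[k] A1) (B ⊗[k] A01) x =
      Algebra.TensorProduct.map (AlgHom.id k B) (IsScalarTower.toAlgHom k A1 A01) x := by
  induction x using TensorProduct.induction_on with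
  | zero => simp
  | tmul b a => rfl
  | add x y hx hy => simp only [map_add, hx, hy]

/-! ### Points of the first chart -/

variable (A1 A01) in
/-- The ideal of the graph of a point of the first chart, in the second chart. -/
noncomputable def ideal1 (φ : A0 →ₐ[k] B) : Ideal (B ⊗[k] A1) :=
  I1 (R1 := B ⊗[k] A1) (R01 := B ⊗[k] A01) (graphIdeal φ)

variable (A0 A01) in
/-- The ideal of the graph of a point of the second chart, in the first chart. -/
noncomputable def ideal0 (φ : A1 →ₐ[k] B) : Ideal (B ⊗[k] A0) :=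
  I1 (R1 := B ⊗[k] A0) (R01 := B ⊗[k] A01) (graphIdeal φ)

include s in
omit [IsLocalization.Away t A01] in
theorem map_ideal1 (φ : A0 →ₐ[k] B) :
    (graphIdeal φ).map (algebraMap (B ⊗[k] A0) (B ⊗[k] A01)) =
      (ideal1 A1 A01 φ).map (algebraMap (B ⊗[k] A1) (B ⊗[k] A01)) :=
  (map_I1 (R1 := B ⊗[k] A1) (R01 := B ⊗[k] A01) ((1 : B) ⊗ₜ[k] s) (graphIdeal φ)).symm

include t in
omit [IsLocalization.Away s A01] in
theorem map_ideal0 (φ : A1 →ₐ[k] B) :
    (ideal0 A0 A01 φ).map (algebraMap (B ⊗[k] A0) (B ⊗[k] A01)) =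
      (graphIdeal φ).map (algebraMap (B ⊗[k] A1) (B ⊗[k] A01)) :=
  map_I1 (R1 := B ⊗[k] A0) (R01 := B ⊗[k] A01) ((1 : B) ⊗ₜ[k] t) (graphIdeal φ)

theorem invertible_ideal1 (hts : algebraMap A0 A01 t * algebraMap A1 A01 s = 1)
    (φ : A0 →ₐ[k] B) [Module.Invertible (B ⊗[k] A0) (graphIdeal φ)] :
    Module.Invertible (B ⊗[k] A1) (ideal1 A1 A01 φ) :=
  invertible_I1 (B := B) ((1 : B) ⊗ₜ[k] t) ((1 : B) ⊗ₜ[k] s) (graphIdeal φ) (hts_tensor B hts)

theorem invertible_ideal0 (hts : algebraMap A0 A01 t * algebraMap A1 A01 s = 1)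
    (φ : A1 →ₐ[k] B) [Module.Invertible (B ⊗[k] A1) (graphIdeal φ)] :
    Module.Invertible (B ⊗[k] A0) (ideal0 A0 A01 φ) :=
  invertible_I1 (B := B) ((1 : B) ⊗ₜ[k] s) ((1 : B) ⊗ₜ[k] t) (graphIdeal φ)
    (by rw [mul_comm]; exact hts_tensor B hts)

omit [IsLocalization.Away t A01] [IsLocalization.Away s A01] in
theorem ideal1_sup (hts : algebraMap A0 A01 t * algebraMap A1 A01 s = 1) (φ : A0 →ₐ[k] B) :
    ideal1 A1 A01 φ ⊔ Ideal.span {(1 : B) ⊗ₜ[k] s} = ⊤ := by
  obtain ⟨h, hI1, hs1⟩ := exists_mem_I1_sub_one_mem_span (B := B) (R01 := B ⊗[k] A01)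
    ((1 : B) ⊗ₜ[k] t) ((1 : B) ⊗ₜ[k] s) (graphIdeal φ) (hts_tensor B hts)
  rw [Ideal.eq_top_iff_one]
  have h1 : (1 : B ⊗[k] A1) = h - (h - 1) := by ring
  rw [h1]
  exact Ideal.sub_mem _ (Ideal.mem_sup_left hI1) (Ideal.mem_sup_right hs1)

omit [IsLocalization.Away t A01] [IsLocalization.Away s A01] in
theorem ideal0_sup (hts : algebraMap A0 A01 t * algebraMap A1 A01 s = 1) (φ : A1 →ₐ[k] B) :
    ideal0 A0 A01 φ ⊔ Ideal.span {(1 : B) ⊗ₜ[k] t} = ⊤ := by
  obtain ⟨h, hI1, hs1⟩ := exists_mem_I1_sub_one_mem_span (B := B) (R01 := B ⊗[k] A01)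
    ((1 : B) ⊗ₜ[k] s) ((1 : B) ⊗ₜ[k] t) (graphIdeal φ) (by rw [mul_comm]; exact hts_tensor B hts)
  rw [Ideal.eq_top_iff_one]
  have h1 : (1 : B ⊗[k] A0) = h - (h - 1) := by ring
  rw [h1]
  exact Ideal.sub_mem _ (Ideal.mem_sup_left hI1) (Ideal.mem_sup_right hs1)

/-- The line diagram `O(-Γ_φ)` of a `B`-point `φ` of the first chart. -/
noncomputable def pointDiag0 (hts : algebraMap A0 A01 t * algebraMap A1 A01 s = 1)
    (φ : A0 →ₐ[k] B) [Module.Invertible (B ⊗[k] A0) (graphIdeal φ)] :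
    LineDiag ((1 : B) ⊗ₜ[k] t) ((1 : B) ⊗ₜ[k] s) (B ⊗[k] A01) :=
  haveI := invertible_ideal1 hts φ
  idealDiag _ _ (graphIdeal φ) (ideal1 A1 A01 φ) (map_ideal1 (s := s) φ)

/-- The line diagram `O(-Γ_φ)` of a `B`-point `φ` of the second chart. -/
noncomputable def pointDiag1 (hts : algebraMap A0 A01 t * algebraMap A1 A01 s = 1)
    (φ : A1 →ₐ[k] B) [Module.Invertible (B ⊗[k] A1) (graphIdeal φ)] :
    LineDiag ((1 : B) ⊗ₜ[k] t) ((1 : B) ⊗ₜ[k] s) (B ⊗[k] A01) :=
  haveI := invertible_ideal0 hts φ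
  idealDiag _ _ (ideal0 A0 A01 φ) (graphIdeal φ) (map_ideal0 (t := t) φ)

end Point

section PointBaseChange

variable {B B' : Type u} [CommRing B] [CommRing B'] [Algebra k B] [Algebra k B']
  (ψ : B →ₐ[k] B')

omit [Algebra A0 A01] [Algebra A1 A01] [Algebra k A1] [Algebra k A01]
  [IsScalarTower k A0 A01] [IsScalarTower k A1 A01]
  [IsLocalization.Away t A01] [IsLocalization.Away s A01] in
theorem map_bcMap_graphIdeal (φ : A0 →ₐ[k] B) :
    (graphIdeal φ).map (bcMap ψ A0 A0) = graphIdeal (ψ.comp φ) := by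
  rw [← map_graphIdeal φ ψ]
  exact ideal_map_congr _ _ (fun x => by
    induction x using TensorProduct.induction_on with
    | zero => simp
    | tmul b a => rfl
    | add x y hx hy => simp only [map_add, hx, hy]) _

omit [IsLocalization.Away t A01] in
theorem map_bcMap_ideal1 (hts : algebraMap A0 A01 t * algebraMap A1 A01 s = 1)
    (φ : A0 →ₐ[k] B) :
    (ideal1 A1 A01 φ).map (bcMap ψ A1 A1) = ideal1 A1 A01 (ψ.comp φ) := by
  refine eq_of_map_eq_of_sup_span_eq_top (R01 := B' ⊗[k] A01) ((1 : B') ⊗ₜ[k] s) _ _ ?_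
    (ideal1_sup hts _) ?_
  · have h := congrArg (Ideal.map (bcMap ψ A1 A1)) (ideal1_sup (B := B) hts φ)
    rw [Ideal.map_sup, Ideal.map_span, Set.image_singleton, Ideal.map_top] at h
    have h2 : bcMap ψ A1 A1 ((1 : B) ⊗ₜ[k] s) = (1 : B') ⊗ₜ[k] s := by simp
    rw [h2] at h
    exact h
  · rw [← map_bcMap_eq ψ _ _ (map_ideal1 (s := s) φ), map_bcMap_graphIdeal,
      map_ideal1 (s := s) (ψ.comp φ)]

omit [Algebra A0 A01] [Algebra A1 A01] [Algebra k A0] [Algebra k A01]
  [IsScalarTower k A0 A01] [IsScalarTower k A1 A01]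
  [IsLocalization.Away t A01] [IsLocalization.Away s A01] in
theorem map_bcMap_graphIdeal1 (φ : A1 →ₐ[k] B) :
    (graphIdeal φ).map (bcMap ψ A1 A1) = graphIdeal (ψ.comp φ) := by
  rw [← map_graphIdeal φ ψ]
  exact ideal_map_congr _ _ (fun x => by
    induction x using TensorProduct.induction_on with
    | zero => simp
    | tmul b a => rfl
    | add x y hx hy => simp only [map_add, hx, hy]) _

omit [IsLocalization.Away s A01] in
theorem map_bcMap_ideal0 (hts : algebraMap A0 A01 t * algebraMap A1 A01 s = 1)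
    (φ : A1 →ₐ[k] B) :
    (ideal0 A0 A01 φ).map (bcMap ψ A0 A0) = ideal0 A0 A01 (ψ.comp φ) := by
  refine eq_of_map_eq_of_sup_span_eq_top (R01 := B' ⊗[k] A01) ((1 : B') ⊗ₜ[k] t) _ _ ?_
    (ideal0_sup hts _) ?_
  · have h := congrArg (Ideal.map (bcMap ψ A0 A0)) (ideal0_sup (B := B) hts φ)
    rw [Ideal.map_sup, Ideal.map_span, Set.image_singleton, Ideal.map_top] at h
    have h2 : bcMap ψ A0 A0 ((1 : B) ⊗ₜ[k] t) = (1 : B') ⊗ₜ[k] t := by simp
    rw [h2] at h
    exact h
  · rw [map_bcMap_eq ψ _ _ (map_ideal0 (t := t) φ), map_bcMap_graphIdeal1,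
      map_ideal0 (t := t) (ψ.comp φ)]

/-- **Naturality of the point diagram of the first chart in the base.** -/
theorem bc_cls_pointDiag0 (hts : algebraMap A0 A01 t * algebraMap A1 A01 s = 1)
    (φ : A0 →ₐ[k] B) [Module.Invertible (B ⊗[k] A0) (graphIdeal φ)]
    [Module.Invertible (B' ⊗[k] A0) (graphIdeal (ψ.comp φ))] :
    bc ψ (cls (pointDiag0 hts φ)) = cls (pointDiag0 hts (ψ.comp φ)) := by
  haveI := invertible_ideal1 hts φ
  haveI := invertible_ideal1 hts (ψ.comp φ)
  haveI : Module.Invertible (B' ⊗[k] A0) ((graphIdeal φ).map (bcMap ψ A0 A0)) := by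
    rw [map_bcMap_graphIdeal]; infer_instance
  haveI : Module.Invertible (B' ⊗[k] A1) ((ideal1 A1 A01 φ).map (bcMap ψ A1 A1)) := by
    rw [map_bcMap_ideal1 ψ hts]; infer_instance
  unfold pointDiag0
  rw [bc_cls_idealDiag]
  exact cls_idealDiag_congr (map_bcMap_graphIdeal ψ φ) (map_bcMap_ideal1 ψ hts φ) _ _

/-- **Naturality of the point diagram of the second chart in the base.** -/
theorem bc_cls_pointDiag1 (hts : algebraMap A0 A01 t * algebraMap A1 A01 s = 1)
    (φ : A1 →ₐ[k] B) [Module.Invertible (B ⊗[k] A1) (graphIdeal φ)]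
    [Module.Invertible (B' ⊗[k] A1) (graphIdeal (ψ.comp φ))] :
    bc ψ (cls (pointDiag1 hts φ)) = cls (pointDiag1 hts (ψ.comp φ)) := by
  haveI := invertible_ideal0 hts φ
  haveI := invertible_ideal0 hts (ψ.comp φ)
  haveI : Module.Invertible (B' ⊗[k] A1) ((graphIdeal φ).map (bcMap ψ A1 A1)) := by
    rw [map_bcMap_graphIdeal1]; infer_instance
  haveI : Module.Invertible (B' ⊗[k] A0) ((ideal0 A0 A01 φ).map (bcMap ψ A0 A0)) := by
    rw [map_bcMap_ideal0 ψ hts]; infer_instance
  unfold pointDiag1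
  rw [bc_cls_idealDiag]
  exact cls_idealDiag_congr (map_bcMap_ideal0 ψ hts φ) (map_bcMap_graphIdeal1 ψ φ) _ _

end PointBaseChange

section Overlap

variable {B : Type u} [CommRing B] [Algebra k B]

variable (k A0 A1 A01) in
/-- The restriction `A0 → A01` as an algebra map. -/
noncomputable abbrev res0 : A0 →ₐ[k] A01 := IsScalarTower.toAlgHom k A0 A01

variable (k A0 A1 A01) in
/-- The restriction `A1 → A01` as an algebra map. -/
noncomputable abbrev res1 : A1 →ₐ[k] A01 := IsScalarTower.toAlgHom k A1 A01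

include t in
omit [IsLocalization.Away s A01] [Algebra k A1] [IsScalarTower k A1 A01] in
/-- Over the overlap, the graph ideal of the first chart generates the graph ideal. -/
theorem map_graphIdeal_res0 (hts : algebraMap A0 A01 t * algebraMap A1 A01 s = 1)
    (φ : A01 →ₐ[k] B) :
    (graphIdeal (φ.comp (res0 k A0 A01))).map (algebraMap (B ⊗[k] A0) (B ⊗[k] A01)) =
      graphIdeal φ := by
  rw [← map_graphIdeal_of_adjoin (res0 k A0 A01) φ t (algebraMap A1 A01 s) hts
    (adjoin_range_union_eq_top t _ hts)]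
  exact ideal_map_congr _ _ algebraMap_eq_map0 _

include s in
omit [IsLocalization.Away t A01] [Algebra k A0] [IsScalarTower k A0 A01] in
theorem map_graphIdeal_res1 (hts : algebraMap A0 A01 t * algebraMap A1 A01 s = 1)
    (φ : A01 →ₐ[k] B) :
    (graphIdeal (φ.comp (res1 k A1 A01))).map (algebraMap (B ⊗[k] A1) (B ⊗[k] A01)) =
      graphIdeal φ := by
  rw [← map_graphIdeal_of_adjoin (res1 k A1 A01) φ s (algebraMap A0 A01 t)
    (by rw [mul_comm]; exact hts)
    (adjoin_range_union_eq_top s _ (by rw [mul_comm]; exact hts))]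
  exact ideal_map_congr _ _ algebraMap_eq_map1 _

omit [IsLocalization.Away t A01] [IsLocalization.Away s A01] in
theorem comap_graphIdeal_res0 (φ : A01 →ₐ[k] B) :
    (graphIdeal φ).comap (algebraMap (B ⊗[k] A0) (B ⊗[k] A01)) =
      graphIdeal (φ.comp (res0 k A0 A01)) := by
  rw [← comap_graphIdeal (res0 k A0 A01) φ]
  exact ideal_comap_congr _ _ algebraMap_eq_map0 _

omit [IsLocalization.Away t A01] [IsLocalization.Away s A01] in
theorem comap_graphIdeal_res1 (φ : A01 →ₐ[k] B) :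
    (graphIdeal φ).comap (algebraMap (B ⊗[k] A1) (B ⊗[k] A01)) =
      graphIdeal (φ.comp (res1 k A1 A01)) := by
  rw [← comap_graphIdeal (res1 k A1 A01) φ]
  exact ideal_comap_congr _ _ algebraMap_eq_map1 _

/-- **Agreement on the overlap**: for a point of `U₀ ∩ U₁` the two constructions give the same
class. -/
theorem cls_pointDiag0_eq_cls_pointDiag1 (hts : algebraMap A0 A01 t * algebraMap A1 A01 s = 1)
    (φ : A01 →ₐ[k] B)
    [Module.Invertible (B ⊗[k] A0) (graphIdeal (φ.comp (res0 k A0 A01)))]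
    [Module.Invertible (B ⊗[k] A1) (graphIdeal (φ.comp (res1 k A1 A01)))] :
    cls (pointDiag0 (s := s) hts (φ.comp (res0 k A0 A01))) =
      cls (pointDiag1 (t := t) hts (φ.comp (res1 k A1 A01))) := by
  haveI := invertible_ideal1 hts (φ.comp (res0 k A0 A01))
  haveI := invertible_ideal0 hts (φ.comp (res1 k A1 A01))
  unfold pointDiag0 pointDiag1
  refine cls_idealDiag_congr ?_ ?_ _ _
  · -- `graphIdeal (φ ∘ res0) = ideal0 (φ ∘ res1)`
    unfold ideal0 I1 I01
    rw [map_graphIdeal_res1 hts φ, comap_graphIdeal_res0]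
  · unfold ideal1 I1 I01
    rw [map_graphIdeal_res0 hts φ, comap_graphIdeal_res1]

end Overlap

end Fermat.Agent.JAC.Abel.PointDiag57
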