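/-
Programme JAC (S25), Abel chapter, brick "Surj" (helper56; fallback/parallel of helper57's claimed
`Surj57`, written on top of `JacobiInv57` + `PointDict56`): SURJECTIVITY OF THE ABEL SUM ON
GEOMETRIC POINTS = the input `hsurj` of `Final/AbelSchemeDict27.s25_of_schemeDict_twoCharts`.

* `cls_lineDiagOfDiv_sum`: `[O(Σ D_i)] = ∏ [O(D_i)]`;
* `exists_points_of_degClass_eq_zero` (Setting38 block, `K` algebraically closed, `χ(O) = 1 - g`):
  every class of degree zero is `∏_{i<g} [O([x_i] - [P₀])]`;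
* ConstExt block (`K` algebraically closed over `k`):
  `exists_point_of_place`: `[O([v] - [P0])] = bc p ξ_j` for a `K`-point `p` of the chart `j`;
  `surj_of_degClass`, `surj`: every (rigid) class of degree zero over `K` is
  `∏ i, Sum.elim (bc · xi0) (bc · xi1) (f i)` for some `f : Fin g → (A0 →ₐ[k] K) ⊕ (A1 →ₐ[k] K)`.
-/
import Mathlib
import Fermat.Agent.JAC.Abel.JacobiInv57
import Fermat.Agent.JAC.Abel.PointDict56
import Fermat.Agent.JAC.Fibre.DegInf67

set_option autoImplicit false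
set_option linter.unusedSectionVars false

open AlgebraicCurve IsDedekindDomain Polynomial

namespace Fermat.Agent.JAC.Abel.Surj56

open Fermat.Agent.JAC.Fibre.Lat38 Fermat.Agent.JAC.Fibre.Chart38 Fermat.Agent.JAC.Fibre.Setting38
  Fermat.Agent.JAC.Fibre.Core38
  Fermat.Agent.JAC.Fibre.DiagOfDiv38 Fermat.Agent.JAC.Fibre.DiagExists38
  Fermat.Agent.JAC.Fibre.DiagChi38
  Fermat.Agent.JAC.Fibre.RatPlaces67 Fermat.Agent.JAC.Fibre.PointDiag67
  Fermat.Agent.JAC.Core.Defs36
  Fermat.Agent.JAC.Hilb.SectionDiv46 Fermat.Agent.X0.FFDedekind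
  Fermat.Agent.JAC.Abel.PointDiag56 Fermat.Agent.JAC.Abel.PointDict56
  Fermat.Agent.JAC.Fibre.DiagPrin38 Fermat.Agent.JAC.Fibre.DiagOps38 Fermat.Agent.JAC.Grp.Diag33

universe u

section Abstract

variable {K F : Type u} [Field K] [Field F] [Algebra K F]
  {B₀ : Type u} [CommRing B₀] [IsDedekindDomain B₀] [Algebra B₀ F] [IsFractionRing B₀ F]
  [Algebra K B₀] [IsScalarTower K B₀ F]
  {B₁ : Type u} [CommRing B₁] [IsDedekindDomain B₁] [Algebra B₁ F] [IsFractionRing B₁ F]
  [Algebra K B₁] [IsScalarTower K B₁ F]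
  {B₀₁ : Type u} [CommRing B₀₁] [IsDedekindDomain B₀₁] [Algebra B₀₁ F] [IsFractionRing B₀₁ F]
  [Algebra K B₀₁] [IsScalarTower K B₀₁ F]
  [Algebra B₀ B₀₁] [Algebra B₁ B₀₁] [IsScalarTower B₀ B₀₁ F] [IsScalarTower B₁ B₀₁ F]
  [IsScalarTower K B₀ B₀₁] [IsScalarTower K B₁ B₀₁]
  {t : B₀} {s : B₁} [IsLocalization.Away t B₀₁] [IsLocalization.Away s B₀₁]

/-- `[O(Σ D_i)] = ∏ [O(D_i)]`. -/
theorem cls_lineDiagOfDiv_sum (S : IsSetting K F t s B₀₁) {ι : Type*} (σ : Finset ι)
    (D : ι → Divisor K F) :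
    cls (lineDiagOfDiv S (∑ i ∈ σ, D i)) = ∏ i ∈ σ, cls (lineDiagOfDiv S (D i)) := by
  have h := map_prod (clsOfDiv S) (fun i => Multiplicative.ofAdd (D i)) σ
  simp only [clsOfDiv_apply] at h
  rw [← h, ← ofAdd_sum, clsOfDiv_apply]

/-- **Jacobi inversion in class language**: over an algebraically closed field, every class of
degree zero is a product of `g` classes `[O([x_i] - [P₀])]`. -/
theorem exists_points_of_degClass_eq_zero [IsAlgClosed K] (S : IsSetting K F t s B₀₁)
    (T : TwoChart (chartSet (K := K) (F := F) B₀) (chartSet (K := K) (F := F) B₁))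
    (g : ℕ) (hchi : chi (chartSet (K := K) (F := F) B₀) (chartSet (K := K) (F := F) B₁) 0 = 1 - g)
    (P₀ : Place K F) (z : LineDiag.Classes t s B₀₁)
    (hz : Fermat.Agent.JAC.Core.Degree36.degClass K z = 0) :
    ∃ x : Fin g → Place K F,
      z = ∏ i, cls (lineDiagOfDiv S (Finsupp.single (x i) (1 : ℤ) - Finsupp.single P₀ (1 : ℤ))) := by
  obtain ⟨D, rfl, hD⟩ := Fermat.Agent.JAC.Fibre.DegAdd38.exists_divisor_of_class S T z
  rw [hz] at hD
  obtain ⟨x, f, hf, h⟩ := JacobiInv57.exists_points_of_degree_eq_zero T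
    (fun v => Fermat.Agent.JAC.Fibre.DegInf67.TwoChartPre.deg_eq_one T.toPre v) g hchi P₀ hD.symm
  refine ⟨x, ?_⟩
  rw [← cls_lineDiagOfDiv_sum, cls_eq_iff_principal, Divisor.mem_principal]
  refine ⟨f⁻¹, inv_ne_zero hf, fun v => ?_⟩
  have hv := DFunLike.congr_fun h v
  simp only [Finsupp.add_apply, TwoChart.div_apply, Finsupp.sub_apply] at hv
  rw [Finset.sum_sub_distrib, Finset.sum_const, Finset.card_univ, Fintype.card_fin,
    Finsupp.sub_apply, Finsupp.sub_apply, v.ord_inv]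
  omega

end Abstract

/-! ### The constant extension of CURVE data -/

section ConstExt

open TensorProduct
open scoped Fermat.Agent.JAC.Core.ConstFamily36
open Fermat.Agent.JAC.Fibre.ConstExt37 Fermat.Agent.JAC.Core.AlgAtlas36
  Fermat.Agent.JAC.Core.Degree36 Fermat.Agent.JAC.Fibre.DegAdd38
  Fermat.Agent.JAC.Cover.GraphIdeal98 Fermat.Agent.JAC.Abel.AbelClass56
  Fermat.Agent.JAC.Grp.ConstBc33

variable {k : Type u} [Field k] {A0 A1 A01 : Type u} [CommRing A0] [CommRing A1] [CommRing A01]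
  [Algebra k A0] [Algebra k A1] [Algebra k A01] [Algebra A0 A01] [Algebra A1 A01]
  [IsScalarTower k A0 A01] [IsScalarTower k A1 A01] (t : A0) (s : A1)
  [IsLocalization.Away t A01] [IsLocalization.Away s A01]
  (K : Type u) [Field K] [IsAlgClosed K] [Algebra k K]
  [IsDedekindDomain (K ⊗[k] A0)] [IsDedekindDomain (K ⊗[k] A1)] [IsDedekindDomain (K ⊗[k] A01)]
  (h0 : ChartHyp k A0) (h1 : ChartHyp k A1) (h01 : ChartHyp k A01)
  (hts : algebraMap A0 A01 t * algebraMap A1 A01 s = 1)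
  {n0 n1 : ℕ} {a0 : Fin n0 → A0} {a1 : Fin n1 → A1}
  (ha0 : Function.Bijective (fun p : Fin n0 → k[X] => ∑ j, aeval t (p j) * a0 j))
  (ha1 : Function.Bijective (fun p : Fin n1 → k[X] => ∑ j, aeval s (p j) * a1 j))
  (e : A01 →ₐ[k] k)

include ha0 ha1 in
/-- Over an algebraically closed field `K`, the class `[O([v] - [P0])]` of any place `v` of the
fibre is the value of one of the two universal Abel classes at a `K`-point of a chart. -/
theorem exists_point_of_place (v : Place K (FF k A01 K)) :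
    haveI := isFractionRing₀ (k := k) (A01 := A01) t K
    haveI := isFractionRing₁ (k := k) (A01 := A01) s K
    ∃ q : (A0 →ₐ[k] K) ⊕ (A1 →ₐ[k] K),
      cls (lineDiagOfDiv (isSetting_constExt t s K hts ha0 ha1)
        (Finsupp.single v (1 : ℤ) - Finsupp.single (basePlace K h01 e) (1 : ℤ))) =
      Sum.elim (fun p => bc p (xi0 t s h0 hts e)) (fun p => bc p (xi1 t s h1 hts e)) q := by
  have := isFractionRing₀ (k := k) (A01 := A01) t K
  have := isFractionRing₁ (k := k) (A01 := A01) s K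
  obtain ⟨T, -⟩ := exists_twoChart t s K hts ha0 ha1
  have hdeg : v.deg = 1 := Fermat.Agent.JAC.Fibre.DegInf67.TwoChartPre.deg_eq_one T.toPre v
  have hv : v ∈ chartSet (K := K) (F := FF k A01 K) (K ⊗[k] A0) ∪
      chartSet (K := K) (F := FF k A01 K) (K ⊗[k] A1) := by
    rw [T.cover]; exact Set.mem_univ v
  rcases hv with hv | hv
  · obtain ⟨Φ, hΦ⟩ := exists_placeOfAlgHom_eq (not_isField_tensor K h0) v hv hdeg
    obtain ⟨φ, rfl⟩ := exists_graphMap_eq K Φ
    refine ⟨Sum.inl φ, ?_⟩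
    rw [Sum.elim_inl, bc_xi0, abelCl0_eq_abelPre0, abelPre0_eq t s K h0 h01 hts ha0 ha1 e φ, hΦ]
  · obtain ⟨Φ, hΦ⟩ := exists_placeOfAlgHom_eq (not_isField_tensor K h1) v hv hdeg
    obtain ⟨φ, rfl⟩ := exists_graphMap_eq K Φ
    refine ⟨Sum.inr φ, ?_⟩
    rw [Sum.elim_inr, bc_xi1, abelCl1_eq_abelPre1, abelPre1_eq t s K h1 h01 hts ha0 ha1 e φ, hΦ]

include h01 ha0 ha1 in
/-- **Surjectivity of the Abel sum on geometric points** (`hsurj`, degree form): over an
algebraically closed field `K`, every class of degree zero is a product of `g` values of the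
universal Abel classes `xi0`, `xi1` at `K`-points of the charts, where `χ(O) = 1 - g`. -/
theorem surj_of_degClass (g : ℕ)
    (hchi :
      haveI := isFractionRing₀ (k := k) (A01 := A01) t K
      haveI := isFractionRing₁ (k := k) (A01 := A01) s K
      chi (chartSet (K := K) (F := FF k A01 K) (K ⊗[k] A0))
        (chartSet (K := K) (F := FF k A01 K) (K ⊗[k] A1)) 0 = 1 - g)
    (z : Cl k A0 A1 A01 t s K) (hz : degClass K z = 0) :
    ∃ f : Fin g → (A0 →ₐ[k] K) ⊕ (A1 →ₐ[k] K),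
      z = ∏ i, Sum.elim (fun p => bc p (xi0 t s h0 hts e)) (fun p => bc p (xi1 t s h1 hts e))
        (f i) := by
  have := isFractionRing₀ (k := k) (A01 := A01) t K
  have := isFractionRing₁ (k := k) (A01 := A01) s K
  obtain ⟨T, -⟩ := exists_twoChart t s K hts ha0 ha1
  obtain ⟨x, hx⟩ := exists_points_of_degClass_eq_zero (isSetting_constExt t s K hts ha0 ha1) T g
    hchi (basePlace K h01 e) z hz
  choose f hf using fun i => exists_point_of_place t s K h0 h1 h01 hts ha0 ha1 e (x i)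
  refine ⟨f, ?_⟩
  rw [hx]
  exact Finset.prod_congr rfl fun i _ => hf i

include h01 ha0 ha1 in
/-- **`hsurj`** in the literal shape consumed by `AbelSchemeDict27.s25_of_schemeDict_twoCharts`
(for one algebraically closed field `K`). -/
theorem surj (g : ℕ)
    (hchi :
      haveI := isFractionRing₀ (k := k) (A01 := A01) t K
      haveI := isFractionRing₁ (k := k) (A01 := A01) s K
      chi (chartSet (K := K) (F := FF k A01 K) (K ⊗[k] A0))
        (chartSet (K := K) (F := FF k A01 K) (K ⊗[k] A1)) 0 = 1 - g)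
    (z : Cl k A0 A1 A01 t s K) (_hr : IsRigidCl e K z) (hz : IsDegZero K z) :
    ∃ f : Fin g → (A0 →ₐ[k] K) ⊕ (A1 →ₐ[k] K),
      z = ∏ i, Sum.elim (fun p => bc p (xi0 t s h0 hts e)) (fun p => bc p (xi1 t s h1 hts e))
        (f i) := by
  refine surj_of_degClass t s K h0 h1 h01 hts ha0 ha1 e g hchi z ?_
  have := hz K (AlgHom.id k K)
  rwa [bc_id_apply] at this

end ConstExt

end Fermat.Agent.JAC.Abel.Surj56
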