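/-
Programme JAC (S25), Abel chapter (input (iv) of B6), brick `surj` (Jacobi inversion for the Abel
classes).  Owner: helper57.

* Place language (`Core38.TwoChart`): `exists_points_of_degree_eq_of_le`,
  `exists_points_sub_mem_principal_of_le`: Jacobi inversion under the weaker hypothesis
  `1 - g ≤ χ(O)` (any upper bound `g` of the genus).
* Common two-chart setting (`DiagOfDiv38.IsSetting`): `cls_lineDiagOfDiv_sum`,
  `exists_points_cls` (a class of degree `0` is `∏ i, [O(x_i - P₀)]`), `exists_algHoms_cls` (over an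
  algebraically closed field the `x_i` are the places of `K`-points of the two charts).
* Constant extension of CURVE data (`ConstExt37`): `exists_points_constExt`, and **`surj`**: every
  class of degree `0` over an algebraically closed `K` is a product of `g` Abel classes
  `bc p ξ_j`, `p : A_j →ₐ[k] K` (`ξ_j = AbelClass56.xi0/xi1`; dictionary `PointDict56`).
* `hsurj`: the literal hypothesis `hsurj` of `Final/AbelSchemeDict27.s25_of_schemeDict_twoCharts`.
-/
import Mathlib
import Fermat.Prelude.Def_AlgebraicCurve_Repartitions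
import Fermat.Agent.JAC.Abel.JacobiInv57
import Fermat.Agent.JAC.Fibre.DegAdd38
import Fermat.Agent.JAC.Fibre.DegInf67
import Fermat.Agent.JAC.Fibre.RatPlaces67
import Fermat.Agent.JAC.Abel.AbelClass56
import Fermat.Agent.JAC.Abel.PointDict56
import Fermat.Agent.JAC.Grp.ConstBc33

set_option autoImplicit false
set_option linter.unusedSectionVars false
set_option linter.style.haveILetI false

open AlgebraicCurve TensorProduct

namespace Fermat.Agent.JAC.Abel.Surj57

open Fermat.Agent.JAC.Fibre.Lat38 Fermat.Agent.JAC.Fibre.Core38 Fermat.Agent.JAC.Fibre.Chart38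
  Fermat.Agent.JAC.Fibre.Setting38 Fermat.Agent.JAC.Fibre.DiagOfDiv38
  Fermat.Agent.JAC.Fibre.DiagChi38 Fermat.Agent.JAC.Fibre.DiagExists38
  Fermat.Agent.JAC.Fibre.DiagOps38 Fermat.Agent.JAC.Fibre.DiagPrin38
  Fermat.Agent.JAC.Fibre.DegAdd38 Fermat.Agent.JAC.Fibre.DegInf67
  Fermat.Agent.JAC.Fibre.RatPlaces67
  Fermat.Agent.JAC.Core.Defs36 Fermat.Agent.JAC.Grp.Diag33 Fermat.Agent.JAC.Core.Degree36
  Fermat.Agent.JAC.Abel.JacobiInv57

universe u

/-! ### Jacobi inversion with a bound on the genus (place language) -/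

section Places

variable {K : Type u} {F : Type u} [Field K] [Field F] [Algebra K F] {U₀ U₁ : Set (Place K F)}

/-- **Jacobi inversion, effective form, with a bound**: if `1 - g ≤ χ(O)` and all places have
degree one, every divisor of degree `g` is linearly equivalent to a sum of `g` points. -/
theorem exists_points_of_degree_eq_of_le (T : TwoChart U₀ U₁)
    (hdeg : ∀ v : Place K F, v.deg = 1) (g : ℕ) (hchi : 1 - (g : ℤ) ≤ chi U₀ U₁ 0)
    {D : Divisor K F} (hD : Divisor.degree D = g) :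
    ∃ (x : Fin g → Place K F) (f : F) (hf : f ≠ 0),
      D + T.div f hf = ∑ i, Finsupp.single (x i) 1 := by
  have h1 := T.riemann_inequality D
  rw [hD] at h1
  have hpos : 0 < h0n U₀ U₁ D := by
    have : (0 : ℤ) < h0n U₀ U₁ D := by linarith
    exact_mod_cast this
  obtain ⟨f, hf, hE⟩ := exists_effective_of_h0n_pos T hpos
  have hdegE : Divisor.degree (D + T.div f hf) = g := by
    rw [map_add, T.degree_div, add_zero, hD]
  obtain ⟨x, hx⟩ := exists_points_of_effective hdeg g hE hdegE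
  exact ⟨x, f, hf, hx⟩

/-- **Jacobi inversion with a bound**: every divisor of degree `0` differs from
`∑ i, (x_i - P₀)` by a principal divisor. -/
theorem exists_points_sub_mem_principal_of_le (T : TwoChart U₀ U₁)
    (hdeg : ∀ v : Place K F, v.deg = 1) (g : ℕ) (hchi : 1 - (g : ℤ) ≤ chi U₀ U₁ 0)
    (P₀ : Place K F) {D : Divisor K F} (hD : Divisor.degree D = 0) :
    ∃ x : Fin g → Place K F,
      D - ∑ i, (Finsupp.single (x i) 1 - Finsupp.single P₀ 1) ∈
        Divisor.principal (K := K) (F := F) := by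
  have hD' : Divisor.degree (D + g • Finsupp.single P₀ 1) = g := by
    rw [map_add, hD, map_nsmul, Divisor.degree_single, hdeg P₀]
    simp
  obtain ⟨x, f, hf, h⟩ := exists_points_of_degree_eq_of_le T hdeg g hchi hD'
  refine ⟨x, ?_⟩
  have h2 : D - ∑ i, (Finsupp.single (x i) 1 - Finsupp.single P₀ 1) = - T.div f hf := by
    rw [Finset.sum_sub_distrib, ← h]
    simp only [Finset.sum_const, Finset.card_univ, Fintype.card_fin]
    abel
  rw [h2]
  refine (Divisor.principal (K := K) (F := F)).neg_mem ?_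
  rw [Divisor.mem_principal]
  exact ⟨f, hf, fun v => by simp⟩

end Places

/-! ### Class form in the common two-chart setting -/

section Abstract

variable {K : Type u} {F : Type u} [Field K] [Field F] [Algebra K F]
  {B₀ : Type u} [CommRing B₀] [IsDedekindDomain B₀] [Algebra B₀ F] [IsFractionRing B₀ F]
  [Algebra K B₀] [IsScalarTower K B₀ F]
  {B₁ : Type u} [CommRing B₁] [IsDedekindDomain B₁] [Algebra B₁ F] [IsFractionRing B₁ F]
  [Algebra K B₁] [IsScalarTower K B₁ F]
  {B₀₁ : Type u} [CommRing B₀₁] [IsDedekindDomain B₀₁] [Algebra B₀₁ F] [IsFractionRing B₀₁ F]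
  [Algebra K B₀₁] [IsScalarTower K B₀₁ F]
  [Algebra B₀ B₀₁] [Algebra B₁ B₀₁] [IsScalarTower B₀ B₀₁ F] [IsScalarTower B₁ B₀₁ F]
  [IsScalarTower K B₀ B₀₁] [IsScalarTower K B₁ B₀₁]
  {t : B₀} {s : B₁} [IsLocalization.Away t B₀₁] [IsLocalization.Away s B₀₁]

/-- `[O(∑ E_i)] = ∏ [O(E_i)]`. -/
theorem cls_lineDiagOfDiv_sum (S : IsSetting K F t s B₀₁) {ι : Type*} (σ : Finset ι)
    (E : ι → Divisor K F) :
    cls (lineDiagOfDiv S (∑ i ∈ σ, E i)) = ∏ i ∈ σ, cls (lineDiagOfDiv S (E i)) := by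
  have h := map_prod (clsOfDiv S) (fun i => Multiplicative.ofAdd (E i)) σ
  simp only [clsOfDiv_apply] at h
  rw [← h, ← ofAdd_sum, clsOfDiv_apply]

/-- **Jacobi inversion in class form**: in the common setting, with all places of degree one and
`1 - g ≤ χ(O)`, every class of degree `0` is a product of `g` classes `[O(x_i - P₀)]`. -/
theorem exists_points_cls (S : IsSetting K F t s B₀₁)
    (T : TwoChart (chartSet (K := K) (F := F) B₀) (chartSet (K := K) (F := F) B₁))
    (hdeg : ∀ v : Place K F, v.deg = 1) (g : ℕ)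
    (hchi : 1 - (g : ℤ) ≤
      chi (chartSet (K := K) (F := F) B₀) (chartSet (K := K) (F := F) B₁) 0)
    (P₀ : Place K F) (ζ : LineDiag.Classes t s B₀₁) (hζ : degClass K ζ = 0) :
    ∃ x : Fin g → Place K F,
      ζ = ∏ i, cls (lineDiagOfDiv S (Finsupp.single (x i) 1 - Finsupp.single P₀ 1)) := by
  obtain ⟨D, rfl, hD⟩ := exists_divisor_of_class S T ζ
  rw [hζ] at hD
  obtain ⟨x, hx⟩ := exists_points_sub_mem_principal_of_le T hdeg g hchi P₀ hD.symm
  refine ⟨x, ?_⟩
  rw [← cls_lineDiagOfDiv_sum]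
  exact (cls_eq_iff_principal S _ _).mpr hx


/-- **Jacobi inversion in class form, with `K`-points**: over an algebraically closed field, every
class of degree `0` is a product of `g` classes `[O(x_i - P₀)]`, each `x_i` the place of a
`K`-point of one of the two charts. -/
theorem exists_algHoms_cls [IsAlgClosed K] (S : IsSetting K F t s B₀₁)
    (T : TwoChart (chartSet (K := K) (F := F) B₀) (chartSet (K := K) (F := F) B₁))
    (hB0 : ¬ IsField B₀) (hB1 : ¬ IsField B₁) (g : ℕ)
    (hchi : 1 - (g : ℤ) ≤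
      chi (chartSet (K := K) (F := F) B₀) (chartSet (K := K) (F := F) B₁) 0)
    (P₀ : Place K F) (ζ : LineDiag.Classes t s B₀₁) (hζ : degClass K ζ = 0) :
    ∃ f : Fin g → (B₀ →ₐ[K] K) ⊕ (B₁ →ₐ[K] K),
      ζ = ∏ i, Sum.elim
        (fun Φ => cls (lineDiagOfDiv S
          (Finsupp.single (placeOfAlgHom F hB0 Φ) 1 - Finsupp.single P₀ 1)))
        (fun Φ => cls (lineDiagOfDiv S
          (Finsupp.single (placeOfAlgHom F hB1 Φ) 1 - Finsupp.single P₀ 1))) (f i) := by
  have hdeg : ∀ v : Place K F, v.deg = 1 := fun v =>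
    Fermat.Agent.JAC.Fibre.DegInf67.TwoChartPre.deg_eq_one T.toPre v
  obtain ⟨x, hx⟩ := exists_points_cls S T hdeg g hchi P₀ ζ hζ
  have hex : ∀ v : Place K F, ∃ q : (B₀ →ₐ[K] K) ⊕ (B₁ →ₐ[K] K),
      Sum.elim (fun Φ => placeOfAlgHom F hB0 Φ) (fun Φ => placeOfAlgHom F hB1 Φ) q = v := by
    intro v
    have hv : v ∈ chartSet (K := K) (F := F) B₀ ∪ chartSet (K := K) (F := F) B₁ := by
      rw [IsSetting_union_eq_univ S]; exact Set.mem_univ v
    rcases hv with hv | hv
    · obtain ⟨Φ, hΦ⟩ := exists_placeOfAlgHom_eq hB0 v hv (hdeg v)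
      exact ⟨Sum.inl Φ, hΦ⟩
    · obtain ⟨Φ, hΦ⟩ := exists_placeOfAlgHom_eq hB1 v hv (hdeg v)
      exact ⟨Sum.inr Φ, hΦ⟩
  choose q hq using hex
  refine ⟨fun i => q (x i), ?_⟩
  rw [hx]
  refine Finset.prod_congr rfl fun i _ => ?_
  show _ = Sum.elim _ _ (q (x i))
  conv_lhs => rw [← hq (x i)]
  generalize q (x i) = r
  cases r <;> rfl

end Abstract

/-! ### The constant extension of CURVE data -/

section ConstExt

open scoped Fermat.Agent.JAC.Core.ConstFamily36
open Fermat.Agent.JAC.Fibre.ConstExt37 Fermat.Agent.JAC.Core.AlgAtlas36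
  Fermat.Agent.JAC.Cover.GraphIdeal98 Fermat.Agent.JAC.Abel.PointDiag56
  Fermat.Agent.JAC.Abel.AbelClass56 Fermat.Agent.JAC.Grp.ConstBc33

variable {k : Type u} [Field k]

variable {A0 A1 A01 : Type u} [CommRing A0] [CommRing A1] [CommRing A01]
  [Algebra k A0] [Algebra k A1] [Algebra k A01] [Algebra A0 A01] [Algebra A1 A01]
  [IsScalarTower k A0 A01] [IsScalarTower k A1 A01] (t : A0) (s : A1)
  [IsLocalization.Away t A01] [IsLocalization.Away s A01]
  (K : Type u) [Field K] [Algebra k K] [IsAlgClosed K]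
  [IsDedekindDomain (K ⊗[k] A0)] [IsDedekindDomain (K ⊗[k] A1)] [IsDedekindDomain (K ⊗[k] A01)]
  (hts : algebraMap A0 A01 t * algebraMap A1 A01 s = 1)
  {n0 n1 : ℕ} {a0 : Fin n0 → A0} {a1 : Fin n1 → A1}
  (ha0 : Function.Bijective (fun p : Fin n0 → Polynomial k => ∑ j, Polynomial.aeval t (p j) * a0 j))
  (ha1 : Function.Bijective (fun p : Fin n1 → Polynomial k => ∑ j, Polynomial.aeval s (p j) * a1 j))

include hts ha0 ha1 in
/-- **Jacobi inversion over the constant extension, divisor form of the Abel classes**: over an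
algebraically closed field `K`, every class of degree `0` is a product of `g` classes
`[O(x_i - P₀)]`, each `x_i` the place of a `K`-valued point `φ` of one of the two charts. -/
theorem exists_points_constExt (hB0 : ¬ IsField (K ⊗[k] A0)) (hB1 : ¬ IsField (K ⊗[k] A1))
    (g : ℕ)
    (hchi : haveI := isFractionRing₀ (k := k) (A01 := A01) t K
      haveI := isFractionRing₁ (k := k) (A01 := A01) s K
      1 - (g : ℤ) ≤ chi (chartSet (K := K) (F := FF k A01 K) (K ⊗[k] A0))
        (chartSet (K := K) (F := FF k A01 K) (K ⊗[k] A1)) 0)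
    (P₀ : Place K (FF k A01 K)) (ζ : Cl k A0 A1 A01 t s K) (hζ : degClass K ζ = 0) :
    haveI := isFractionRing₀ (k := k) (A01 := A01) t K
    haveI := isFractionRing₁ (k := k) (A01 := A01) s K
    ∃ f : Fin g → (A0 →ₐ[k] K) ⊕ (A1 →ₐ[k] K),
      ζ = ∏ i, Sum.elim
        (fun φ => cls (lineDiagOfDiv (isSetting_constExt t s K hts ha0 ha1)
          (Finsupp.single (placeOfAlgHom (FF k A01 K) hB0 (graphMap φ)) 1 -
            Finsupp.single P₀ 1)))
        (fun φ => cls (lineDiagOfDiv (isSetting_constExt t s K hts ha0 ha1)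
          (Finsupp.single (placeOfAlgHom (FF k A01 K) hB1 (graphMap φ)) 1 -
            Finsupp.single P₀ 1))) (f i) := by
  haveI := isFractionRing₀ (k := k) (A01 := A01) t K
  haveI := isFractionRing₁ (k := k) (A01 := A01) s K
  obtain ⟨T, -⟩ := exists_twoChart t s K hts ha0 ha1
  obtain ⟨f, hf⟩ := exists_algHoms_cls (isSetting_constExt t s K hts ha0 ha1) T hB0 hB1 g hchi
    P₀ ζ hζ
  have hex : ∀ q : ((K ⊗[k] A0) →ₐ[K] K) ⊕ ((K ⊗[k] A1) →ₐ[K] K),
      ∃ r : (A0 →ₐ[k] K) ⊕ (A1 →ₐ[k] K),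
        Sum.map (fun φ => graphMap φ) (fun φ => graphMap φ) r = q := by
    rintro (Φ | Φ)
    · obtain ⟨φ, hφ⟩ := PointDict56.exists_graphMap_eq K Φ
      exact ⟨Sum.inl φ, by rw [Sum.map_inl, hφ]⟩
    · obtain ⟨φ, hφ⟩ := PointDict56.exists_graphMap_eq K Φ
      exact ⟨Sum.inr φ, by rw [Sum.map_inr, hφ]⟩
  choose r hr using hex
  refine ⟨fun i => r (f i), ?_⟩
  rw [hf]
  refine Finset.prod_congr rfl fun i _ => ?_
  show _ = Sum.elim _ _ (r (f i))
  conv_lhs => rw [← hr (f i)]
  generalize r (f i) = w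
  cases w <;> rfl


variable (h0 : ChartHyp k A0) (h1 : ChartHyp k A1) (h01 : ChartHyp k A01) (e : A01 →ₐ[k] k)

include ha0 ha1 h01 in
/-- **`surj`** (Jacobi inversion for the Abel classes): over an algebraically closed field `K`,
every class of degree `0` is a product of `g` Abel classes `bc p ξ_j` of `K`-valued points `p` of
the two charts (`ξ_j` the universal Abel classes of `Abel/AbelClass56`). -/
theorem surj (g : ℕ)
    (hchi : haveI := isFractionRing₀ (k := k) (A01 := A01) t K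
      haveI := isFractionRing₁ (k := k) (A01 := A01) s K
      1 - (g : ℤ) ≤ chi (chartSet (K := K) (F := FF k A01 K) (K ⊗[k] A0))
        (chartSet (K := K) (F := FF k A01 K) (K ⊗[k] A1)) 0)
    (ζ : Cl k A0 A1 A01 t s K) (hζ : degClass K ζ = 0) :
    ∃ f : Fin g → (A0 →ₐ[k] K) ⊕ (A1 →ₐ[k] K),
      ζ = ∏ i, Sum.elim (fun p => bc p (xi0 t s h0 hts e)) (fun p => bc p (xi1 t s h1 hts e))
        (f i) := by
  haveI := isFractionRing₀ (k := k) (A01 := A01) t K
  haveI := isFractionRing₁ (k := k) (A01 := A01) s K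
  obtain ⟨f, hf⟩ := exists_points_constExt t s K hts ha0 ha1 (PointDict56.not_isField_tensor K h0)
    (PointDict56.not_isField_tensor K h1) g hchi (PointDict56.basePlace K h01 e) ζ hζ
  refine ⟨f, ?_⟩
  rw [hf]
  refine Finset.prod_congr rfl fun i _ => ?_
  generalize f i = w
  rcases w with p | p
  · rw [Sum.elim_inl, Sum.elim_inl, bc_xi0, abelCl0_eq_abelPre0,
      PointDict56.abelPre0_eq t s K h0 h01 hts ha0 ha1 e p]
  · rw [Sum.elim_inr, Sum.elim_inr, bc_xi1, abelCl1_eq_abelPre1,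
      PointDict56.abelPre1_eq t s K h1 h01 hts ha0 ha1 e p]

end ConstExt

/-! ### The hypothesis `hsurj` of `Final/AbelSchemeDict27` -/

section HSurj

open scoped Fermat.Agent.JAC.Core.ConstFamily36
open Fermat.Agent.JAC.Fibre.ConstExt37 Fermat.Agent.JAC.Core.AlgAtlas36
  Fermat.Agent.JAC.Abel.PointDiag56 Fermat.Agent.JAC.Abel.AbelClass56
  Fermat.Agent.JAC.Grp.ConstBc33

variable {k : Type u} [Field k] {A0 A1 A01 : Type u} [CommRing A0] [CommRing A1] [CommRing A01]
  [Algebra k A0] [Algebra k A1] [Algebra k A01] [Algebra A0 A01] [Algebra A1 A01]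
  [IsScalarTower k A0 A01] [IsScalarTower k A1 A01] (t : A0) (s : A1)
  [IsLocalization.Away t A01] [IsLocalization.Away s A01]
  (hts : algebraMap A0 A01 t * algebraMap A1 A01 s = 1)
  {n0 n1 : ℕ} {a0 : Fin n0 → A0} {a1 : Fin n1 → A1}
  (ha0 : Function.Bijective (fun p : Fin n0 → Polynomial k => ∑ j, Polynomial.aeval t (p j) * a0 j))
  (ha1 : Function.Bijective (fun p : Fin n1 → Polynomial k => ∑ j, Polynomial.aeval s (p j) * a1 j))
  (h0 : ChartHyp k A0) (h1 : ChartHyp k A1) (h01 : ChartHyp k A01) (e : A01 →ₐ[k] k)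

include ha0 ha1 h01 in
/-- **The hypothesis `hsurj` of `AbelSchemeDict27.s25_of_schemeDict_twoCharts`**, for the universal
Abel classes `xi0`, `xi1` of `Abel/AbelClass56`, from a uniform bound `1 - g ≤ χ(O)` on the fibres
over algebraically closed fields. -/
theorem hsurj (g : ℕ)
    (hchi : ∀ (K : Type u) [Field K] [IsAlgClosed K] [Algebra k K]
      [IsDedekindDomain (K ⊗[k] A0)] [IsDedekindDomain (K ⊗[k] A1)]
      [IsDedekindDomain (K ⊗[k] A01)],
      haveI := isFractionRing₀ (k := k) (A01 := A01) t K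
      haveI := isFractionRing₁ (k := k) (A01 := A01) s K
      1 - (g : ℤ) ≤ chi (chartSet (K := K) (F := FF k A01 K) (K ⊗[k] A0))
        (chartSet (K := K) (F := FF k A01 K) (K ⊗[k] A1)) 0)
    (K : Type u) [Field K] [IsAlgClosed K] [Algebra k K]
    (z : Cl k A0 A1 A01 t s K) (_hz : IsRigidCl e K z) (hz : IsDegZero K z) :
    ∃ f : Fin g → (A0 →ₐ[k] K) ⊕ (A1 →ₐ[k] K),
      z = ∏ i, Sum.elim (fun p => bc p (xi0 t s h0 hts e)) (fun p => bc p (xi1 t s h1 hts e))
        (f i) := by
  haveI := h0.dedekind K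
  haveI := h1.dedekind K
  haveI := h01.dedekind K
  have hz0 : degClass K z = 0 := by
    have := hz K (AlgHom.id k K)
    rwa [bc_id_apply] at this
  exact surj t s K hts ha0 ha1 h0 h1 h01 e g (hchi K) z hz0

end HSurj

end Fermat.Agent.JAC.Abel.Surj57
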