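/-
Programme JAC (S25), Abel chapter (helper56): `hsurj` INSTANTIATED for helper37's two-chart data
`D : TwoChartData c` of a smooth proper integral curve over an algebraically closed field, with
`g := GenusConst67.genus` (helper67; independent of the geometric point `K`).  Together with
`Abel/AbelBlock56` this gives ALL the Abel-side arguments
`g ξ0 ξ1 hr0 hd0 hr1 hd1 hagree hsurj` of `Final/AbelSchemeDict27.s25_of_schemeDict_twoCharts`
in literal form:
* `genus₀₁ D : ℕ`;
* `chi_zero₀₁ D K : χ(O) = 1 - genus₀₁ D` on every geometric fibre;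
* `hsurj₀₁ D e : ∀ K [Field K] [IsAlgClosed K] [Algebra k K] z, IsRigidCl e K z → IsDegZero K z →
    ∃ f : Fin (genus₀₁ D) → (A₀ D →ₐ[k] K) ⊕ (A₁ D →ₐ[k] K),
      z = ∏ i, Sum.elim (fun p => bc p (xi₀ D e)) (fun p => bc p (xi₁ D e)) (f i)`.
-/
import Fermat.Agent.JAC.Abel.AbelBlock56
import Fermat.Agent.JAC.Abel.Surj56
import Fermat.Agent.JAC.Fibre.GenusConst67

set_option autoImplicit false
set_option linter.unusedSectionVars false
set_option linter.style.haveILetI false

open AlgebraicGeometry CategoryTheory TopologicalSpace Opposite Polynomial TensorProduct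
open scoped Fermat.Agent.JAC.Core.ConstFamily36

namespace Fermat.Agent.JAC.Abel.SurjBlock56

open Fermat.Agent.JAC.B2 Charts37 Domain37 Valuative37 TwoChart37 Export37 CurveBlock37 HGeom37
  FibreSetting37
open Fermat.Agent.JAC.Core.AlgAtlas36 Fermat.Agent.JAC.Core.Degree36
  Fermat.Agent.JAC.Grp.Diag33
  Fermat.Agent.JAC.Fibre.Chart38 Fermat.Agent.JAC.Fibre.ConstExt37
  Fermat.Agent.JAC.Abel.PointDiag56 Fermat.Agent.JAC.Abel.AbelClass56
  Fermat.Agent.JAC.Abel.PointDict56 Fermat.Agent.JAC.Abel.ChartHypBlock56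
  Fermat.Agent.JAC.Abel.AbelBlock56

universe u

variable {k : Type u} [Field k] {C : Scheme.{u}} {c : C ⟶ Spec (.of k)} (D : TwoChartData c)

attribute [local instance] algK₀ algK₁ algK₀₁ alg₀ alg₁

/-- The genus of the curve: `dim_k H¹(C, O)`, computed on the two charts. -/
noncomputable def genus₀₁ : ℕ :=
  Fermat.Agent.JAC.Fibre.GenusConst67.genus k (A₀ D) (A₁ D) (A₀₁ D) D.t D.s

variable [IsAlgClosed k] [IsProper c] [SmoothOfRelativeDimension 1 c] [IsIntegral C]

/-- `χ(O) = 1 - g` on every fibre of the curve, with the same `g`. -/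
theorem chi_zero₀₁ (K : Type u) [Field K] [Algebra k K] :
    haveI := isDedekindDomain_baseChange₀ D K
    haveI := isDedekindDomain_baseChange₁ D K
    haveI := isDedekindDomain_baseChange₀₁ D K
    Fermat.Agent.JAC.Fibre.Core38.chi
        (chartSet (K := K) (F := FF k (A₀₁ D) K) (K ⊗[k] A₀ D))
        (chartSet (K := K) (F := FF k (A₀₁ D) K) (K ⊗[k] A₁ D)) 0 =
      1 - (genus₀₁ D : ℤ) := by
  haveI := isDedekindDomain_baseChange₀ D K
  haveI := isDedekindDomain_baseChange₁ D K
  haveI := isDedekindDomain_baseChange₀₁ D K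
  obtain ⟨n0, a0, ha0⟩ := exists_coords₀ D
  obtain ⟨n1, a1, ha1⟩ := exists_coords₁ D
  exact Fermat.Agent.JAC.Fibre.GenusConst67.chi_zero_eq_one_sub_genus D.t D.s K (hts D) ha0 ha1
    (fun a0 a1 h => h0_eq D a0 a1 h)

/-- **`hsurj` for the S25 curve**: over every algebraically closed field `K` over `k`, every rigid
class of degree zero is a product of `g` values of the universal Abel classes at `K`-points of the
two charts. -/
theorem hsurj₀₁ (e : A₀₁ D →ₐ[k] k) (K : Type u) [Field K] [IsAlgClosed K] [Algebra k K]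
    (z : Cl k (A₀ D) (A₁ D) (A₀₁ D) D.t D.s K) (hr : IsRigidCl e K z) (hz : IsDegZero K z) :
    ∃ f : Fin (genus₀₁ D) → (A₀ D →ₐ[k] K) ⊕ (A₁ D →ₐ[k] K),
      z = ∏ i, Sum.elim (fun p => bc p (xi₀ D e)) (fun p => bc p (xi₁ D e)) (f i) := by
  haveI := isDedekindDomain_baseChange₀ D K
  haveI := isDedekindDomain_baseChange₁ D K
  haveI := isDedekindDomain_baseChange₀₁ D K
  obtain ⟨n0, a0, ha0⟩ := exists_coords₀ D
  obtain ⟨n1, a1, ha1⟩ := exists_coords₁ D
  exact Fermat.Agent.JAC.Abel.Surj56.surj D.t D.s K (chartHyp₀ D) (chartHyp₁ D) (chartHyp₀₁ D)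
    (hts D) ha0 ha1 e (genus₀₁ D)
    (Fermat.Agent.JAC.Fibre.GenusConst67.chi_zero_eq_one_sub_genus D.t D.s K (hts D) ha0 ha1
      (fun a0 a1 h => h0_eq D a0 a1 h)) z hr hz

end Fermat.Agent.JAC.Abel.SurjBlock56
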