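/-
Programme JAC (S25), Abel chapter (helper57): the hypothesis `hsurj` of
`Final/AbelSchemeDict27.s25_of_schemeDict_twoCharts` INSTANTIATED for helper37's two-chart data
`D : TwoChartData c` of a smooth proper integral curve over an algebraically closed field, for the
universal Abel classes `AbelBlock56.xi₀ D e`, `AbelBlock56.xi₁ D e`, with
`g := genus D = dim_k H¹(C, O)` (helper67's `GenusConst67.genus`, the same for every `K`).
-/
import Fermat.Agent.JAC.Abel.Surj57
import Fermat.Agent.JAC.Abel.AbelBlock56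
import Fermat.Agent.JAC.Fibre.GenusConst67

set_option autoImplicit false
set_option linter.unusedSectionVars false
set_option linter.style.haveILetI false

open AlgebraicGeometry CategoryTheory TopologicalSpace Opposite Polynomial TensorProduct
open scoped Fermat.Agent.JAC.Core.ConstFamily36

namespace Fermat.Agent.JAC.Abel.SurjBlock57

open Fermat.Agent.JAC.B2 Charts37 Domain37 Valuative37 TwoChart37 Export37 CurveBlock37 HGeom37
  FibreSetting37
open Fermat.Agent.JAC.Core.AlgAtlas36 Fermat.Agent.JAC.Core.Degree36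
  Fermat.Agent.JAC.Grp.Diag33
  Fermat.Agent.JAC.Abel.PointDiag56 Fermat.Agent.JAC.Abel.AbelClass56
  Fermat.Agent.JAC.Abel.ChartHypBlock56 Fermat.Agent.JAC.Abel.AbelBlock56

universe u

variable {k : Type u} [Field k] {C : Scheme.{u}} {c : C ⟶ Spec (.of k)} (D : TwoChartData c)

attribute [local instance] algK₀ algK₁ algK₀₁ alg₀ alg₁

variable [IsAlgClosed k] [SmoothOfRelativeDimension 1 c]

/-- **The genus** of the curve: `dim_k H¹(C, O)`, computed on the two charts. -/
noncomputable def genus : ℕ :=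
  Fermat.Agent.JAC.Fibre.GenusConst67.genus k (A₀ D) (A₁ D) (A₀₁ D) D.t D.s

variable [IsProper c] [IsIntegral C] (e : A₀₁ D →ₐ[k] k)

/-- **Jacobi inversion for the curve**: the literal hypothesis `hsurj` of
`AbelSchemeDict27.s25_of_schemeDict_twoCharts` for `ξ_j := AbelBlock56.xi_j D e` and
`g := genus D`. -/
theorem hsurj (K : Type u) [Field K] [IsAlgClosed K] [Algebra k K]
    (z : Cl k (A₀ D) (A₁ D) (A₀₁ D) D.t D.s K) (hr : IsRigidCl e K z) (hz : IsDegZero K z) :
    ∃ f : Fin (genus D) → (A₀ D →ₐ[k] K) ⊕ (A₁ D →ₐ[k] K),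
      z = ∏ i, Sum.elim (fun p => bc p (xi₀ D e)) (fun p => bc p (xi₁ D e)) (f i) := by
  obtain ⟨n0, a0, ha0⟩ := exists_coords₀ D
  obtain ⟨n1, a1, ha1⟩ := exists_coords₁ D
  refine Fermat.Agent.JAC.Abel.Surj57.hsurj D.t D.s (hts D) ha0 ha1 (chartHyp₀ D) (chartHyp₁ D)
    (chartHyp₀₁ D) e (genus D) ?_ K z hr hz
  intro K' _ _ _ _ _ _
  rw [Fermat.Agent.JAC.Fibre.GenusConst67.chi_zero_eq_one_sub_genus D.t D.s K' (hts D) ha0 ha1
    (fun a₀ a₁ h => h0_eq D a₀ a₁ h)]
  rfl

end Fermat.Agent.JAC.Abel.SurjBlock57
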