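/-
Programme JAC (S25/S27), Abel chapter (helper57): the hypothesis `hsurj` of
`Final/AbelSchemeDict27.s25_of_schemeDict_twoCharts` in the D-FREE CURVE block form, from
`H : ChartDef24.CurveHyp k A0 A1 A01 t s` alone, with `g := GenusConst67.genus k A0 A1 A01 t s`.
The `ChartHyp` arguments `h0 h1 h01` are arbitrary proofs (proof-irrelevant), so the statement
applies to whatever `xi0 t s h0 H.hts e`, `xi1 t s h1 H.hts e` the assembly uses.
-/
import Fermat.Agent.JAC.Abel.Surj57
import Fermat.Agent.JAC.Fibre.GenusConst67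
import Fermat.Agent.JAC.Hilb.ChartDef24

set_option autoImplicit false
set_option linter.unusedSectionVars false
set_option linter.style.haveILetI false

open TensorProduct
open scoped Fermat.Agent.JAC.Core.ConstFamily36

namespace Fermat.Agent.JAC.Abel.SurjCurveHyp57

open Fermat.Agent.JAC.Core.AlgAtlas36 Fermat.Agent.JAC.Core.Degree36
  Fermat.Agent.JAC.Grp.Diag33 Fermat.Agent.JAC.Hilb.ChartDef24
  Fermat.Agent.JAC.Abel.PointDiag56 Fermat.Agent.JAC.Abel.AbelClass56

universe u

variable {k : Type u} [Field k] {A0 A1 A01 : Type u} [CommRing A0] [CommRing A1] [CommRing A01]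
  [Algebra k A0] [Algebra k A1] [Algebra k A01] [Algebra A0 A01] [Algebra A1 A01]
  [IsScalarTower k A0 A01] [IsScalarTower k A1 A01] {t : A0} {s : A1}
  [IsLocalization.Away t A01] [IsLocalization.Away s A01]

/-- **Jacobi inversion for the Abel classes, CURVE block form**: the literal hypothesis `hsurj` of
`AbelSchemeDict27.s25_of_schemeDict_twoCharts` with `g := GenusConst67.genus k A0 A1 A01 t s`. -/
theorem hsurj (H : CurveHyp k A0 A1 A01 t s) (h0 : ChartHyp k A0) (h1 : ChartHyp k A1)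
    (h01 : ChartHyp k A01) (e : A01 →ₐ[k] k)
    (K : Type u) [Field K] [IsAlgClosed K] [Algebra k K]
    (z : Cl k A0 A1 A01 t s K) (hr : IsRigidCl e K z) (hz : IsDegZero K z) :
    ∃ f : Fin (Fermat.Agent.JAC.Fibre.GenusConst67.genus k A0 A1 A01 t s) →
        (A0 →ₐ[k] K) ⊕ (A1 →ₐ[k] K),
      z = ∏ i, Sum.elim (fun p => bc p (xi0 t s h0 H.hts e)) (fun p => bc p (xi1 t s h1 H.hts e))
        (f i) := by
  obtain ⟨n0, a0, ha0⟩ := H.coords0
  obtain ⟨n1, a1, ha1⟩ := H.coords1
  refine Fermat.Agent.JAC.Abel.Surj57.hsurj t s H.hts ha0 ha1 h0 h1 h01 e _ ?_ K z hr hz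
  intro K' _ _ _ _ _ _
  rw [Fermat.Agent.JAC.Fibre.GenusConst67.chi_zero_eq_one_sub_genus t s K' H.hts ha0 ha1 H.h0]

end Fermat.Agent.JAC.Abel.SurjCurveHyp57
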