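import Mathlib

/-!
# JAC / Abel : the overlap of two open charts as a pullback square

* `isPullback_of_opensRange_inf` : open immersions `ι0 : U0 ⟶ C`, `ι1 : U1 ⟶ C`, `ι01 : U01 ⟶ C`
  and `p0 : U01 ⟶ U0`, `p1 : U01 ⟶ U1` with `p0 ≫ ι0 = ι01`, `p1 ≫ ι1 = ι01` and
  `ι0.opensRange ⊓ ι1.opensRange = ι01.opensRange` form a pullback square.
* `mem_range_or_of_opensRange_sup` : `ι0.opensRange ⊔ ι1.opensRange = ⊤` in pointwise form.
* `isPullback_fromSpec_inf` : the case of two affine opens with affine intersection.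
-/

set_option autoImplicit false

universe u

open CategoryTheory CategoryTheory.Limits AlgebraicGeometry Opposite

namespace Fermat.Agent.JAC.Abel.TwoChartPullback27

variable {C U0 U1 U01 : Scheme.{u}} (ι0 : U0 ⟶ C) (ι1 : U1 ⟶ C) (ι01 : U01 ⟶ C)
  [IsOpenImmersion ι0] [IsOpenImmersion ι1] [IsOpenImmersion ι01]

/-- The overlap of two open charts is their pullback. -/
theorem isPullback_of_opensRange_inf (p0 : U01 ⟶ U0) (p1 : U01 ⟶ U1)
    (h0 : p0 ≫ ι0 = ι01) (h1 : p1 ≫ ι1 = ι01)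
    (hinf : ι0.opensRange ⊓ ι1.opensRange = ι01.opensRange) :
    IsPullback p0 p1 ι0 ι1 := by
  haveI : IsOpenImmersion p1 := by
    haveI : IsOpenImmersion (p1 ≫ ι1) := by rw [h1]; infer_instance
    exact IsOpenImmersion.of_comp p1 ι1
  refine IsOpenImmersion.isPullback p0 p1 ι0 ι1 (h1.trans h0.symm) ?_
  -- `ι1 ⁻¹ᵁ ι0.opensRange = p1.opensRange`
  apply le_antisymm
  · intro x hx
    have hx0 : ι1 x ∈ ι0.opensRange := hx
    have hx01 : ι1 x ∈ ι01.opensRange := by
      rw [← hinf]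
      exact ⟨hx0, ⟨x, rfl⟩⟩
    obtain ⟨y, hy⟩ := hx01
    refine ⟨y, ?_⟩
    apply ι1.isOpenEmbedding.injective
    rw [← hy, ← h1]
    rfl
  · rintro _ ⟨y, rfl⟩
    change ι1 (p1 y) ∈ ι0.opensRange
    have : ι1 (p1 y) = ι0 (p0 y) := by
      have h := congrArg (fun f : U01 ⟶ C => f y) (h1.trans h0.symm)
      exact h
    rw [this]
    exact ⟨p0 y, rfl⟩

omit [IsOpenImmersion ι01] in
/-- Two charts whose ranges cover `C`, pointwise. -/
theorem mem_range_or_of_opensRange_sup (hsup : ι0.opensRange ⊔ ι1.opensRange = ⊤) (x : C) :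
    x ∈ Set.range ι0 ∨ x ∈ Set.range ι1 := by
  have hx : x ∈ ι0.opensRange ⊔ ι1.opensRange := by rw [hsup]; trivial
  exact hx

/-- Two affine opens with affine intersection: the pullback square of spectra. -/
theorem isPullback_fromSpec_inf {U V : C.Opens} (hU : IsAffineOpen U) (hV : IsAffineOpen V)
    (hUV : IsAffineOpen (U ⊓ V)) :
    IsPullback (Spec.map (C.presheaf.map (homOfLE (inf_le_left : U ⊓ V ≤ U)).op))
      (Spec.map (C.presheaf.map (homOfLE (inf_le_right : U ⊓ V ≤ V)).op))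
      hU.fromSpec hV.fromSpec :=
  isPullback_of_opensRange_inf hU.fromSpec hV.fromSpec hUV.fromSpec _ _
    (hU.map_fromSpec hUV _) (hV.map_fromSpec hUV _)
    (by rw [hU.opensRange_fromSpec, hV.opensRange_fromSpec, hUV.opensRange_fromSpec])

end Fermat.Agent.JAC.Abel.TwoChartPullback27
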