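import Mathlib
import Fermat.Agent.JAC.Abel.GlueAbel27

/-!
# JAC / Abel : compatibility on overlaps for two affine charts with affine overlap

* `compat_of_overlaps` : if all pairwise overlaps of the charts are affine (`Spec (A2 i j)` is the
  pullback of `ι i` and `ι j`) then `Compat` follows from equality of the restrictions of the
  `ξ i` to the overlaps.
* `twoA`, `twoι`, `twoξ`, `twoφ` : the `Bool`-indexed family attached to two charts;
  `compat_two` : for two charts `ι0`, `ι1` with `Spec A01 = Spec A0 ×_C Spec A1`,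
  `F.map ψ0 ξ0 = F.map ψ1 ξ1` gives `Compat`; `cover_two`.
-/

set_option autoImplicit false

universe u

open CategoryTheory CategoryTheory.Limits AlgebraicGeometry

namespace Fermat.Agent.JAC.Abel.TwoCharts27

open Fermat.Agent.JAC.Abel.GlueAbel27

variable {F : CommRingCat.{u} ⥤ Type u} {C : Scheme.{u}}

section General

variable {I : Type*} {A : I → CommRingCat.{u}} {ι : ∀ j, Spec (A j) ⟶ C} {ξ : ∀ j, F.obj (A j)}

/-- Compatibility on affine overlaps. -/
theorem compat_of_overlaps {A2 : I → I → CommRingCat.{u}} (ψl : ∀ i j, A i ⟶ A2 i j)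
    (ψr : ∀ i j, A j ⟶ A2 i j)
    (hpb : ∀ i j, IsPullback (Spec.map (ψl i j)) (Spec.map (ψr i j)) (ι i) (ι j))
    (h : ∀ i j, F.map (ψl i j) (ξ i) = F.map (ψr i j) (ξ j)) : Compat ι ξ := by
  intro i j R u v huv
  obtain ⟨w, hw⟩ := Spec.map_surjective ((hpb i j).lift (Spec.map u) (Spec.map v) huv)
  have hu : u = ψl i j ≫ w := by
    apply Spec.map_injective
    rw [Spec.map_comp, hw, IsPullback.lift_fst]
  have hv : v = ψr i j ≫ w := by
    apply Spec.map_injective
    rw [Spec.map_comp, hw, IsPullback.lift_snd]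
  rw [hu, hv, Functor.map_comp, Functor.map_comp]
  change F.map w (F.map (ψl i j) (ξ i)) = F.map w (F.map (ψr i j) (ξ j))
  rw [h]

end General

section Two

variable {A0 A1 A01 : CommRingCat.{u}}

/-- The `Bool`-indexed family of rings of two charts. -/
def twoA (A0 A1 : CommRingCat.{u}) : Bool → CommRingCat.{u}
  | false => A0
  | true => A1

/-- The `Bool`-indexed family of chart morphisms. -/
def twoι (ι0 : Spec A0 ⟶ C) (ι1 : Spec A1 ⟶ C) : ∀ b, Spec (twoA A0 A1 b) ⟶ C
  | false => ι0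
  | true => ι1

/-- The `Bool`-indexed family of chart points. -/
def twoξ (ξ0 : F.obj A0) (ξ1 : F.obj A1) : ∀ b, F.obj (twoA A0 A1 b)
  | false => ξ0
  | true => ξ1

/-- The `Bool`-indexed family of structure maps. -/
def twoφ {k : CommRingCat.{u}} (φ0 : k ⟶ A0) (φ1 : k ⟶ A1) : ∀ b, k ⟶ twoA A0 A1 b
  | false => φ0
  | true => φ1

instance (ι0 : Spec A0 ⟶ C) (ι1 : Spec A1 ⟶ C) [IsOpenImmersion ι0] [IsOpenImmersion ι1]
    (b : Bool) : IsOpenImmersion (twoι ι0 ι1 b) := by
  cases b <;> assumption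

theorem cover_two (ι0 : Spec A0 ⟶ C) (ι1 : Spec A1 ⟶ C)
    (h : ∀ x : C, x ∈ Set.range ι0 ∨ x ∈ Set.range ι1) :
    ∀ x : C, ∃ b, x ∈ Set.range (twoι ι0 ι1 b) := fun x =>
  (h x).elim (fun h0 => ⟨false, h0⟩) (fun h1 => ⟨true, h1⟩)

/-- Compatibility for two charts with affine overlap. -/
theorem compat_two (ι0 : Spec A0 ⟶ C) (ι1 : Spec A1 ⟶ C) [Mono ι0] [Mono ι1]
    (ψ0 : A0 ⟶ A01) (ψ1 : A1 ⟶ A01)
    (hpb : IsPullback (Spec.map ψ0) (Spec.map ψ1) ι0 ι1)
    (ξ0 : F.obj A0) (ξ1 : F.obj A1) (h : F.map ψ0 ξ0 = F.map ψ1 ξ1) :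
    Compat (twoι ι0 ι1) (twoξ (F := F) ξ0 ξ1) := by
  have h01 : ∀ (R : CommRingCat.{u}) (u : A0 ⟶ R) (v : A1 ⟶ R),
      Spec.map u ≫ ι0 = Spec.map v ≫ ι1 → F.map u ξ0 = F.map v ξ1 := by
    intro R u v huv
    obtain ⟨w, hw⟩ := Spec.map_surjective (hpb.lift (Spec.map u) (Spec.map v) huv)
    have hu : u = ψ0 ≫ w := by
      apply Spec.map_injective
      rw [Spec.map_comp, hw, IsPullback.lift_fst]
    have hv : v = ψ1 ≫ w := by
      apply Spec.map_injective
      rw [Spec.map_comp, hw, IsPullback.lift_snd]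
    rw [hu, hv, Functor.map_comp, Functor.map_comp]
    change F.map w (F.map ψ0 ξ0) = F.map w (F.map ψ1 ξ1)
    rw [h]
  intro i j R u v huv
  cases i <;> cases j
  · have : u = v := Spec.map_injective ((cancel_mono ι0).mp huv)
    rw [this]
  · exact h01 R u v huv
  · exact (h01 R v u huv.symm).symm
  · have : u = v := Spec.map_injective ((cancel_mono ι1).mp huv)
    rw [this]

end Two

end Fermat.Agent.JAC.Abel.TwoCharts27
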